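import Fermat.Agent.ES.Mid.HeckeDefs
import Fermat.Agent.S24.FunAlgCusp
import Fermat.Agent.S24.FunAlgInv
import Fermat.Agent.S24.FunAlgProps

/-!
# ES / Mid / H : glue — `Stmt_Hecke` from the packages `HF*`, `HA*`, `InvRat`, `IntRep`
-/

set_option autoImplicit false

namespace Fermat.Agent.ES.Mid.HG

open UpperHalfPlane CongruenceSubgroup AlgebraicCurve
open scoped MatrixGroups Manifold
open Fermat.Agent.S24 (Qbar FF funAlg iota)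
open Fermat.Agent.S24.QX (qExpHom cmI qExpFun)
attribute [local instance] Fermat.Agent.S24.algQbarComplex

/-! ### `funN` is multiplicative -/

section FunN

variable (N : ℕ) {ℓ : ℕ} (hℓ : ℓ.Prime) (hℓN : ¬ ℓ ∣ N)

theorem funN_one_apply (z : ℍ) : funN N hℓ hℓN (fun _ => 1) z = 1 := by
  simp [funN]

theorem funN_rel {m : ℕ} {a b t₁ t₂ : ℍ → ℂ} (h : ∀ z, a z ^ m * t₂ z = b z ^ m * t₁ z) (z : ℍ) :
    funN N hℓ hℓN a z ^ m * funN N hℓ hℓN t₂ z = funN N hℓ hℓN b z ^ m * funN N hℓ hℓN t₁ z := by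
  simp only [funN]
  rw [← Finset.prod_pow, ← Finset.prod_pow, ← Finset.prod_mul_distrib, ← Finset.prod_mul_distrib]
  exact Finset.prod_congr rfl fun x _ => h _

end FunN

/-! ### formal facts -/

section Formal

variable {ℓ : ℕ} [NeZero ℓ] {ζ : Qbarˣ}

theorem formalN_ne_zero (hmul : Stmt_HF_mul) (hζ : IsPrimitiveRoot ζ ℓ) {x : LaurentSeries Qbar}
    (hx : x ≠ 0) : formalN ℓ ζ x ≠ 0 := by
  obtain ⟨h1, h2⟩ := hmul Qbar ℓ ζ hζ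
  intro h0
  have h3 := h2 x x⁻¹
  rw [mul_inv_cancel₀ hx, h1, h0, zero_mul] at h3
  exact one_ne_zero h3

end Formal

theorem qExpHom_ne_zero (N : ℕ) [NeZero N] {θ : funAlg N} (hθ : θ ≠ 0) :
    ((qExpHom N θ : FF N) : LaurentSeries Qbar) ≠ 0 := by
  intro h
  apply hθ
  apply Fermat.Agent.S24.QX.qExpHom_injective N
  rw [map_zero]
  exact Subtype.ext h

theorem funAlg_mul_ne_zero (N : ℕ) [NeZero N] {θ θ' : funAlg N} (hθ : θ ≠ 0) (hθ' : θ' ≠ 0) :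
    θ * θ' ≠ 0 := by
  intro h
  have h1 := congrArg (fun t => ((qExpHom N t : FF N) : LaurentSeries Qbar)) h
  simp only [map_mul, map_zero] at h1
  exact mul_ne_zero (qExpHom_ne_zero N hθ) (qExpHom_ne_zero N hθ') h1

/-! ### (M) : `formalN` of a `q`-expansion -/

section M

variable (hI : Stmt_InvRat) (hchar : Stmt_HA_char) (hmd : Stmt_HA_mdiff) (hrep : Stmt_HA_rep)
  (hgr : Stmt_HA_growth)

include hI hchar hmd hrep hgr in
theorem exists_frac (N : ℕ) [NeZero N] {ℓ : ℕ} [NeZero ℓ] (hℓ : ℓ.Prime) (hℓN : ¬ ℓ ∣ N)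
    (ζ : Qbarˣ) (hζ : IsPrimitiveRoot ζ ℓ) (θ : funAlg N) :
    ∃ α β : funAlg N, β ≠ 0 ∧
      (∀ z, funN N hℓ hℓN (θ : ℍ → ℂ) z * (β : ℍ → ℂ) z = (α : ℍ → ℂ) z) ∧
      formalN ℓ ζ ((qExpHom N θ : FF N) : LaurentSeries Qbar)
          * ((qExpHom N β : FF N) : LaurentSeries Qbar)
        = ((qExpHom N α : FF N) : LaurentSeries Qbar) := by
  have hθmd : MDiff (θ : ℍ → ℂ) := Fermat.Agent.S24.funAlg_mdiff θ.2
  have hinv : ∀ γ ∈ Gamma0 N, ∀ z : ℍ,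
      funN N hℓ hℓN (θ : ℍ → ℂ) (γ • z) = funN N hℓ hℓN (θ : ℍ → ℂ) z := by
    intro γ hγ z
    have h := hchar N hℓ hℓN 1 (θ : ℍ → ℂ) (fun _ => 1) 0 (by
      intro γ z
      rw [Fermat.Agent.S24.funAlg_invariant θ.2 (γ : SL(2, ℤ)) γ.2 z, AddMonoidHom.zero_apply,
        AddChar.map_zero_eq_one]
      ring) ⟨γ, hγ⟩ z
    rw [funN_one_apply, funN_one_apply, map_zero, AddMonoidHom.zero_apply,
      AddChar.map_zero_eq_one, mul_one, mul_one, one_mul] at h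
    exact h
  have hgrowth : Growth (funN N hℓ hℓN (θ : ℍ → ℂ)) :=
    hgr N hℓ hℓN _ hθmd (fun g => Fermat.Agent.S24.funAlg_growth θ.2 g)
  obtain ⟨θ₁, θ₂, h2, hfun, hser⟩ := hI N (funN N hℓ hℓN (θ : ℍ → ℂ))
    (formalN ℓ ζ (qExpFun N θ)) (hmd N hℓ hℓN _ hθmd).1 hinv hgrowth
    (hrep N hℓ hℓN ζ hζ _ _ hθmd (Fermat.Agent.S24.QX.qExpFun_rep N θ))
  exact ⟨θ₁, θ₂, h2, hfun, hser⟩

variable (hmul : Stmt_HF_mul)

/-- every element of `F_N` is a quotient of elements of `ℚ̄[j_d]`. -/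
theorem exists_quot (N : ℕ) [NeZero N] (f : FF N) :
    ∃ a b : funAlg N, b ≠ 0 ∧ f * qExpHom N b = qExpHom N a := by
  obtain ⟨r, hr, s, hs, hf⟩ :=
    IntermediateField.mem_adjoin_iff_div.mp (Fermat.Agent.S24.QX.modularFunctionFieldBar_le N f.2)
  obtain ⟨a, ha⟩ := Fermat.Agent.S24.QX.exists_qExpFun_eq N hr
  obtain ⟨b, hb⟩ := Fermat.Agent.S24.QX.exists_qExpFun_eq N hs
  by_cases hs0 : s = 0
  · refine ⟨0, 1, one_ne_zero, ?_⟩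
    have hf0 : f = 0 := Subtype.ext (by rw [hf, hs0, div_zero]; rfl)
    rw [hf0, zero_mul, map_zero]
  · refine ⟨a, b, ?_, ?_⟩
    · rintro rfl
      apply hs0
      rw [← hb]
      exact congrArg Subtype.val (map_zero (qExpHom N))
    · apply Subtype.ext
      show (f : LaurentSeries Qbar) * qExpFun N b = qExpFun N a
      rw [ha, hb, hf, div_mul_cancel₀ _ hs0]

include hI hchar hmd hrep hgr in
theorem formalN_qExp_mem (N : ℕ) [NeZero N] {ℓ : ℕ} [NeZero ℓ] (hℓ : ℓ.Prime) (hℓN : ¬ ℓ ∣ N)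
    (ζ : Qbarˣ) (hζ : IsPrimitiveRoot ζ ℓ) (θ : funAlg N) :
    formalN ℓ ζ ((qExpHom N θ : FF N) : LaurentSeries Qbar)
      ∈ ModularCurve.modularFunctionFieldBar N := by
  obtain ⟨α, β, hβ, -, hser⟩ := exists_frac hI hchar hmd hrep hgr N hℓ hℓN ζ hζ θ
  have h0 := qExpHom_ne_zero N hβ
  rw [eq_div_of_mul_eq h0 hser]
  exact div_mem (qExpHom N α).2 (qExpHom N β).2

include hI hchar hmd hrep hgr hmul in
theorem formalN_mem (N : ℕ) [NeZero N] {ℓ : ℕ} [NeZero ℓ] (hℓ : ℓ.Prime) (hℓN : ¬ ℓ ∣ N)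
    (ζ : Qbarˣ) (hζ : IsPrimitiveRoot ζ ℓ) (u : FF N) :
    formalN ℓ ζ (u : LaurentSeries Qbar) ∈ ModularCurve.modularFunctionFieldBar N := by
  obtain ⟨a, b, hb, hab⟩ := exists_quot N u
  have hab' : (u : LaurentSeries Qbar) * ((qExpHom N b : FF N) : LaurentSeries Qbar)
      = ((qExpHom N a : FF N) : LaurentSeries Qbar) := congrArg Subtype.val hab
  have h1 := (hmul Qbar ℓ ζ hζ).2 (u : LaurentSeries Qbar) ((qExpHom N b : FF N) : LaurentSeries Qbar)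
  rw [hab'] at h1
  have h0 := formalN_ne_zero hmul hζ (qExpHom_ne_zero N hb)
  rw [eq_div_of_mul_eq h0 h1.symm]
  exact div_mem (formalN_qExp_mem hI hchar hmd hrep hgr N hℓ hℓN ζ hζ a)
    (formalN_qExp_mem hI hchar hmd hrep hgr N hℓ hℓN ζ hζ b)

end M

/-! ### the operator -/

section Op

variable {N : ℕ} {ℓ : ℕ} [NeZero ℓ] {ζ : Qbarˣ}
  (hmem : ∀ u : FF N, formalN ℓ ζ (u : LaurentSeries Qbar) ∈ ModularCurve.modularFunctionFieldBar N)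

/-- `N_ℓ` as a self-map of `F_N`. -/
noncomputable def mkN (u : FF N) : FF N := ⟨formalN ℓ ζ (u : LaurentSeries Qbar), hmem u⟩

theorem coe_mkN (u : FF N) : ((mkN hmem u : FF N) : LaurentSeries Qbar)
    = formalN ℓ ζ (u : LaurentSeries Qbar) := rfl

theorem mkN_mul (hmul : Stmt_HF_mul) (hζ : IsPrimitiveRoot ζ ℓ) (u v : FF N) :
    mkN hmem (u * v) = mkN hmem u * mkN hmem v :=
  Subtype.ext ((hmul Qbar ℓ ζ hζ).2 _ _)

theorem mkN_ne_zero (hmul : Stmt_HF_mul) (hζ : IsPrimitiveRoot ζ ℓ) {u : FF N} (hu : u ≠ 0) :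
    mkN hmem u ≠ 0 := by
  intro h
  exact formalN_ne_zero hmul hζ (fun h0 => hu (Subtype.ext h0)) (congrArg Subtype.val h)

theorem mkN_gal (hmap : Stmt_HF_map) (hind : Stmt_HF_indep) (hζ : IsPrimitiveRoot ζ ℓ) (σ : GQ)
    (u : FF N) : mkN hmem (gal N σ u) = gal N σ (mkN hmem u) := by
  apply Subtype.ext
  rw [coe_mkN, coe_gal, coe_gal, coe_mkN, hmap Qbar Qbar (σ : Qbar →+* Qbar) ℓ ζ]
  refine hind Qbar ℓ _ _ hζ ?_ _
  exact hζ.map_of_injective (f := Units.map ((σ : Qbar →+* Qbar) : Qbar →* Qbar))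
    (Units.map_injective (σ : Qbar →+* Qbar).injective)

end Op

/-! ### (P1) -/

theorem kum_mkN (hI : Stmt_InvRat) (hchar : Stmt_HA_char) (hmd : Stmt_HA_mdiff)
    (hrep : Stmt_HA_rep) (hgr : Stmt_HA_growth) (hmul : Stmt_HF_mul)
    (N : ℕ) [NeZero N] {ℓ : ℕ} [NeZero ℓ] (hℓ : ℓ.Prime) (hℓN : ¬ ℓ ∣ N)
    (ζ : Qbarˣ) (hζ : IsPrimitiveRoot ζ ℓ)
    (hmem : ∀ u : FF N,
      formalN ℓ ζ (u : LaurentSeries Qbar) ∈ ModularCurve.modularFunctionFieldBar N)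
    (m : ℕ) [NeZero m] (u : FF N) (χ : Additive (Gamma0 N) →+ ZMod m) (h : Kum N m u χ) :
    Kum N m (mkN hmem u) (tau N ⟨ℓ, hℓ⟩ (ZMod m) χ) := by
  obtain ⟨a, b, θ₁, θ₂, ha, hb, ha0, hb0, hθ₂, hu, hrel, hchi⟩ := h
  obtain ⟨α₁, β₁, hβ₁, hf₁, hs₁⟩ := exists_frac hI hchar hmd hrep hgr N hℓ hℓN ζ hζ θ₁
  obtain ⟨α₂, β₂, hβ₂, hf₂, hs₂⟩ := exists_frac hI hchar hmd hrep hgr N hℓ hℓN ζ hζ θ₂
  have hα₂ : α₂ ≠ 0 := by
    rintro rfl
    rw [map_zero] at hs₂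
    exact mul_ne_zero (formalN_ne_zero hmul hζ (qExpHom_ne_zero N hθ₂)) (qExpHom_ne_zero N hβ₂) hs₂
  refine ⟨funN N hℓ hℓN a, funN N hℓ hℓN b, α₁ * β₂, α₂ * β₁, (hmd N hℓ hℓN a ha).1,
    (hmd N hℓ hℓN b hb).1, (hmd N hℓ hℓN a ha).2 ha0, (hmd N hℓ hℓN b hb).2 hb0,
    funAlg_mul_ne_zero N hα₂ hβ₁, ?_, ?_, hchar N hℓ hℓN m a b χ hchi⟩
  · apply Subtype.ext
    have hu' : (u : LaurentSeries Qbar) * ((qExpHom N θ₂ : FF N) : LaurentSeries Qbar)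
        = ((qExpHom N θ₁ : FF N) : LaurentSeries Qbar) := congrArg Subtype.val hu
    have h1 := (hmul Qbar ℓ ζ hζ).2 (u : LaurentSeries Qbar)
      ((qExpHom N θ₂ : FF N) : LaurentSeries Qbar)
    rw [hu'] at h1
    rw [map_mul, map_mul]
    show formalN ℓ ζ (u : LaurentSeries Qbar) * (((qExpHom N α₂ : FF N) : LaurentSeries Qbar)
        * ((qExpHom N β₁ : FF N) : LaurentSeries Qbar))
      = ((qExpHom N α₁ : FF N) : LaurentSeries Qbar) * ((qExpHom N β₂ : FF N) : LaurentSeries Qbar)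
    rw [← hs₁, ← hs₂, h1]
    ring
  · intro z
    have h1 := funN_rel N hℓ hℓN hrel z
    show funN N hℓ hℓN a z ^ m * ((α₂ : ℍ → ℂ) z * (β₁ : ℍ → ℂ) z)
      = funN N hℓ hℓN b z ^ m * ((α₁ : ℍ → ℂ) z * (β₂ : ℍ → ℂ) z)
    rw [← hf₁ z, ← hf₂ z]
    linear_combination ((β₁ : ℍ → ℂ) z * (β₂ : ℍ → ℂ) z) * h1

/-! ### (P3) -/

theorem cong_mkN (hInt : Stmt_IntRep) (hcong : Stmt_HF_cong) (hmul : Stmt_HF_mul)
    (N : ℕ) [NeZero N] {ℓ : ℕ} [NeZero ℓ] (hℓ : ℓ.Prime)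
    (ζ : Qbarˣ) (hζ : IsPrimitiveRoot ζ ℓ)
    (hmem : ∀ u : FF N,
      formalN ℓ ζ (u : LaurentSeries Qbar) ∈ ModularCurve.modularFunctionFieldBar N)
    (A : ValuationSubring Qbar) (hA : A.LiesOverPrime ℓ) (σ : GQ) (hσ : A.IsFrobeniusAt σ ℓ)
    (u : FF N) (hu : u ≠ 0) :
    CongOne N A (gal N σ (gal N σ u) * u ^ ℓ * (mkN hmem (gal N σ u))⁻¹) := by
  obtain ⟨y₁, y₂, θ₁, θ₂, hy₁, hy₂, hu12, hr₁, hr₂⟩ := hInt N ℓ A hℓ hA u hu
  obtain ⟨a₁, a₂, w, ha₁, ha₂, hw, hrw, hra⟩ := hcong ℓ hℓ A hA σ hσ ζ hζ y₁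
  obtain ⟨b₁, b₂, w', hb₁, hb₂, hw', hrw', hrb⟩ := hcong ℓ hℓ A hA σ hσ ζ hζ y₂
  set X₁ : FF N := qExpHom N θ₁ with hX₁
  set X₂ : FF N := qExpHom N θ₂ with hX₂
  -- the two series, as elements of `F_N`
  have hY1 : ModularCurve.coeffMap A.subtype (a₂ * y₁ ^ ℓ * w')
      = ((gal N σ (gal N σ X₁) * X₁ ^ ℓ * mkN hmem (gal N σ X₂) : FF N) : LaurentSeries Qbar) := by
    rw [map_mul, map_mul, map_pow, ha₂, ha₁, hw', hb₁, hy₁, hy₂]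
    rfl
  have hY2 : ModularCurve.coeffMap A.subtype (b₂ * y₂ ^ ℓ * w)
      = ((gal N σ (gal N σ X₂) * X₂ ^ ℓ * mkN hmem (gal N σ X₁) : FF N) : LaurentSeries Qbar) := by
    rw [map_mul, map_mul, map_pow, hb₂, hb₁, hw, ha₁, hy₁, hy₂]
    rfl
  refine ⟨a₂ * y₁ ^ ℓ * w', b₂ * y₂ ^ ℓ * w, ?_, ?_, ?_, ?_, ?_⟩
  · rw [hY1]; exact Subtype.property _
  · rw [hY2]; exact Subtype.property _
  · rw [hY1, hY2]
    have hgu : gal N σ u ≠ 0 := by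
      simpa using hu
    have h0 : mkN hmem (gal N σ u) ≠ 0 := mkN_ne_zero hmem hmul hζ hgu
    have e1 : gal N σ (gal N σ u) * gal N σ (gal N σ X₂) = gal N σ (gal N σ X₁) := by
      rw [← map_mul, ← map_mul, hu12]
    have e2 : mkN hmem (gal N σ u) * mkN hmem (gal N σ X₂) = mkN hmem (gal N σ X₁) := by
      rw [← mkN_mul hmem hmul hζ, ← map_mul, hu12]
    have key : gal N σ (gal N σ u) * u ^ ℓ * (mkN hmem (gal N σ u))⁻¹
          * (gal N σ (gal N σ X₂) * X₂ ^ ℓ * mkN hmem (gal N σ X₁))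
        = gal N σ (gal N σ X₁) * X₁ ^ ℓ * mkN hmem (gal N σ X₂) := by
      rw [← e1, ← e2, ← hu12, mul_pow]
      field_simp
    exact congrArg Subtype.val key
  · rw [map_mul, map_mul, map_pow, map_mul, map_mul, map_pow, hrw, hrw']
    ring
  · rw [map_mul, map_mul, map_pow, hrw]
    exact mul_ne_zero (mul_ne_zero (hrb hr₂) (pow_ne_zero _ hr₂))
      (mul_ne_zero (hra hr₁) (pow_ne_zero _ hr₁))

end Fermat.Agent.ES.Mid.HG

namespace Fermat.Agent.ES.Mid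

open Fermat.Agent.S24 (Qbar FF)

open HG in
/-- **(H)** the multiplicative Hecke operator. -/
theorem hecke (hmul : Stmt_HF_mul) (hmap : Stmt_HF_map) (hind : Stmt_HF_indep)
    (hcong : Stmt_HF_cong) (hchar : Stmt_HA_char) (hmd : Stmt_HA_mdiff) (hrep : Stmt_HA_rep)
    (hgr : Stmt_HA_growth) (hI : Stmt_InvRat) (hInt : Stmt_IntRep) : Stmt_Hecke := by
  intro N _ ℓ hℓN
  have hℓ : (ℓ : ℕ).Prime := ℓ.2
  have : NeZero (ℓ : ℕ) := ⟨hℓ.ne_zero⟩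
  obtain ⟨ζ₀, hζ₀⟩ := HasEnoughRootsOfUnity.exists_primitiveRoot Qbar (ℓ : ℕ)
  obtain ⟨ζ, rfl⟩ := hζ₀.isUnit (NeZero.ne _)
  have hζ : IsPrimitiveRoot ζ (ℓ : ℕ) := IsPrimitiveRoot.coe_units_iff.mp hζ₀
  have hmem := formalN_mem hI hchar hmd hrep hgr hmul N hℓ hℓN ζ hζ
  refine ⟨mkN hmem, ?_, ?_, ?_⟩
  · intro m _ u χ h
    exact kum_mkN hI hchar hmd hrep hgr hmul N hℓ hℓN ζ hζ hmem m u χ h
  · intro σ u
    exact mkN_gal hmem hmap hind hζ σ u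
  · intro A hA σ hσ u hu
    exact cong_mkN hInt hcong hmul N hℓ ζ hζ hmem A hA σ hσ u hu

end Fermat.Agent.ES.Mid
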