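import Fermat.Agent.ES.Mid.HeckeDefs

/-!
# ES / Mid / HF3 : the congruence `N_ℓ(σ y) ≡ σ²(y) y^ℓ` modulo the maximal ideal (helper60)
-/

set_option autoImplicit false

namespace Fermat.Agent.ES.Mid.HF3

open Fermat.Agent.S24 (Qbar)
open ModularCurve

variable (A : ValuationSubring Qbar) (σ : GQ) (ℓ : ℕ)

theorem sigma_mem (hσ : σ ∈ A.decompositionSubgroup ℚ) {x : Qbar} (hx : x ∈ A) : σ x ∈ A :=
  ((⟨σ, hσ⟩ : A.decompositionSubgroup ℚ) • (⟨x, hx⟩ : A)).2

/-- the restriction of an element of the decomposition group to the valuation ring. -/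
noncomputable def sA (hσ : σ ∈ A.decompositionSubgroup ℚ) : A →+* A where
  toFun a := ⟨σ a, sigma_mem A σ hσ a.2⟩
  map_one' := Subtype.ext (map_one σ)
  map_mul' a b := Subtype.ext (map_mul σ (a : Qbar) (b : Qbar))
  map_zero' := Subtype.ext (map_zero σ)
  map_add' a b := Subtype.ext (map_add σ (a : Qbar) (b : Qbar))

theorem subtype_comp_sA (hσ : σ ∈ A.decompositionSubgroup ℚ) :
    A.subtype.comp (sA A σ hσ) = (σ : Qbar →+* Qbar).comp A.subtype := rfl

theorem residue_sA (h : A.IsFrobeniusAt σ ℓ) (a : A) :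
    IsLocalRing.residue A (sA A σ h.mem_decompositionSubgroup a) = (IsLocalRing.residue A a) ^ ℓ := by
  rw [← h.smul_residue_eq, ← IsLocalRing.ResidueField.residue_smul]
  rfl

theorem charP_residue [Fact ℓ.Prime] (hl : A.LiesOverPrime ℓ) :
    CharP (IsLocalRing.ResidueField A) ℓ := by
  have h0 : ((ℓ : ℕ) : IsLocalRing.ResidueField A) = 0 := by
    have hnu : ¬ IsUnit ((ℓ : ℕ) : A) := by
      intro hu
      have h1 : (((ℓ : ℕ) : A) : Qbar) ∈ A.nonunits := by
        have : (ℓ : Qbar) ∈ A.nonunits := hl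
        simpa using this
      rw [ValuationSubring.coe_mem_nonunits_iff] at h1
      exact h1 hu
    have h2 : IsLocalRing.residue A ((ℓ : ℕ) : A) = 0 := by
      rw [IsLocalRing.residue_eq_zero_iff]
      exact hnu
    simpa using h2
  exact (CharP.charP_iff_prime_eq_zero (Fact.out : ℓ.Prime)).mpr h0

theorem residue_comp_sA [Fact ℓ.Prime] [CharP (IsLocalRing.ResidueField A) ℓ]
    (h : A.IsFrobeniusAt σ ℓ) :
    (IsLocalRing.residue A).comp (sA A σ h.mem_decompositionSubgroup)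
      = (frobenius (IsLocalRing.ResidueField A) ℓ).comp (IsLocalRing.residue A) := by
  ext a
  exact residue_sA A σ ℓ h a

theorem mem_of_pow_eq_one {ζ : Qbar} (hℓ : 0 < ℓ) (hζ : ζ ^ ℓ = 1) : ζ ∈ A := by
  rcases A.mem_or_inv_mem ζ with h | h
  · exact h
  · have hζ0 : ζ ≠ 0 := by
      rintro rfl
      rw [zero_pow hℓ.ne'] at hζ
      exact zero_ne_one hζ
    have : ζ = ζ⁻¹ ^ (ℓ - 1) := by
      obtain ⟨n, rfl⟩ : ∃ n, ℓ = n + 1 := ⟨ℓ - 1, by omega⟩
      rw [Nat.add_sub_cancel, inv_pow]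
      refine eq_inv_of_mul_eq_one_left ?_
      rw [← pow_succ']
      exact hζ
    rw [this]
    exact pow_mem h _

theorem coeffMap_injective {R S : Type*} [CommRing R] [CommRing S] (f : R →+* S)
    (hf : Function.Injective f) : Function.Injective (coeffMap f) := by
  intro x y h
  ext n
  apply hf
  rw [← coeffMap_coeff, ← coeffMap_coeff, h]

theorem hf_cong (h1 : Stmt_HF_map) (h2 : Stmt_HF_char) : Stmt_HF_cong := by
  intro ℓ _ hℓ A hl σ hfr ζ hζ y
  have : Fact ℓ.Prime := ⟨hℓ⟩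
  have := charP_residue A ℓ hl
  set s := sA A σ hfr.mem_decompositionSubgroup with hs
  have hζ1 : (ζ : Qbar) ^ ℓ = 1 := by
    have := congrArg Units.val hζ.pow_eq_one
    rwa [Units.val_pow_eq_pow_val, Units.val_one] at this
  have hζ2 : ((ζ⁻¹ : Qbarˣ) : Qbar) ^ ℓ = 1 := by
    have h3 : (ζ⁻¹) ^ ℓ = 1 := by rw [inv_pow, hζ.pow_eq_one, inv_one]
    have := congrArg Units.val h3
    rwa [Units.val_pow_eq_pow_val, Units.val_one] at this
  let zA : Aˣ := ⟨⟨ζ, mem_of_pow_eq_one A ℓ hℓ.pos hζ1⟩, ⟨(ζ⁻¹ : Qbarˣ), mem_of_pow_eq_one A ℓ hℓ.pos hζ2⟩,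
    Subtype.ext (by simp), Subtype.ext (by simp)⟩
  have hzA : Units.map (A.subtype : A →* Qbar) zA = ζ := Units.ext rfl
  have hzr : Units.map (IsLocalRing.residue A : A →* IsLocalRing.ResidueField A) zA = 1 := by
    apply Units.ext
    show IsLocalRing.residue A (zA : A) = 1
    apply frobenius_inj (IsLocalRing.ResidueField A) ℓ
    rw [frobenius_def, frobenius_def, one_pow, ← map_pow]
    have : (zA : A) ^ ℓ = 1 := Subtype.ext hζ1
    rw [this, map_one]
  have hr : ∀ x : LaurentSeries A, coeffMap (IsLocalRing.residue A) (coeffMap s x)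
      = coeffMap (frobenius (IsLocalRing.ResidueField A) ℓ) (coeffMap (IsLocalRing.residue A) x) := by
    intro x
    rw [coeffMap_coeffMap, coeffMap_coeffMap, hs, residue_comp_sA A σ ℓ hfr]
  have hsub : ∀ x : LaurentSeries A, coeffMap A.subtype (coeffMap s x)
      = coeffMap (σ : Qbar →+* Qbar) (coeffMap A.subtype x) := by
    intro x
    rw [coeffMap_coeffMap, coeffMap_coeffMap, hs, subtype_comp_sA]
  refine ⟨coeffMap s y, coeffMap s (coeffMap s y), formalN ℓ zA (coeffMap s y), hsub y,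
    hsub _, ?_, ?_, ?_⟩
  · rw [h1 A Qbar A.subtype ℓ zA, hzA]
  · rw [h1 A (IsLocalRing.ResidueField A) (IsLocalRing.residue A) ℓ zA, hzr,
      (h2 (IsLocalRing.ResidueField A) ℓ _).2, hr (coeffMap s y), hr y,
      ← (h2 (IsLocalRing.ResidueField A) ℓ (coeffMap (IsLocalRing.residue A) y)).1, mul_comm]
  · intro hy h0
    apply hy
    rw [hr, hr] at h0
    have hinj := coeffMap_injective _ (frobenius_inj (IsLocalRing.ResidueField A) ℓ)
    exact hinj (hinj (by rw [h0, map_zero, map_zero]))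

end Fermat.Agent.ES.Mid.HF3
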