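import Fermat.Agent.ES.Mid.Interface2
import Fermat.Agent.S24.FunAlgProps
import Fermat.Agent.S24.FunAlgInv

/-!
# ES / Mid, package KF : formal properties of `Kum`

Exports (namespace `Fermat.Agent.ES.Mid.KF`):
* `mdiff_mul_eq_zero` : holomorphic functions on `ℍ` form a domain;
* `mdiff_prod_eq_zero`, `exists_forall_ne_zero`, `exists_ne_zero₂/₃/₄` : finitely many nonzero
  holomorphic functions have a common non-zero;
* `mdiff_comp_smul`, `comp_smul_ne_zero`.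
-/

set_option autoImplicit false

namespace Fermat.Agent.ES.Mid

open UpperHalfPlane CongruenceSubgroup AlgebraicCurve
open scoped MatrixGroups Manifold
open Fermat.Agent.S24 (Qbar FF funAlg iota)
open Fermat.Agent.S24.QX (qExpHom)
attribute [local instance] Fermat.Agent.S24.algQbarComplex

namespace KF

/-! ### holomorphic functions on `ℍ` form a domain -/

theorem analyticOnNhd_comp_ofComplex {F : ℍ → ℂ} (hF : MDiff F) :
    AnalyticOnNhd ℂ (F ∘ ofComplex) {z : ℂ | 0 < z.im} :=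
  (UpperHalfPlane.mdifferentiable_iff.mp hF).analyticOnNhd isOpen_upperHalfPlaneSet

/-- DOMAIN LEMMA. -/
theorem mdiff_mul_eq_zero {f g : ℍ → ℂ} (hf : MDiff f) (hg : MDiff g) (h : f * g = 0) :
    f = 0 ∨ g = 0 := by
  have hU : IsPreconnected {z : ℂ | 0 < z.im} := (convex_halfSpace_im_gt 0).isPreconnected
  have hfg : ∀ z ∈ {z : ℂ | 0 < z.im}, (f ∘ ofComplex) z * (g ∘ ofComplex) z = 0 := by
    intro z _
    exact congrFun h (ofComplex z)
  rcases (analyticOnNhd_comp_ofComplex hf).eq_zero_or_eq_zero_of_mul_eq_zero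
    (analyticOnNhd_comp_ofComplex hg) hfg hU with h1 | h1
  · left
    funext z
    have := h1 z z.2
    simpa using this
  · right
    funext z
    have := h1 z z.2
    simpa using this

theorem mdiff_mul_ne_zero {f g : ℍ → ℂ} (hf : MDiff f) (hg : MDiff g) (hf0 : f ≠ 0)
    (hg0 : g ≠ 0) : f * g ≠ 0 := fun h =>
  (mdiff_mul_eq_zero hf hg h).elim hf0 hg0

theorem mdiff_prod {ι : Type*} (s : Finset ι) (f : ι → ℍ → ℂ) (hf : ∀ i ∈ s, MDiff (f i)) :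
    MDiff (∏ i ∈ s, f i) := by
  classical
  induction s using Finset.induction_on with
  | empty =>
    simp only [Finset.prod_empty]
    exact mdifferentiable_const
  | insert a s ha ih =>
    rw [Finset.prod_insert ha]
    exact (hf a (Finset.mem_insert_self a s)).mul
      (ih fun i hi => hf i (Finset.mem_insert_of_mem hi))

theorem mdiff_prod_eq_zero {ι : Type*} (s : Finset ι) (f : ι → ℍ → ℂ)
    (hf : ∀ i ∈ s, MDiff (f i)) (h : ∏ i ∈ s, f i = 0) : ∃ i ∈ s, f i = 0 := by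
  classical
  induction s using Finset.induction_on with
  | empty =>
    exfalso
    simp only [Finset.prod_empty] at h
    exact one_ne_zero (congrFun h UpperHalfPlane.I)
  | insert a s ha ih =>
    rw [Finset.prod_insert ha] at h
    rcases mdiff_mul_eq_zero (hf a (Finset.mem_insert_self a s))
      (mdiff_prod s f fun i hi => hf i (Finset.mem_insert_of_mem hi)) h with h1 | h1
    · exact ⟨a, Finset.mem_insert_self a s, h1⟩
    · obtain ⟨i, hi, h2⟩ := ih (fun i hi => hf i (Finset.mem_insert_of_mem hi)) h1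
      exact ⟨i, Finset.mem_insert_of_mem hi, h2⟩

/-- finitely many nonzero holomorphic functions have a common non-zero. -/
theorem exists_forall_ne_zero {ι : Type*} (s : Finset ι) (f : ι → ℍ → ℂ)
    (hf : ∀ i ∈ s, MDiff (f i)) (h0 : ∀ i ∈ s, f i ≠ 0) : ∃ z : ℍ, ∀ i ∈ s, f i z ≠ 0 := by
  by_contra hcon
  push Not at hcon
  have : ∏ i ∈ s, f i = 0 := by
    funext z
    obtain ⟨i, hi, hz⟩ := hcon z
    rw [Finset.prod_apply]
    exact Finset.prod_eq_zero hi hz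
  obtain ⟨i, hi, h1⟩ := mdiff_prod_eq_zero s f hf this
  exact h0 i hi h1

theorem exists_ne_zero₂ {f g : ℍ → ℂ} (hf : MDiff f) (hg : MDiff g) (hf0 : f ≠ 0) (hg0 : g ≠ 0) :
    ∃ z : ℍ, f z ≠ 0 ∧ g z ≠ 0 := by
  have h := mdiff_mul_ne_zero hf hg hf0 hg0
  obtain ⟨z, hz⟩ := Function.ne_iff.1 h
  exact ⟨z, left_ne_zero_of_mul hz, right_ne_zero_of_mul hz⟩

theorem exists_ne_zero₃ {f g h : ℍ → ℂ} (hf : MDiff f) (hg : MDiff g) (hh : MDiff h)
    (hf0 : f ≠ 0) (hg0 : g ≠ 0) (hh0 : h ≠ 0) : ∃ z : ℍ, f z ≠ 0 ∧ g z ≠ 0 ∧ h z ≠ 0 := by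
  obtain ⟨z, h1, h2⟩ := exists_ne_zero₂ (hf.mul hg) hh (mdiff_mul_ne_zero hf hg hf0 hg0) hh0
  exact ⟨z, left_ne_zero_of_mul h1, right_ne_zero_of_mul h1, h2⟩

theorem exists_ne_zero₄ {f g h k : ℍ → ℂ} (hf : MDiff f) (hg : MDiff g) (hh : MDiff h)
    (hk : MDiff k) (hf0 : f ≠ 0) (hg0 : g ≠ 0) (hh0 : h ≠ 0) (hk0 : k ≠ 0) :
    ∃ z : ℍ, f z ≠ 0 ∧ g z ≠ 0 ∧ h z ≠ 0 ∧ k z ≠ 0 := by
  obtain ⟨z, h1, h2⟩ := exists_ne_zero₂ (hf.mul hg) (hh.mul hk)
    (mdiff_mul_ne_zero hf hg hf0 hg0) (mdiff_mul_ne_zero hh hk hh0 hk0)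
  exact ⟨z, left_ne_zero_of_mul h1, right_ne_zero_of_mul h1, left_ne_zero_of_mul h2,
    right_ne_zero_of_mul h2⟩

theorem mdiff_pow {f : ℍ → ℂ} (hf : MDiff f) (n : ℕ) : MDiff (f ^ n) := by
  induction n with
  | zero =>
    simp only [pow_zero]
    exact mdifferentiable_const
  | succ n ih =>
    rw [pow_succ]
    exact ih.mul hf

theorem mdiff_pow_ne_zero {f : ℍ → ℂ} (hf0 : f ≠ 0) (n : ℕ) : f ^ n ≠ 0 := by
  obtain ⟨z, hz⟩ := Function.ne_iff.1 hf0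
  exact Function.ne_iff.2 ⟨z, pow_ne_zero n hz⟩

theorem mdiff_comp_smul {F : ℍ → ℂ} (hF : MDiff F) (g : SL(2, ℤ)) :
    MDiff (fun τ : ℍ => F (g • τ)) :=
  hF.comp (mdifferentiable_smul (g := (g : GL (Fin 2) ℝ)) (by simp))

theorem comp_smul_ne_zero {F : ℍ → ℂ} (hF : F ≠ 0) (g : SL(2, ℤ)) :
    (fun τ : ℍ => F (g • τ)) ≠ 0 := by
  obtain ⟨z, hz⟩ := Function.ne_iff.1 hF
  refine Function.ne_iff.2 ⟨g⁻¹ • z, ?_⟩
  simpa using hz

/-! ### `funAlg N` -/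

theorem funAlg_coe_ne_zero {N : ℕ} {θ : funAlg N} (h : θ ≠ 0) : (θ : ℍ → ℂ) ≠ 0 := fun h0 =>
  h (Subtype.ext h0)

theorem qExpHom_ne_zero {N : ℕ} [NeZero N] {θ : funAlg N} (h : θ ≠ 0) : qExpHom N θ ≠ 0 := by
  intro h0
  apply h
  apply Fermat.Agent.S24.QX.qExpHom_injective N
  rw [h0, map_zero]

theorem funAlg_mul_ne_zero {N : ℕ} [NeZero N] {θ θ' : funAlg N} (h : θ ≠ 0) (h' : θ' ≠ 0) :
    θ * θ' ≠ 0 := by
  intro h0
  have := congrArg (qExpHom N) h0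
  rw [map_mul, map_zero] at this
  exact (mul_ne_zero (qExpHom_ne_zero h) (qExpHom_ne_zero h')) this

/-- In a Kummer datum the numerator `θ₁` is nonzero. -/
theorem theta₁_ne_zero {N m : ℕ} [NeZero N] {a b : ℍ → ℂ} {θ₁ θ₂ : funAlg N} (ha : MDiff a)
    (ha0 : a ≠ 0) (hθ₂ : θ₂ ≠ 0)
    (h : ∀ z : ℍ, a z ^ m * (θ₂ : ℍ → ℂ) z = b z ^ m * (θ₁ : ℍ → ℂ) z) : θ₁ ≠ 0 := by
  rintro rfl
  have h1 : a ^ m * (θ₂ : ℍ → ℂ) = 0 := by
    funext z
    have := h z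
    simpa using this
  exact mdiff_mul_ne_zero (mdiff_pow ha m) (Fermat.Agent.S24.funAlg_mdiff θ₂.2)
    (mdiff_pow_ne_zero ha0 m) (funAlg_coe_ne_zero hθ₂) h1

theorem stdAddChar_ne_zero {m : ℕ} [NeZero m] (x : ZMod m) : ZMod.stdAddChar x ≠ 0 := by
  intro h
  have h1 := (ZMod.stdAddChar (N := m)).map_add_eq_mul x (-x)
  rw [add_neg_cancel, AddChar.map_zero_eq_one, h, zero_mul] at h1
  exact one_ne_zero h1

theorem stdAddChar_pow_cast {m m' : ℕ} [NeZero m] [NeZero m'] (k : ℕ) (hk : m' = m * k)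
    (h : m ∣ m') (x : ZMod m') :
    ZMod.stdAddChar x ^ k = ZMod.stdAddChar (ZMod.castHom h (ZMod m) x) := by
  obtain ⟨j, rfl⟩ := ZMod.intCast_surjective x
  rw [map_intCast (ZMod.castHom h (ZMod m)), ZMod.stdAddChar_coe, ZMod.stdAddChar_coe,
    ← Complex.exp_nat_mul]
  congr 1
  have hm : (m : ℂ) ≠ 0 := Nat.cast_ne_zero.2 (NeZero.ne m)
  have hk0 : (k : ℂ) ≠ 0 := by
    have : m' ≠ 0 := NeZero.ne m'
    rw [hk] at this
    exact Nat.cast_ne_zero.2 (right_ne_zero_of_mul this)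
  rw [hk]
  push_cast
  field_simp

/-- two holomorphic functions with the same `m`-th power differ by an `m`-th root of unity. -/
theorem eq_const_mul_of_pow_eq {P Q : ℍ → ℂ} (hP : MDiff P) (hQ : MDiff Q) {m : ℕ} (hm : 0 < m)
    (h : P ^ m = Q ^ m) : ∃ ζ : ℂ, ζ ^ m = 1 ∧ ∀ z, P z = ζ * Q z := by
  have hprim : IsPrimitiveRoot (Complex.exp (2 * Real.pi * Complex.I / m)) m :=
    Complex.isPrimitiveRoot_exp m hm.ne'
  have hprod : ∏ ζ ∈ Polynomial.nthRootsFinset m (1 : ℂ), (fun z => P z - ζ * Q z) = 0 := by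
    funext z
    rw [Finset.prod_apply, ← hprim.pow_sub_pow_eq_prod_sub_mul (P z) (Q z) hm]
    have := congrFun h z
    simp only [Pi.pow_apply] at this
    rw [this, sub_self]
    rfl
  obtain ⟨ζ, hζ, h0⟩ := mdiff_prod_eq_zero _ _ (fun ζ _ => hP.sub (mdifferentiable_const.mul hQ))
    hprod
  refine ⟨ζ, (Polynomial.mem_nthRootsFinset hm 1).1 hζ, fun z => ?_⟩
  exact sub_eq_zero.1 (congrFun h0 z)

end KF

open KF

theorem kumMul : Stmt_KumMul := by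
  intro N m _ _ u u' χ χ' h h'
  obtain ⟨a, b, θ₁, θ₂, ha, hb, ha0, hb0, hθ, hu, hpw, htr⟩ := h
  obtain ⟨a', b', θ₁', θ₂', ha', hb', ha0', hb0', hθ', hu', hpw', htr'⟩ := h'
  refine ⟨a * a', b * b', θ₁ * θ₁', θ₂ * θ₂', ha.mul ha', hb.mul hb',
    mdiff_mul_ne_zero ha ha' ha0 ha0', mdiff_mul_ne_zero hb hb' hb0 hb0',
    funAlg_mul_ne_zero hθ hθ', ?_, ?_, ?_⟩
  · rw [map_mul, map_mul, ← hu, ← hu']
    ring
  · intro z
    have h1 := hpw z
    have h2 := hpw' z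
    simp only [Pi.mul_apply, MulMemClass.coe_mul, mul_pow]
    calc a z ^ m * a' z ^ m * ((θ₂ : ℍ → ℂ) z * (θ₂' : ℍ → ℂ) z)
        = (a z ^ m * (θ₂ : ℍ → ℂ) z) * (a' z ^ m * (θ₂' : ℍ → ℂ) z) := by ring
      _ = (b z ^ m * (θ₁ : ℍ → ℂ) z) * (b' z ^ m * (θ₁' : ℍ → ℂ) z) := by rw [h1, h2]
      _ = _ := by ring
  · intro γ z
    have h1 := htr γ z
    have h2 := htr' γ z
    simp only [Pi.mul_apply, AddMonoidHom.add_apply, AddChar.map_add_eq_mul]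
    calc a ((γ : SL(2, ℤ)) • z) * a' ((γ : SL(2, ℤ)) • z) * (b z * b' z)
        = (a ((γ : SL(2, ℤ)) • z) * b z) * (a' ((γ : SL(2, ℤ)) • z) * b' z) := by ring
      _ = _ := by rw [h1, h2]; ring

theorem kumInv : Stmt_KumInv := by
  intro N m _ _ u χ h
  obtain ⟨a, b, θ₁, θ₂, ha, hb, ha0, hb0, hθ, hu, hpw, htr⟩ := h
  have hθ₁ : θ₁ ≠ 0 := theta₁_ne_zero ha ha0 hθ hpw
  refine ⟨b, a, θ₂, θ₁, hb, ha, hb0, ha0, hθ₁, ?_, fun z => (hpw z).symm, ?_⟩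
  · have hu0 : u ≠ 0 := by
      rintro rfl
      rw [zero_mul] at hu
      exact qExpHom_ne_zero hθ₁ hu.symm
    rw [← hu, ← mul_assoc, inv_mul_cancel₀ hu0, one_mul]
  · intro γ z
    have h1 := htr γ z
    have hne := stdAddChar_ne_zero (χ (Additive.ofMul γ))
    rw [AddMonoidHom.neg_apply, AddChar.map_neg_eq_inv, mul_comm (b z), h1]
    field_simp

theorem kumPow : Stmt_KumPow := by
  intro N m _ _ f hf
  obtain ⟨a₀, b₀, hb₀, hab⟩ : ∃ a b : funAlg N, b ≠ 0 ∧ f * qExpHom N b = qExpHom N a := by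
    obtain ⟨r, hr, s, hs, hfe⟩ :=
      IntermediateField.mem_adjoin_iff_div.mp (Fermat.Agent.S24.QX.modularFunctionFieldBar_le N f.2)
    obtain ⟨a, ha⟩ := Fermat.Agent.S24.QX.exists_qExpFun_eq N hr
    obtain ⟨b, hb⟩ := Fermat.Agent.S24.QX.exists_qExpFun_eq N hs
    have hs0 : s ≠ 0 := by
      rintro rfl
      apply hf
      exact Subtype.ext (by rw [hfe, div_zero]; rfl)
    refine ⟨a, b, ?_, ?_⟩
    · rintro rfl
      apply hs0
      rw [← hb]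
      exact congrArg Subtype.val (map_zero (qExpHom N))
    · apply Subtype.ext
      show (f : LaurentSeries Qbar) * Fermat.Agent.S24.QX.qExpFun N b
        = Fermat.Agent.S24.QX.qExpFun N a
      rw [ha, hb, hfe, div_mul_cancel₀ _ hs0]
  have ha₀ : a₀ ≠ 0 := by
    rintro rfl
    rw [map_zero] at hab
    exact (mul_ne_zero hf (qExpHom_ne_zero hb₀)) hab
  refine ⟨a₀, b₀, a₀ ^ m, b₀ ^ m, Fermat.Agent.S24.funAlg_mdiff a₀.2,
    Fermat.Agent.S24.funAlg_mdiff b₀.2, funAlg_coe_ne_zero ha₀, funAlg_coe_ne_zero hb₀, ?_, ?_, ?_, ?_⟩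
  · intro h0
    have := congrArg (qExpHom N) h0
    rw [map_pow, map_zero] at this
    exact (pow_ne_zero m (qExpHom_ne_zero hb₀)) this
  · rw [map_pow, map_pow, ← hab, mul_pow]
  · intro z
    simp only [SubmonoidClass.coe_pow, Pi.pow_apply]
    ring
  · intro γ z
    rw [Fermat.Agent.S24.funAlg_invariant a₀.2 γ γ.2, Fermat.Agent.S24.funAlg_invariant b₀.2 γ γ.2]
    simp

theorem kumRed : Stmt_KumRed := by
  intro N m m' _ _ _ h u χ hK
  obtain ⟨a, b, θ₁, θ₂, ha, hb, ha0, hb0, hθ, hu, hpw, htr⟩ := hK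
  obtain ⟨k, hk⟩ := h
  refine ⟨a ^ k, b ^ k, θ₁, θ₂, mdiff_pow ha k, mdiff_pow hb k, mdiff_pow_ne_zero ha0 k,
    mdiff_pow_ne_zero hb0 k, hθ, hu, ?_, ?_⟩
  · intro z
    have := hpw z
    simp only [Pi.pow_apply, ← pow_mul, mul_comm k m, ← hk]
    exact this
  · intro γ z
    have h1 := htr γ z
    have h2 : redChar (Dvd.intro k hk.symm) χ (Additive.ofMul γ)
        = ZMod.castHom (Dvd.intro k hk.symm) (ZMod m) (χ (Additive.ofMul γ)) := rfl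
    rw [h2, ← stdAddChar_pow_cast k hk]
    simp only [Pi.pow_apply]
    rw [← mul_pow, h1, mul_pow, mul_pow]

theorem kumUnique : Stmt_KumUnique := by
  intro N m _ _ u χ χ' h h'
  obtain ⟨a, b, θ₁, θ₂, ha, hb, ha0, hb0, hθ, hu, hpw, htr⟩ := h
  obtain ⟨a', b', θ₁', θ₂', ha', hb', ha0', hb0', hθ', hu', hpw', htr'⟩ := h'
  have hθ₁' : θ₁' ≠ 0 := theta₁_ne_zero ha' ha0' hθ' hpw'
  have hm : 0 < m := NeZero.pos m
  -- `θ₁ θ₂' = θ₁' θ₂`
  have hθθ : θ₁ * θ₂' = θ₁' * θ₂ := by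
    apply Fermat.Agent.S24.QX.qExpHom_injective N
    rw [map_mul, map_mul, ← hu, ← hu']
    ring
  have hθθz : ∀ z : ℍ, (θ₁ : ℍ → ℂ) z * (θ₂' : ℍ → ℂ) z = (θ₁' : ℍ → ℂ) z * (θ₂ : ℍ → ℂ) z := by
    intro z
    have := congrArg (fun t : funAlg N => (t : ℍ → ℂ) z) hθθ
    simpa using this
  -- `(a b')^m = (a' b)^m`
  have hpow : (a * b') ^ m = (a' * b) ^ m := by
    have h0 : ((a * b') ^ m - (a' * b) ^ m) * ((θ₂ : ℍ → ℂ) * (θ₁' : ℍ → ℂ)) = 0 := by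
      funext z
      have h1 := hpw z
      have h2 := hpw' z
      have h3 := hθθz z
      simp only [Pi.mul_apply, Pi.sub_apply, Pi.pow_apply, Pi.zero_apply, mul_pow]
      calc (a z ^ m * b' z ^ m - a' z ^ m * b z ^ m) * ((θ₂ : ℍ → ℂ) z * (θ₁' : ℍ → ℂ) z)
          = (a z ^ m * (θ₂ : ℍ → ℂ) z) * (b' z ^ m * (θ₁' : ℍ → ℂ) z)
            - a' z ^ m * b z ^ m * ((θ₁' : ℍ → ℂ) z * (θ₂ : ℍ → ℂ) z) := by ring
        _ = (b z ^ m * (θ₁ : ℍ → ℂ) z) * (a' z ^ m * (θ₂' : ℍ → ℂ) z)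
            - a' z ^ m * b z ^ m * ((θ₁ : ℍ → ℂ) z * (θ₂' : ℍ → ℂ) z) := by rw [h1, ← h2, h3]
        _ = 0 := by ring
    have hmd : MDiff ((θ₂ : ℍ → ℂ) * (θ₁' : ℍ → ℂ)) :=
      (Fermat.Agent.S24.funAlg_mdiff θ₂.2).mul (Fermat.Agent.S24.funAlg_mdiff θ₁'.2)
    have hne : (θ₂ : ℍ → ℂ) * (θ₁' : ℍ → ℂ) ≠ 0 :=
      mdiff_mul_ne_zero (Fermat.Agent.S24.funAlg_mdiff θ₂.2) (Fermat.Agent.S24.funAlg_mdiff θ₁'.2)
        (funAlg_coe_ne_zero hθ) (funAlg_coe_ne_zero hθ₁')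
    rcases mdiff_mul_eq_zero ((mdiff_pow (ha.mul hb') m).sub (mdiff_pow (ha'.mul hb) m)) hmd h0
      with h1 | h1
    · exact sub_eq_zero.1 h1
    · exact absurd h1 hne
  obtain ⟨ζ, hζ, hPQ⟩ := eq_const_mul_of_pow_eq (ha.mul hb') (ha'.mul hb) hm hpow
  have hζ0 : ζ ≠ 0 := by
    rintro rfl
    rw [zero_pow hm.ne'] at hζ
    exact zero_ne_one hζ
  -- compare the transformation laws
  apply AddMonoidHom.ext
  intro γ'
  obtain ⟨γ, rfl⟩ : ∃ γ : Gamma0 N, Additive.ofMul γ = γ' := ⟨Additive.toMul γ', rfl⟩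
  apply ZMod.injective_stdAddChar
  obtain ⟨z, hz1, hz2, hz3, hz4⟩ := exists_ne_zero₄ ha' hb
    (mdiff_comp_smul ha' (γ : SL(2, ℤ))) (mdiff_comp_smul hb (γ : SL(2, ℤ))) ha0' hb0
    (comp_smul_ne_zero ha0' (γ : SL(2, ℤ))) (comp_smul_ne_zero hb0 (γ : SL(2, ℤ)))
  have h1 := htr γ z
  have h2 := htr' γ z
  have h3 := hPQ z
  have h4 := hPQ ((γ : SL(2, ℤ)) • z)
  simp only [Pi.mul_apply] at h3 h4
  generalize ZMod.stdAddChar (χ (Additive.ofMul γ)) = e at *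
  generalize ZMod.stdAddChar (χ' (Additive.ofMul γ)) = e' at *
  generalize (γ : SL(2, ℤ)) • z = w at *
  have key : e' * (ζ * (a' w * b w) * (a' z * b z)) = e * (ζ * (a' w * b w) * (a' z * b z)) := by
    calc e' * (ζ * (a' w * b w) * (a' z * b z))
        = (a w * b' w) * (b z) * (e' * a' z) := by rw [h4]; ring
      _ = (a w * b z) * (e' * (a' z * b' w)) := by ring
      _ = (e * (a z * b w)) * (a' w * b' z) := by rw [h1, h2]
      _ = e * (a z * b' z) * (a' w * b w) := by ring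
      _ = e * (ζ * (a' w * b w) * (a' z * b z)) := by rw [mul_assoc e, h3]; ring
  have hne : ζ * (a' w * b w) * (a' z * b z) ≠ 0 :=
    mul_ne_zero (mul_ne_zero hζ0 (mul_ne_zero hz3 hz4)) (mul_ne_zero hz1 hz2)
  exact (mul_right_cancel₀ hne key).symm

end Fermat.Agent.ES.Mid
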