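import Fermat.Agent.ES.Mid.HeckeDefs
import Fermat.Agent.ES.Mid.KumFormal
import Fermat.Agent.S16.HeckeHomPeriod

/-! ES / Mid / H (MID-HA1): `funN` multiplies characters by `tau`, preserves holomorphy and
nonvanishing. -/

set_option autoImplicit false

namespace Fermat.Agent.ES.Mid

open UpperHalfPlane CongruenceSubgroup
open scoped MatrixGroups Manifold
open Fermat.Agent.S16.HH (HeckeData dataT jG)

namespace HA1

/-- multiplicative telescoping (multiplicative version of `HeckeData.op_of_primitive`). -/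
theorem prod_telescope {G Γ : Type*} [Group G] [Group Γ] {j : Γ →* G} {ι : Type*} [Fintype ι]
    (D : HeckeData j ι) {Z : Type*} [MulAction G Z] (a b : Z → ℂ) (c : Γ → ℂ)
    (h : ∀ (γ : Γ) (z : Z), a (j γ • z) * b z = c γ * (a z * b (j γ • z))) (γ : Γ) (z : Z) :
    (∏ i, a (D.α i • j γ • z)) * ∏ i, b (D.α i • z) =
      (∏ i, c (D.g γ i)) * ((∏ i, a (D.α i • z)) * ∏ i, b (D.α i • j γ • z)) := by
  have h1 : ∀ i, D.α i • j γ • z = j (D.g γ i) • D.α (D.σ γ i) • z := by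
    intro i
    rw [← mul_smul, D.hmul, mul_smul]
  have hb : ∏ i, b (D.α i • z) = ∏ i, b (D.α (D.σ γ i) • z) :=
    (Equiv.prod_comp (D.perm γ) fun i => b (D.α i • z)).symm
  have ha : ∏ i, a (D.α i • z) = ∏ i, a (D.α (D.σ γ i) • z) :=
    (Equiv.prod_comp (D.perm γ) fun i => a (D.α i • z)).symm
  rw [hb, ha, ← Finset.prod_mul_distrib, ← Finset.prod_mul_distrib, ← Finset.prod_mul_distrib]
  refine Finset.prod_congr rfl fun i _ => ?_
  rw [h1 i]
  exact h (D.g γ i) (D.α (D.σ γ i) • z)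

theorem tau_eq (N : ℕ) {ℓ : ℕ} (hℓ : ℓ.Prime) (hℓN : ¬ ℓ ∣ N) (A : Type*) [AddCommGroup A]
    (χ : Additive (Gamma0 N) →+ A) :
    haveI : Fact ℓ.Prime := ⟨hℓ⟩
    tau N ⟨ℓ, hℓ⟩ A χ = (dataT N hℓ hℓN).op χ := by
  show Fermat.Agent.S16.HH.tau N ⟨ℓ, hℓ⟩ A χ = _
  unfold Fermat.Agent.S16.HH.tau
  rw [dif_neg (show ¬ ((⟨ℓ, hℓ⟩ : Nat.Primes) : ℕ) ∣ N from hℓN)]
  rfl

theorem addChar_sum {A M ι : Type*} [AddCommMonoid A] [CommMonoid M] (ψ : AddChar A M)
    (s : Finset ι) (f : ι → A) : ψ (∑ i ∈ s, f i) = ∏ i ∈ s, ψ (f i) := by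
  classical
  induction s using Finset.induction_on with
  | empty => simp
  | insert i t hi ih => rw [Finset.sum_insert hi, Finset.prod_insert hi, AddChar.map_add_eq_mul, ih]

end HA1

theorem ha_char : Stmt_HA_char := by
  intro N _ ℓ hℓ hℓN m _ a b χ h γ z
  have : Fact ℓ.Prime := ⟨hℓ⟩
  have key := HA1.prod_telescope (dataT N hℓ hℓN) a b
    (fun γ => (ZMod.stdAddChar (χ (Additive.ofMul γ)) : ℂ)) (fun γ z => h γ z) γ z
  rw [HA1.tau_eq N hℓ hℓN, HeckeData.op_apply, HA1.addChar_sum]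
  exact key

theorem ha_mdiff : Stmt_HA_mdiff := by
  intro N _ ℓ hℓ hℓN a ha
  have : Fact ℓ.Prime := ⟨hℓ⟩
  have hpos : ∀ x : OnePoint (ZMod ℓ), 0 < ((dataT N hℓ hℓN).α x).det.val := fun x => by
    rw [Matrix.GeneralLinearGroup.val_det_apply]
    exact Fermat.Agent.S16.HH.heckeRep_det_pos ℓ x
  have hmd : ∀ x : OnePoint (ZMod ℓ), MDiff (fun z : ℍ => a ((dataT N hℓ hℓN).α x • z)) :=
    fun x => ha.comp (mdifferentiable_smul (hpos x))
  have heq : funN N hℓ hℓN a = ∏ x : OnePoint (ZMod ℓ), fun z : ℍ => a ((dataT N hℓ hℓN).α x • z) := by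
    funext z
    rw [Finset.prod_apply]
    rfl
  refine ⟨?_, fun ha0 hzero => ?_⟩
  · rw [heq]
    exact KF.mdiff_prod _ _ fun x _ => hmd x
  · rw [heq] at hzero
    obtain ⟨x, -, hx⟩ := KF.mdiff_prod_eq_zero _ _ (fun x _ => hmd x) hzero
    apply ha0
    funext w
    have := congrFun hx (((dataT N hℓ hℓN).α x)⁻¹ • w)
    simpa using this

end Fermat.Agent.ES.Mid
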