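import Fermat.Agent.ES.Mid.HF1

/-!
# ES / Mid / HA2 : the `q`-expansion of the multiplicative Hecke operator

`Rep X f → Rep (formalN ℓ ζ X) (funN N hℓ hℓN f)`.
-/

set_option autoImplicit false

namespace Fermat.Agent.ES.Mid.HA2

open UpperHalfPlane ModularForm Filter Function
open scoped MatrixGroups Manifold Topology OnePoint
open Fermat.Agent.S24 (Qbar iota)
open Fermat.Agent.S24.QX
open P2MW.S_ModularForm_heckeT_slash_eq_self_of_mem_Gamma0.ModularForm.HeckeSlashInvariance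

local notation "𝕢" => Periodic.qParam

/-! ### affine substitutions -/

/-- `h(aτ + c)`. -/
noncomputable def aff (a c : ℝ) (h : ℍ → ℂ) : ℍ → ℂ :=
  fun τ => h (ofComplex ((a : ℂ) * (τ : ℂ) + (c : ℂ)))

theorem aff_apply (a c : ℝ) (h : ℍ → ℂ) (τ : ℍ) :
    aff a c h τ = h (ofComplex ((a : ℂ) * (τ : ℂ) + (c : ℂ))) := rfl

theorem aff_mul (a c : ℝ) (h h' : ℍ → ℂ) : aff a c (h * h') = aff a c h * aff a c h' := rfl

theorem im_aff (a c : ℝ) (z : ℂ) : ((a : ℂ) * z + (c : ℂ)).im = a * z.im := by simp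

theorem im_aff_pos {a : ℝ} (ha : 0 < a) (c : ℝ) {z : ℂ} (hz : 0 < z.im) :
    0 < ((a : ℂ) * z + (c : ℂ)).im := by
  rw [im_aff]; positivity

theorem coe_ofComplex_aff {a : ℝ} (ha : 0 < a) (c : ℝ) (τ : ℍ) :
    ((ofComplex ((a : ℂ) * (τ : ℂ) + (c : ℂ)) : ℍ) : ℂ) = (a : ℂ) * (τ : ℂ) + (c : ℂ) := by
  rw [ofComplex_apply_of_im_pos (im_aff_pos ha c τ.im_pos)]

theorem tendsto_aff_atImInfty {a : ℝ} (ha : 0 < a) (c : ℝ) :
    Tendsto (fun τ : ℍ => ofComplex ((a : ℂ) * (τ : ℂ) + (c : ℂ))) atImInfty atImInfty := by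
  rw [atImInfty, tendsto_comap_iff]
  have : (UpperHalfPlane.im ∘ fun τ : ℍ => ofComplex ((a : ℂ) * (τ : ℂ) + (c : ℂ))) =
      fun τ : ℍ => a * τ.im := by
    funext τ
    have h := coe_ofComplex_aff ha c τ
    have h2 := congrArg Complex.im h
    rw [im_aff] at h2
    simpa using h2
  rw [this]
  have h0 : Tendsto UpperHalfPlane.im (comap UpperHalfPlane.im atTop) atTop := tendsto_comap
  exact h0.const_mul_atTop ha

theorem mdiff_aff {h : ℍ → ℂ} (hh : MDiff h) {a : ℝ} (ha : 0 < a) (c : ℝ) : MDiff (aff a c h) := by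
  rw [UpperHalfPlane.mdifferentiable_iff]
  have h1 := UpperHalfPlane.mdifferentiable_iff.mp hh
  have h2 : DifferentiableOn ℂ ((h ∘ ofComplex) ∘ fun z : ℂ => (a : ℂ) * z + (c : ℂ))
      {z | 0 < z.im} := by
    refine h1.comp (by fun_prop) ?_
    intro z hz
    exact im_aff_pos ha c hz
  refine h2.congr ?_
  intro z hz
  simp only [comp_apply, aff]
  rw [ofComplex_apply_of_im_pos hz]

theorem bdd_aff {h : ℍ → ℂ} (hh : IsBoundedAtImInfty h) {a : ℝ} (ha : 0 < a) (c : ℝ) :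
    IsBoundedAtImInfty (aff a c h) :=
  hh.comp_tendsto (tendsto_aff_atImInfty ha c)

/-- periodicity of a function of the form `F ∘ ofComplex` can be checked on `ℍ`. -/
theorem periodic_of_forall {F : ℍ → ℂ}
    (h : ∀ z : ℂ, 0 < z.im → F (ofComplex (z + 1)) = F (ofComplex z)) :
    Function.Periodic (F ∘ ofComplex) 1 := by
  intro z
  by_cases hz : 0 < z.im
  · exact h z hz
  · have hz0 : z.im ≤ 0 := not_lt.mp hz
    have hz' : (z + 1).im ≤ 0 := by simpa using hz0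
    simp only [comp_apply]
    rw [ofComplex_apply_of_im_nonpos hz0, ofComplex_apply_of_im_nonpos hz']

theorem aff_ofComplex (a c : ℝ) (h : ℍ → ℂ) {z : ℂ} (hz : 0 < z.im) :
    aff a c h (ofComplex z) = h (ofComplex ((a : ℂ) * z + (c : ℂ))) := by
  rw [aff_apply, ofComplex_apply_of_im_pos hz]

/-- shifts of nice functions are nice. -/
theorem nice_shift {h : ℍ → ℂ} (hh : Nice h) (c : ℝ) : Nice (aff 1 c h) where
  mdiff := mdiff_aff hh.mdiff one_pos c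
  per := periodic_of_forall fun z hz => by
    have hz' : 0 < (z + 1).im := by simpa using hz
    rw [aff_ofComplex _ _ _ hz, aff_ofComplex _ _ _ hz']
    have := hh.per (((1 : ℝ) : ℂ) * z + (c : ℂ))
    simp only [comp_apply] at this
    rw [← this]
    congr 2
    push_cast
    ring
  bdd := bdd_aff hh.bdd one_pos c

theorem qParam_shift (c : ℝ) (τ : ℍ) :
    𝕢 1 ((ofComplex (((1 : ℝ) : ℂ) * (τ : ℂ) + (c : ℂ)) : ℍ) : ℂ) =
      Complex.exp (2 * Real.pi * Complex.I * c) * 𝕢 1 (τ : ℂ) := by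
  rw [coe_ofComplex_aff one_pos]
  unfold Periodic.qParam
  rw [← Complex.exp_add]
  congr 1
  push_cast
  ring

theorem qExpansion_shift_coeff {h : ℍ → ℂ} (hh : Nice h) (c : ℝ) (n : ℕ) :
    (qExpansion 1 (aff 1 c h)).coeff n =
      Complex.exp (2 * Real.pi * Complex.I * c) ^ n * (qExpansion 1 h).coeff n := by
  symm
  refine qExpansion_coeff_unique' (f := aff 1 c h) (c := fun n =>
    Complex.exp (2 * Real.pi * Complex.I * c) ^ n * (qExpansion 1 h).coeff n)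
    (nice_shift hh c).analyticAt (fun τ => ?_) n
  have h1 := hasSum_qExpansion one_pos hh.per hh.mdiff hh.bdd
    (ofComplex (((1 : ℝ) : ℂ) * (τ : ℂ) + (c : ℂ)))
  rw [qParam_shift] at h1
  rw [aff_apply]
  convert h1 using 2 with m
  simp only [smul_eq_mul, mul_pow]
  ring

theorem qL_shift {h : ℍ → ℂ} (hh : Nice h) (c : ℝ) (u : ℂˣ)
    (hu : (u : ℂ) = Complex.exp (2 * Real.pi * Complex.I * c)) :
    qL (aff 1 c h) = tw u (qL h) := by
  ext k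
  rw [tw_coeff]
  rcases lt_or_ge k 0 with hk | hk
  · rw [qL, qL, ModularCurve.ofPowerSeries_coeff_of_neg _ hk,
      ModularCurve.ofPowerSeries_coeff_of_neg _ hk, mul_zero]
  · obtain ⟨m, rfl⟩ := Int.eq_ofNat_of_zero_le hk
    rw [qL, qL, HahnSeries.ofPowerSeries_apply_coeff, HahnSeries.ofPowerSeries_apply_coeff,
      qExpansion_shift_coeff hh, zpow_natCast, Units.val_pow_eq_pow_val, hu]

/-! ### finite products -/

theorem nice_prod {ι : Type*} (s : Finset ι) {G : ι → ℍ → ℂ} (h : ∀ i ∈ s, Nice (G i)) :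
    Nice (∏ i ∈ s, G i) := by
  classical
  induction s using Finset.induction_on with
  | empty => simpa using Nice.one
  | insert a s ha ih =>
    rw [Finset.prod_insert ha]
    exact (h a (Finset.mem_insert_self a s)).mul
      (ih fun i hi => h i (Finset.mem_insert_of_mem hi))

theorem qL_one : qL (1 : ℍ → ℂ) = 1 := by
  have := qL_const 1
  rwa [map_one] at this

theorem qL_prod {ι : Type*} (s : Finset ι) {G : ι → ℍ → ℂ} (h : ∀ i ∈ s, Nice (G i)) :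
    qL (∏ i ∈ s, G i) = ∏ i ∈ s, qL (G i) := by
  classical
  induction s using Finset.induction_on with
  | empty => simpa using qL_one
  | insert a s ha ih =>
    rw [Finset.prod_insert ha, Finset.prod_insert ha,
      qL_mul (h a (Finset.mem_insert_self a s))
        (nice_prod s fun i hi => h i (Finset.mem_insert_of_mem hi)),
      ih fun i hi => h i (Finset.mem_insert_of_mem hi)]

/-! ### the norm `∏_j h((τ + j)/ℓ)` -/

/-- `∏_{j < ℓ} h((τ + j)/ℓ)`. -/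
noncomputable def nrm (ℓ : ℕ) (h : ℍ → ℂ) : ℍ → ℂ :=
  ∏ j ∈ Finset.range ℓ, aff (1 / (ℓ : ℝ)) ((j : ℝ) / (ℓ : ℝ)) h

theorem nrm_apply (ℓ : ℕ) (h : ℍ → ℂ) (τ : ℍ) :
    nrm ℓ h τ = ∏ j ∈ Finset.range ℓ, aff (1 / (ℓ : ℝ)) ((j : ℝ) / (ℓ : ℝ)) h τ := by
  rw [nrm, Finset.prod_apply]

theorem nrm_mul (ℓ : ℕ) (h h' : ℍ → ℂ) : nrm ℓ (h * h') = nrm ℓ h * nrm ℓ h' := by
  simp only [nrm, aff_mul, Finset.prod_mul_distrib]

theorem nrm_ne_zero (ℓ : ℕ) {h : ℍ → ℂ} (hh : ∀ τ, h τ ≠ 0) (τ : ℍ) : nrm ℓ h τ ≠ 0 := by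
  rw [nrm_apply]
  exact Finset.prod_ne_zero_iff.mpr fun j _ => hh _

theorem nice_nrm {ℓ : ℕ} (hℓ : 0 < ℓ) {h : ℍ → ℂ} (hh : Nice h) : Nice (nrm ℓ h) where
  mdiff := by
    have hpos : (0 : ℝ) < 1 / (ℓ : ℝ) := by positivity
    have : ∀ s : Finset ℕ, MDiff (∏ j ∈ s, aff (1 / (ℓ : ℝ)) ((j : ℝ) / (ℓ : ℝ)) h) := by
      intro s
      induction s using Finset.induction_on with
      | empty => simpa using Nice.one.mdiff
      | insert a s ha ih =>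
        rw [Finset.prod_insert ha]
        exact (mdiff_aff hh.mdiff hpos _).mul ih
    exact this _
  per := periodic_of_forall fun z hz => by
    have hz' : 0 < (z + 1).im := by simpa using hz
    have hℓ0 : (ℓ : ℂ) ≠ 0 := by exact_mod_cast hℓ.ne'
    rw [nrm_apply, nrm_apply]
    simp only [aff_ofComplex _ _ _ hz, aff_ofComplex _ _ _ hz']
    obtain ⟨m, rfl⟩ : ∃ m, ℓ = m + 1 := ⟨ℓ - 1, by omega⟩
    set u : ℕ → ℂ := fun j => h (ofComplex (((1 / ((m + 1 : ℕ) : ℝ) : ℝ) : ℂ) * z +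
      (((j : ℝ) / ((m + 1 : ℕ) : ℝ) : ℝ) : ℂ))) with hu
    have e1 : ∀ j : ℕ, h (ofComplex (((1 / ((m + 1 : ℕ) : ℝ) : ℝ) : ℂ) * (z + 1) +
      (((j : ℝ) / ((m + 1 : ℕ) : ℝ) : ℝ) : ℂ))) = u (j + 1) := by
      intro j
      rw [hu]
      congr 2
      push_cast
      ring
    have e2 : u (m + 1) = u 0 := by
      have := hh.per (((1 / ((m + 1 : ℕ) : ℝ) : ℝ) : ℂ) * z +
        ((((0 : ℕ) : ℝ) / ((m + 1 : ℕ) : ℝ) : ℝ) : ℂ))
      simp only [comp_apply] at this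
      rw [hu]
      simp only
      rw [← this]
      congr 2
      push_cast at hℓ0 ⊢
      field_simp
      ring
    simp only [e1]
    show ∏ j ∈ Finset.range (m + 1), u (j + 1) = ∏ j ∈ Finset.range (m + 1), u j
    rw [Finset.prod_range_succ, Finset.prod_range_succ', e2]
  bdd := by
    have hpos : (0 : ℝ) < 1 / (ℓ : ℝ) := by positivity
    have : ∀ s : Finset ℕ,
        IsBoundedAtImInfty (∏ j ∈ s, aff (1 / (ℓ : ℝ)) ((j : ℝ) / (ℓ : ℝ)) h) := by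
      intro s
      induction s using Finset.induction_on with
      | empty => simpa using Nice.one.bdd
      | insert a s ha ih =>
        rw [Finset.prod_insert ha]
        exact (bdd_aff hh.bdd hpos _).mul ih
    exact this _

theorem scale_nrm {ℓ : ℕ} (hℓ : 0 < ℓ) (h : ℍ → ℂ) :
    scale ℓ (nrm ℓ h) = ∏ j ∈ Finset.range ℓ, aff 1 ((j : ℝ) / (ℓ : ℝ)) h := by
  funext τ
  have hℓ0 : (ℓ : ℂ) ≠ 0 := by exact_mod_cast hℓ.ne'
  rw [scale_apply, nrm_apply, Finset.prod_apply]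
  refine Finset.prod_congr rfl fun j _ => ?_
  rw [aff_ofComplex _ _ _ (im_natCast_mul_pos hℓ τ.im_pos), aff_apply]
  congr 2
  push_cast
  field_simp

/-- `e(1/ℓ)` as a unit. -/
noncomputable def zetaC (ℓ : ℕ) : ℂˣ :=
  Units.mk0 (Complex.exp (2 * Real.pi * Complex.I / ℓ)) (Complex.exp_ne_zero _)

theorem zetaC_isPrimitiveRoot {ℓ : ℕ} (hℓ : ℓ ≠ 0) : IsPrimitiveRoot (zetaC ℓ) ℓ :=
  IsPrimitiveRoot.coe_units_iff.mp (Complex.isPrimitiveRoot_exp ℓ hℓ)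

theorem zetaC_pow (ℓ j : ℕ) :
    ((zetaC ℓ ^ j : ℂˣ) : ℂ) = Complex.exp (2 * Real.pi * Complex.I * (((j : ℝ) / (ℓ : ℝ) : ℝ) : ℂ)) := by
  rw [Units.val_pow_eq_pow_val, zetaC, Units.val_mk0, ← Complex.exp_nat_mul]
  congr 1
  push_cast
  ring

theorem qL_nrm (ℓ : ℕ) [NeZero ℓ] {h : ℍ → ℂ} (hh : Nice h) :
    ModularCurve.qExpand ℂ ℓ (qL (nrm ℓ h)) = twProd ℓ (zetaC ℓ) (qL h) := by
  have hℓ : 0 < ℓ := Nat.pos_of_ne_zero (NeZero.ne ℓ)
  rw [← qL_scale (nice_nrm hℓ hh), scale_nrm hℓ, qL_prod _ fun j _ => nice_shift hh _, twProd]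
  exact Finset.prod_congr rfl fun j _ => qL_shift hh _ _ (zetaC_pow ℓ j)

/-! ### `Rep` -/

theorem rep_scale (ℓ : ℕ) [NeZero ℓ] {X : LaurentSeries ℂ} {f : ℍ → ℂ} (h : Rep X f) :
    Rep (ModularCurve.qExpand ℂ ℓ X) (scale ℓ f) := by
  have hℓ : 0 < ℓ := Nat.pos_of_ne_zero (NeZero.ne ℓ)
  obtain ⟨g, hg, hg0, hfg, e⟩ := h
  refine ⟨scale ℓ g, hg.scale hℓ, fun τ => hg0 _, ?_, ?_⟩
  · rw [← scale_mul]; exact hfg.scale hℓ
  · rw [← scale_mul, qL_scale hg, qL_scale hfg, ← map_mul, e]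

theorem rep_nrm (h1 : Stmt_HF_expand) (ℓ : ℕ) [NeZero ℓ] {X : LaurentSeries ℂ} {f : ℍ → ℂ}
    (h : Rep X f) : Rep (compress ℓ (twProd ℓ (zetaC ℓ) X)) (nrm ℓ f) := by
  have hℓ : 0 < ℓ := Nat.pos_of_ne_zero (NeZero.ne ℓ)
  obtain ⟨g, hg, hg0, hfg, e⟩ := h
  refine ⟨nrm ℓ g, nice_nrm hℓ hg, nrm_ne_zero ℓ hg0, ?_, ?_⟩
  · rw [← nrm_mul]; exact nice_nrm hℓ hfg
  · apply ModularCurve.qExpand_injective (R := ℂ) ℓ
    rw [← nrm_mul, map_mul, qL_nrm ℓ hg, qL_nrm ℓ hfg,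
      h1 ℂ ℓ (zetaC ℓ) (zetaC_isPrimitiveRoot (NeZero.ne ℓ)) X, ← HF1.twProd_mul, e]

/-! ### the multiplicative Hecke operator -/

theorem prod_zmod_val {M : Type*} [CommMonoid M] (ℓ : ℕ) [NeZero ℓ] (u : ℕ → M) :
    ∏ j : ZMod ℓ, u j.val = ∏ j ∈ Finset.range ℓ, u j := by
  obtain ⟨m, rfl⟩ : ∃ m, ℓ = m + 1 := ⟨ℓ - 1, by have := NeZero.ne ℓ; omega⟩
  exact Fin.prod_univ_eq_prod_range u (m + 1)

theorem funN_eq (N : ℕ) {ℓ : ℕ} [NeZero ℓ] (hℓ : ℓ.Prime) (hℓN : ¬ ℓ ∣ N) (f : ℍ → ℂ) :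
    funN N hℓ hℓN f = scale ℓ f * nrm ℓ f := by
  funext z
  have hℓ0 : ℓ ≠ 0 := NeZero.ne ℓ
  have hℓC : (ℓ : ℂ) ≠ 0 := by exact_mod_cast hℓ0
  haveI : Fact ℓ.Prime := ⟨hℓ⟩
  show ∏ x : OnePoint (ZMod ℓ), f (heckeRep ℓ x • z) = _
  rw [show ∏ x : OnePoint (ZMod ℓ), f (heckeRep ℓ x • z) =
    f (heckeRep ℓ ∞ • z) * ∏ j : ZMod ℓ, f (heckeRep ℓ (j : OnePoint (ZMod ℓ)) • z) from
    Fintype.prod_option (fun x : OnePoint (ZMod ℓ) => f (heckeRep ℓ x • z))]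
  rw [Pi.mul_apply, scale_apply, nrm_apply, heckeRep_infty]
  congr 1
  · congr 1
    rw [← coe_heckeDiagMatrix_smul hℓ0, ofComplex_apply]
  · simp only [heckeRep_coe]
    rw [prod_zmod_val ℓ (fun j => f (heckeMatrix ℓ j • z))]
    refine Finset.prod_congr rfl fun j _ => ?_
    rw [aff_apply]
    congr 1
    have e : (((1 / (ℓ : ℝ) : ℝ) : ℂ) * (z : ℂ) + (((j : ℝ) / (ℓ : ℝ) : ℝ) : ℂ)) =
        ((heckeMatrix ℓ j • z : ℍ) : ℂ) := by
      rw [coe_heckeMatrix_smul hℓ0]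
      push_cast
      field_simp
    rw [e, ofComplex_apply]

theorem rep_funN (h1 : Stmt_HF_expand) (N : ℕ) {ℓ : ℕ} [NeZero ℓ] (hℓ : ℓ.Prime) (hℓN : ¬ ℓ ∣ N)
    {X : LaurentSeries ℂ} {f : ℍ → ℂ} (h : Rep X f) :
    Rep (formalN ℓ (zetaC ℓ) X) (funN N hℓ hℓN f) := by
  rw [funN_eq, formalN]
  exact (rep_scale ℓ h).mul (rep_nrm h1 ℓ h)

/-- **(HA2)** -/
theorem ha_rep (h1 : Stmt_HF_expand) (h2 : Stmt_HF_indep) (h3 : Stmt_HF_map) : Stmt_HA_rep := by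
  intro N _ ℓ _ hℓ hℓN ζ hζ f x _ hx
  have e : cmI (formalN ℓ ζ x) = formalN ℓ (zetaC ℓ) (cmI x) := by
    rw [show cmI (formalN ℓ ζ x) = _ from h3 Qbar ℂ (iota : Qbar →+* ℂ) ℓ ζ x]
    refine h2 ℂ ℓ _ _ ?_ (zetaC_isPrimitiveRoot (NeZero.ne ℓ)) _
    rw [← IsPrimitiveRoot.coe_units_iff]
    exact (IsPrimitiveRoot.coe_units_iff.mpr hζ).map_of_injective
      (f := (iota : Qbar →+* ℂ)) (iota : Qbar →+* ℂ).injective
  rw [e]
  exact rep_funN h1 N hℓ hℓN hx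

/-- **(HA2)**, unconditional. -/
theorem stmt_HA_rep : Stmt_HA_rep := ha_rep HF1.hf_expand HF1.hf_indep HF1.hf_map

end Fermat.Agent.ES.Mid.HA2
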