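import Fermat.Agent.ES.Mid.HeckeDefs
import Fermat.Agent.S24.FunAlgCusp

/-!
# ES / Mid / HA3 : the multiplicative Hecke operator preserves moderate growth
-/

set_option autoImplicit false

namespace Fermat.Agent.ES.Mid.HA3

open UpperHalfPlane CongruenceSubgroup ModularForm Filter Matrix.SpecialLinearGroup
open scoped MatrixGroups Manifold Topology OnePoint
open P2MW.S_ModularForm_heckeT_slash_eq_self_of_mem_Gamma0.ModularForm.HeckeSlashInvariance

/-- lower bound for `|Δ|` near `i∞`. -/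
theorem discriminant_norm_ge : ∃ c A : ℝ, 0 < c ∧ ∀ τ : ℍ, A ≤ τ.im →
    c * Real.exp (-(2 * Real.pi * τ.im)) ≤ ‖discriminant τ‖ := by
  have h1 : Tendsto (fun x : ℍ => ‖∏' (n : ℕ), (1 - eta_q n x) ^ 24‖) atImInfty (𝓝 ‖(1 : ℂ)‖) :=
    tendsto_atImInfty_tprod_one_sub_eta_q_pow.norm
  rw [norm_one] at h1
  have h2 : ∀ᶠ x : ℍ in atImInfty, (1 / 2 : ℝ) < ‖∏' (n : ℕ), (1 - eta_q n x) ^ 24‖ :=
    h1.eventually (lt_mem_nhds (by norm_num))
  obtain ⟨A, hA⟩ := (atImInfty_mem _).mp h2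
  refine ⟨1 / 2, A, by norm_num, fun τ hτ => ?_⟩
  rw [discriminant_eq_q_prod, norm_mul, Function.Periodic.norm_qParam, mul_comm]
  have h3 : Real.exp (-2 * Real.pi * (τ : ℂ).im / 1) = Real.exp (-(2 * Real.pi * τ.im)) := by
    congr 1
    simp
  rw [h3]
  exact mul_le_mul_of_nonneg_left (hA τ hτ).le (Real.exp_pos _).le

/-- moderate growth is preserved by a map `β` of `ℍ` scaling imaginary parts by `r ≤ L`. -/
theorem growth_comp (F : ℍ → ℂ) (k : ℕ)
    (hF : IsBoundedAtImInfty (fun w => F w * discriminant w ^ k))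
    (β : ℍ → ℍ) (r : ℝ) (hr : 0 < r) (L : ℕ) (hrL : r ≤ L) (hβ : ∀ τ, (β τ).im = r * τ.im) :
    IsBoundedAtImInfty (fun τ => F (β τ) * discriminant τ ^ (L * k)) := by
  obtain ⟨M, A, hM⟩ := isBoundedAtImInfty_iff.1 hF
  obtain ⟨c, A₁, hc, h₁⟩ := discriminant_norm_ge
  obtain ⟨C, A₂, hC, h₂⟩ := Fermat.Agent.S24.discriminant_norm_le
  rw [isBoundedAtImInfty_iff]
  refine ⟨(C ^ L / c) ^ k * M, max A₂ (max (|A| / r) (|A₁| / r)), fun τ hτ => ?_⟩
  have hy : 0 < τ.im := τ.im_pos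
  have hτ₂ : A₂ ≤ τ.im := (le_max_left _ _).trans hτ
  have hτA : |A| / r ≤ τ.im := ((le_max_left _ _).trans (le_max_right _ _)).trans hτ
  have hτ₁ : |A₁| / r ≤ τ.im := ((le_max_right _ _).trans (le_max_right _ _)).trans hτ
  have hwA : A ≤ (β τ).im := by
    rw [hβ]
    rw [div_le_iff₀ hr] at hτA
    linarith [le_abs_self A]
  have hw₁ : A₁ ≤ (β τ).im := by
    rw [hβ]
    rw [div_le_iff₀ hr] at hτ₁
    linarith [le_abs_self A₁]
  have hq : ‖discriminant τ‖ ^ L ≤ (C ^ L / c) * ‖discriminant (β τ)‖ := by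
    calc ‖discriminant τ‖ ^ L ≤ (C * Real.exp (-(2 * Real.pi * τ.im))) ^ L :=
          pow_le_pow_left₀ (norm_nonneg _) (h₂ τ hτ₂) L
      _ = C ^ L * Real.exp (-(2 * Real.pi * τ.im) * L) := by
          rw [mul_pow, ← Real.exp_nat_mul, mul_comm (L : ℝ)]
      _ ≤ C ^ L * Real.exp (-(2 * Real.pi * (β τ).im)) := by
          refine mul_le_mul_of_nonneg_left (Real.exp_le_exp.mpr ?_) (by positivity)
          rw [hβ]
          have hpi := Real.pi_pos
          have : r * τ.im ≤ L * τ.im := mul_le_mul_of_nonneg_right hrL hy.le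
          nlinarith
      _ = (C ^ L / c) * (c * Real.exp (-(2 * Real.pi * (β τ).im))) := by
          field_simp
      _ ≤ (C ^ L / c) * ‖discriminant (β τ)‖ :=
          mul_le_mul_of_nonneg_left (h₁ _ hw₁) (by positivity)
  have hMw := hM (β τ) hwA
  rw [norm_mul, norm_pow] at hMw
  calc ‖F (β τ) * discriminant τ ^ (L * k)‖ = ‖F (β τ)‖ * (‖discriminant τ‖ ^ L) ^ k := by
        rw [norm_mul, norm_pow, pow_mul]
    _ ≤ ‖F (β τ)‖ * ((C ^ L / c) * ‖discriminant (β τ)‖) ^ k :=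
        mul_le_mul_of_nonneg_left (pow_le_pow_left₀ (by positivity) hq k) (norm_nonneg _)
    _ = (C ^ L / c) ^ k * (‖F (β τ)‖ * ‖discriminant (β τ)‖ ^ k) := by
        rw [mul_pow]; ring
    _ ≤ (C ^ L / c) ^ k * M := mul_le_mul_of_nonneg_left hMw (by positivity)

theorem heckeRep_im {ℓ : ℕ} (hℓ : ℓ ≠ 0) (y : OnePoint (ZMod ℓ)) :
    ∃ r : ℝ, 0 < r ∧ r ≤ ℓ ∧ ∀ τ : ℍ, (heckeRep ℓ y • τ).im = r * τ.im := by
  have hℓ1 : (1 : ℝ) ≤ ℓ := by exact_mod_cast Nat.pos_of_ne_zero hℓ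
  induction y using OnePoint.rec with
  | infty =>
    refine ⟨ℓ, by linarith, le_rfl, fun τ => ?_⟩
    have h := congrArg Complex.im (coe_heckeDiagMatrix_smul hℓ τ)
    rw [heckeRep_infty]
    simpa using h
  | coe j =>
    refine ⟨1 / ℓ, by positivity, ?_, fun τ => ?_⟩
    · rw [div_le_iff₀ (by linarith)]
      nlinarith
    · have h := congrArg Complex.im (coe_heckeMatrix_smul hℓ j.val τ)
      rw [heckeRep_coe]
      have e : (((τ : ℂ) + (j.val : ℂ)) / (ℓ : ℂ)).im = 1 / ℓ * τ.im := by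
        have : (((τ : ℂ) + (j.val : ℂ)) / (ℓ : ℂ)) = ((τ : ℂ) + ((j.val : ℝ) : ℂ)) / ((ℓ : ℝ) : ℂ) := by
          push_cast; ring
        rw [this, Complex.div_ofReal_im]
        simp
        ring
      rw [e] at h
      exact h

/-- (HA3). -/
theorem ha_growth : Stmt_HA_growth := by
  intro N _ ℓ hℓ hℓN f _ hgr g
  have : Fact ℓ.Prime := ⟨hℓ⟩
  have h1 : ∀ x : OnePoint (ZMod ℓ), ∃ K : ℕ, IsBoundedAtImInfty
      (fun τ => f ((Fermat.Agent.S16.HH.dataT N hℓ hℓN).α x • (g • τ)) * discriminant τ ^ K) := by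
    intro x
    obtain ⟨g', -, hmul⟩ := heckeRep_mul (N := 1) (p := ℓ)
      (fun h => hℓ.one_lt.ne' (Nat.dvd_one.mp h)) g (by simp) x
    obtain ⟨k, hk⟩ := hgr g'
    obtain ⟨r, hr, hrℓ, him⟩ := heckeRep_im hℓ.ne_zero (redMatrix ℓ g • x)
    refine ⟨ℓ * k, ?_⟩
    have e : ∀ τ : ℍ, (Fermat.Agent.S16.HH.dataT N hℓ hℓN).α x • (g • τ) =
        g' • (heckeRep ℓ (redMatrix ℓ g • x) • τ) := by
      intro τ
      rw [Fermat.Agent.S16.HH.dataT_α]
      show heckeRep ℓ x • (mapGL ℝ g • τ) = mapGL ℝ g' • (heckeRep ℓ (redMatrix ℓ g • x) • τ)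
      rw [← mul_smul, hmul, mul_smul]
    simp only [e]
    exact growth_comp (fun w => f (g' • w)) k hk (fun τ => heckeRep ℓ (redMatrix ℓ g • x) • τ)
      r hr ℓ hrℓ him
  choose K hK using h1
  refine ⟨∑ x, K x, ?_⟩
  have h2 : IsBoundedAtImInfty (fun τ => ∏ x : OnePoint (ZMod ℓ),
      (f ((Fermat.Agent.S16.HH.dataT N hℓ hℓN).α x • (g • τ)) * discriminant τ ^ K x)) := by
    have := Asymptotics.IsBigO.finsetProd (s := Finset.univ) (fun x _ => hK x)
    refine this.congr' EventuallyEq.rfl (Eventually.of_forall fun τ => ?_)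
    simp
  refine h2.congr' (Eventually.of_forall fun τ => ?_) EventuallyEq.rfl
  simp only [funN]
  rw [Finset.prod_mul_distrib, Finset.prod_pow_eq_pow_sum]

end Fermat.Agent.ES.Mid.HA3
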