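import Fermat.Agent.ES.Mid.HeckeDefs

/-!
# ES / Mid / HF1 : formal algebra of `formalN`
(`Stmt_HF_expand`, `Stmt_HF_mul`, `Stmt_HF_map`, `Stmt_HF_indep`)
-/

set_option autoImplicit false

namespace Fermat.Agent.ES.Mid.HF1

open Fermat.Agent.ES.Mid

section Basic

variable {R : Type*} [CommRing R]

theorem tw_one_left (x : LaurentSeries R) : tw (1 : Rˣ) x = x := by
  ext n
  simp

theorem tw_tw (ζ ζ' : Rˣ) (x : LaurentSeries R) : tw ζ (tw ζ' x) = tw (ζ * ζ') x := by
  ext n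
  simp [mul_zpow, mul_assoc]

theorem tw_support (ζ : Rˣ) (x : LaurentSeries R) : (tw ζ x).support = x.support := by
  ext n
  simp [HahnSeries.mem_support]

theorem tw_mul (ζ : Rˣ) (x y : LaurentSeries R) : tw ζ (x * y) = tw ζ x * tw ζ y := by
  ext n
  rw [tw_coeff, HahnSeries.coeff_mul, HahnSeries.coeff_mul]
  have hset : Finset.antidiagonal (tw ζ x).isPWO_support (tw ζ y).isPWO_support n =
      Finset.antidiagonal x.isPWO_support y.isPWO_support n := by
    ext ij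
    simp only [Finset.mem_antidiagonal, tw_support]
  rw [hset, Finset.mul_sum]
  refine Finset.sum_congr rfl ?_
  intro ij hij
  have h := (Finset.mem_antidiagonal.1 hij).2.2
  rw [tw_coeff, tw_coeff, ← h, zpow_add, Units.val_mul]
  ring

theorem tw_one_right (ζ : Rˣ) : tw ζ (1 : LaurentSeries R) = 1 := by
  ext n
  rw [tw_coeff, HahnSeries.coeff_one]
  split_ifs with h
  · subst h; simp
  · simp

theorem tw_prod {ι : Type*} (ζ : Rˣ) (s : Finset ι) (f : ι → LaurentSeries R) :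
    tw ζ (∏ i ∈ s, f i) = ∏ i ∈ s, tw ζ (f i) := by
  classical
  induction s using Finset.induction_on with
  | empty => simp [tw_one_right]
  | insert a s ha ih => rw [Finset.prod_insert ha, Finset.prod_insert ha, tw_mul, ih]

theorem tw_twProd (ℓ : ℕ) (ζ : Rˣ) (h : ζ ^ ℓ = 1) (x : LaurentSeries R) :
    tw ζ (twProd ℓ ζ x) = twProd ℓ ζ x := by
  unfold twProd
  rw [tw_prod]
  have h1 : ∀ j : ℕ, tw ζ (tw (ζ ^ j) x) = tw (ζ ^ (j + 1)) x := by
    intro j
    rw [tw_tw, pow_succ']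
  simp only [h1]
  cases ℓ with
  | zero => simp
  | succ k =>
    rw [Finset.prod_range_succ, Finset.prod_range_succ' (fun j => tw (ζ ^ j) x), h, pow_zero]

theorem twProd_mul (ℓ : ℕ) (ζ : Rˣ) (x y : LaurentSeries R) :
    twProd ℓ ζ (x * y) = twProd ℓ ζ x * twProd ℓ ζ y := by
  unfold twProd
  rw [← Finset.prod_mul_distrib]
  exact Finset.prod_congr rfl fun j _ => tw_mul _ _ _

theorem twProd_one (ℓ : ℕ) (ζ : Rˣ) : twProd ℓ ζ (1 : LaurentSeries R) = 1 := by
  unfold twProd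
  exact Finset.prod_eq_one fun j _ => tw_one_right _

theorem compress_one (ℓ : ℕ) [NeZero ℓ] : compress ℓ (1 : LaurentSeries R) = 1 := by
  ext n
  rw [compress_coeff, HahnSeries.coeff_one, HahnSeries.coeff_one]
  have hℓ : ℓ ≠ 0 := NeZero.ne ℓ
  simp [hℓ]

theorem compress_qExpand (ℓ : ℕ) [NeZero ℓ] (x : LaurentSeries R) :
    compress ℓ (ModularCurve.qExpand R ℓ x) = x := by
  ext n
  rw [compress_coeff, ModularCurve.qExpand_coeff_mul]

end Basic

section Map

variable {R S : Type*} [CommRing R] [CommRing S]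

theorem coeffMap_tw (φ : R →+* S) (ζ : Rˣ) (x : LaurentSeries R) :
    ModularCurve.coeffMap φ (tw ζ x) =
      tw (Units.map (φ : R →* S) ζ) (ModularCurve.coeffMap φ x) := by
  ext n
  rw [ModularCurve.coeffMap_coeff, tw_coeff, tw_coeff, ModularCurve.coeffMap_coeff, map_mul,
    ← map_zpow, Units.coe_map]
  rfl

theorem coeffMap_twProd (φ : R →+* S) (ℓ : ℕ) (ζ : Rˣ) (x : LaurentSeries R) :
    ModularCurve.coeffMap φ (twProd ℓ ζ x) =
      twProd ℓ (Units.map (φ : R →* S) ζ) (ModularCurve.coeffMap φ x) := by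
  unfold twProd
  rw [map_prod]
  refine Finset.prod_congr rfl fun j _ => ?_
  rw [coeffMap_tw, map_pow]

theorem coeffMap_compress (φ : R →+* S) (ℓ : ℕ) [NeZero ℓ] (x : LaurentSeries R) :
    ModularCurve.coeffMap φ (compress ℓ x) = compress ℓ (ModularCurve.coeffMap φ x) := by
  ext n
  rfl

end Map

theorem hf_expand : Stmt_HF_expand := by
  intro R _ _ ℓ _ ζ hζ x
  have hP := tw_twProd ℓ ζ hζ.pow_eq_one x
  ext n
  by_cases hn : (ℓ : ℤ) ∣ n
  · obtain ⟨m, rfl⟩ := hn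
    rw [ModularCurve.qExpand_coeff_mul, compress_coeff]
  · rw [ModularCurve.qExpand_coeff_of_not_dvd ℓ _ hn]
    have h1 : ((ζ ^ n : Rˣ) : R) * (twProd ℓ ζ x).coeff n = (twProd ℓ ζ x).coeff n := by
      rw [← tw_coeff, hP]
    have h2 : (((ζ ^ n : Rˣ) : R) - 1) * (twProd ℓ ζ x).coeff n = 0 := by
      rw [sub_mul, h1, one_mul, sub_self]
    rcases mul_eq_zero.1 h2 with h3 | h3
    · exfalso
      apply hn
      rw [← hζ.zpow_eq_one_iff_dvd]
      apply Units.ext
      rw [Units.val_one]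
      exact sub_eq_zero.1 h3
    · exact h3.symm

theorem hf_mul : Stmt_HF_mul := by
  intro R _ _ ℓ _ ζ hζ
  refine ⟨?_, ?_⟩
  · unfold formalN
    rw [twProd_one, compress_one, map_one, one_mul]
  · intro x y
    unfold formalN
    have h : compress ℓ (twProd ℓ ζ (x * y)) =
        compress ℓ (twProd ℓ ζ x) * compress ℓ (twProd ℓ ζ y) := by
      apply ModularCurve.qExpand_injective (R := R) ℓ
      rw [map_mul, hf_expand R ℓ ζ hζ, hf_expand R ℓ ζ hζ, hf_expand R ℓ ζ hζ, twProd_mul]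
    rw [h, map_mul]
    ring

theorem hf_map : Stmt_HF_map := by
  intro R S _ _ φ ℓ _ ζ x
  unfold formalN
  rw [map_mul, ModularCurve.coeffMap_qExpand, coeffMap_compress, coeffMap_twProd]

theorem twProd_pow_coprime {R : Type*} [CommRing R] (ℓ a : ℕ) (ha : a.Coprime ℓ) (ζ : Rˣ)
    (h : ζ ^ ℓ = 1) (x : LaurentSeries R) : twProd ℓ (ζ ^ a) x = twProd ℓ ζ x := by
  unfold twProd
  rcases Nat.eq_zero_or_pos ℓ with rfl | hℓ
  · simp
  have hper : ∀ j : ℕ, ζ ^ (j % ℓ) = ζ ^ j := by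
    intro j
    conv_rhs => rw [← Nat.mod_add_div j ℓ, pow_add, pow_mul, h, one_pow, mul_one]
  have hinj : Set.InjOn (fun j => (a * j) % ℓ) (Finset.range ℓ : Set ℕ) := by
    intro i hi j hj hij
    have hi' : i < ℓ := Finset.mem_range.1 hi
    have hj' : j < ℓ := Finset.mem_range.1 hj
    have h1 : a * i ≡ a * j [MOD ℓ] := hij
    have h2 : i ≡ j [MOD ℓ] := Nat.ModEq.cancel_left_of_coprime (by rwa [Nat.coprime_comm] at ha) h1
    exact Nat.ModEq.eq_of_lt_of_lt h2 hi' hj'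
  have himg : (Finset.range ℓ).image (fun j => (a * j) % ℓ) = Finset.range ℓ := by
    apply Finset.eq_of_subset_of_card_le
    · intro j hj
      obtain ⟨i, -, rfl⟩ := Finset.mem_image.1 hj
      exact Finset.mem_range.2 (Nat.mod_lt _ hℓ)
    · rw [Finset.card_image_of_injOn hinj]
  conv_rhs => rw [← himg, Finset.prod_image hinj]
  refine Finset.prod_congr rfl fun j _ => ?_
  rw [hper, ← pow_mul]

theorem hf_indep : Stmt_HF_indep := by
  intro R _ _ ℓ _ ζ ζ' hζ hζ' x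
  have hℓ : 0 < ℓ := Nat.pos_of_ne_zero (NeZero.ne ℓ)
  have h1 : IsPrimitiveRoot (ζ : R) ℓ := IsPrimitiveRoot.coe_units_iff.2 hζ
  have h2 : (ζ' : R) ^ ℓ = 1 := by
    rw [← Units.val_pow_eq_pow_val, hζ'.pow_eq_one, Units.val_one]
  obtain ⟨a, -, ha⟩ := h1.eq_pow_of_pow_eq_one h2
  have ha' : ζ ^ a = ζ' := by
    apply Units.ext
    rw [Units.val_pow_eq_pow_val, ha]
  have hcop : a.Coprime ℓ := by
    rw [← hζ.pow_iff_coprime hℓ, ha']
    exact hζ'
  unfold formalN
  rw [← ha', twProd_pow_coprime ℓ a hcop ζ hζ.pow_eq_one]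

end Fermat.Agent.ES.Mid.HF1
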