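import Fermat.Agent.ES.Mid.HeckeDefs
import Mathlib.RingTheory.PowerSeries.Expand

/-!
# ES / Mid / HF2 : Frobenius on Laurent series in characteristic `ℓ`  (helper6)
-/

set_option autoImplicit false

namespace Fermat.Agent.ES.Mid.HF2

open Fermat.Agent.ES.Mid

section

variable {k : Type} [Field k] (ℓ : ℕ) [Fact ℓ.Prime] [CharP k ℓ]

/-- power series version (Mathlib). -/
theorem ps_pow (p : PowerSeries k) :
    p ^ ℓ = PowerSeries.map (frobenius k ℓ)
      (PowerSeries.expand ℓ (Fact.out : ℓ.Prime).ne_zero p) := by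
  have h := MvPowerSeries.map_frobenius_expand (σ := Unit) (R := k) ℓ
    (Fact.out : ℓ.Prime).ne_zero (f := p)
  exact h.symm

theorem ofPS_coeff_nat (p : PowerSeries k) (n : ℕ) :
    (HahnSeries.ofPowerSeries ℤ k p).coeff (n : ℤ) = PowerSeries.coeff n p := by
  have := HahnSeries.ofPowerSeries_apply_coeff (Γ := ℤ) p n
  simpa using this

theorem ofPS_coeff_neg (p : PowerSeries k) {n : ℤ} (hn : n < 0) :
    (HahnSeries.ofPowerSeries ℤ k p).coeff n = 0 := by
  rw [HahnSeries.ofPowerSeries_apply]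
  refine HahnSeries.embDomain_notin_range ?_
  rintro ⟨m, hm⟩
  have : (0 : ℤ) ≤ n := by
    rw [← hm]
    simp
  omega

theorem qExpand_ofPS [NeZero ℓ] (p : PowerSeries k) :
    ModularCurve.qExpand k ℓ (ModularCurve.coeffMap (frobenius k ℓ)
        (HahnSeries.ofPowerSeries ℤ k p))
      = HahnSeries.ofPowerSeries ℤ k (PowerSeries.map (frobenius k ℓ)
          (PowerSeries.expand ℓ (Fact.out : ℓ.Prime).ne_zero p)) := by
  have hℓ0 : ℓ ≠ 0 := (Fact.out : ℓ.Prime).ne_zero
  have hℓpos : (0 : ℤ) < (ℓ : ℤ) := by exact_mod_cast Nat.pos_of_ne_zero hℓ0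
  ext n
  by_cases hd : (ℓ : ℤ) ∣ n
  · obtain ⟨m, rfl⟩ := hd
    rw [ModularCurve.qExpand_coeff_mul, ModularCurve.coeffMap_coeff]
    rcases lt_or_ge m 0 with hm | hm
    · rw [ofPS_coeff_neg p hm, map_zero, ofPS_coeff_neg _ (by nlinarith)]
    · obtain ⟨m', rfl⟩ := Int.eq_ofNat_of_zero_le hm
      rw [ofPS_coeff_nat, show (ℓ : ℤ) * (m' : ℤ) = ((ℓ * m' : ℕ) : ℤ) by push_cast; ring,
        ofPS_coeff_nat, PowerSeries.coeff_map, PowerSeries.coeff_expand_mul]
  · rw [ModularCurve.qExpand_coeff_of_not_dvd _ _ hd]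
    rcases lt_or_ge n 0 with hn | hn
    · rw [ofPS_coeff_neg _ hn]
    · obtain ⟨n', rfl⟩ := Int.eq_ofNat_of_zero_le hn
      rw [ofPS_coeff_nat, PowerSeries.coeff_map, PowerSeries.coeff_expand_of_not_dvd, map_zero]
      intro h
      exact hd (by exact_mod_cast h)

theorem pow_eq [NeZero ℓ] (x : LaurentSeries k) :
    x ^ ℓ = ModularCurve.qExpand k ℓ (ModularCurve.coeffMap (frobenius k ℓ) x) := by
  conv_lhs => rw [← LaurentSeries.single_order_mul_powerSeriesPart x]
  conv_rhs => rw [← LaurentSeries.single_order_mul_powerSeriesPart x]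
  rw [mul_pow, map_mul, map_mul, ModularCurve.coeffMap_single, ModularCurve.qExpand_single,
    (frobenius k ℓ).map_one, HahnSeries.single_pow, one_pow, nsmul_eq_mul, qExpand_ofPS,
    ← ps_pow, map_pow]

theorem tw_one (x : LaurentSeries k) : tw (1 : kˣ) x = x := by
  ext n
  simp

theorem twProd_one (x : LaurentSeries k) : twProd ℓ (1 : kˣ) x = x ^ ℓ := by
  unfold twProd
  simp [tw_one]

theorem compress_qExpand [NeZero ℓ] (y : LaurentSeries k) :
    compress ℓ (ModularCurve.qExpand k ℓ y) = y := by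
  ext n
  rw [compress_coeff, ModularCurve.qExpand_coeff_mul]

end

theorem hf_char : Stmt_HF_char := by
  intro k _ ℓ _ _ x
  haveI : NeZero ℓ := ⟨(Fact.out : ℓ.Prime).ne_zero⟩
  refine ⟨pow_eq ℓ x, ?_⟩
  unfold formalN
  rw [twProd_one, pow_eq ℓ x, compress_qExpand]

end Fermat.Agent.ES.Mid.HF2

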