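import Fermat.Agent.ES.Mid.Interface2
import Fermat.Agent.S24.DegreeBound
import Fermat.Agent.S24.UnifFinite
import Fermat.Agent.S24.CountZerosCore
import Fermat.Agent.S24.Descent

/-!
# ES / Mid : (INV) invariant functions with algebraic `q`-expansion lie in `F_N`

A holomorphic `Γ₀(N)`-invariant function of moderate growth at all cusps whose `q`-expansion has
coefficients in `ℚ̄` is a quotient of two elements of `ℚ̄[j(dτ) : d ∣ N]`.

Proof: the `ℚ̄`-algebra `bigAlg N` of *all* such functions has a `q`-expansion homomorphism to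
`ℚ̄((q))`; by the characteristic polynomial argument and descent its field of fractions has degree
`≤ μ = [SL₂(ℤ) : Γ₀(N)]` over `ℚ̄(j)`, and it contains `F_N`, which has degree exactly `μ`.
-/

set_option autoImplicit false

namespace Fermat.Agent.ES.Mid.INV

open UpperHalfPlane CongruenceSubgroup ModularForm Filter
open scoped MatrixGroups Manifold
open Fermat.Agent.S24 (Qbar FF funAlg iota jFun jFunD jF jBarSeries Cosets)
open Fermat.Agent.S24.QX (qExpHom cmI Rep)
open Fermat.Agent.S24.DegBd (modGrowth preComp)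
attribute [local instance] Fermat.Agent.S24.algQbarComplex

/-- The algebra of all holomorphic `Γ₀(N)`-invariant functions of moderate growth at all cusps
whose `q`-expansion has coefficients in `ℚ̄`. -/
noncomputable def bigAlg (N : ℕ) : Subalgebra Qbar (ℍ → ℂ) where
  carrier := {θ | (∀ g : SL(2, ℤ), preComp g θ ∈ modGrowth) ∧
    (∀ γ : SL(2, ℤ), γ ∈ Gamma0 N → ∀ τ : ℍ, θ (γ • τ) = θ τ) ∧
    ∃ y : LaurentSeries Qbar, Rep (cmI y) θ}
  mul_mem' := by
    rintro a b ⟨ha1, ha2, y, hy⟩ ⟨hb1, hb2, z, hz⟩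
    refine ⟨fun g => ?_, fun γ hγ τ => ?_, y * z, ?_⟩
    · rw [map_mul]
      exact mul_mem (ha1 g) (hb1 g)
    · simp only [Pi.mul_apply]
      rw [ha2 γ hγ, hb2 γ hγ]
    · rw [map_mul]
      exact hy.mul hz
  add_mem' := by
    rintro a b ⟨ha1, ha2, y, hy⟩ ⟨hb1, hb2, z, hz⟩
    refine ⟨fun g => ?_, fun γ hγ τ => ?_, y + z, ?_⟩
    · rw [map_add]
      exact add_mem (ha1 g) (hb1 g)
    · simp only [Pi.add_apply]
      rw [ha2 γ hγ, hb2 γ hγ]
    · rw [map_add]
      exact hy.add hz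
  algebraMap_mem' := by
    intro c
    refine ⟨fun g => ?_, fun _ _ _ => rfl, _, Fermat.Agent.S24.QX.rep_algebraMap c⟩
    exact modGrowth.algebraMap_mem (iota c)

theorem mem_bigAlg_iff {N : ℕ} {θ : ℍ → ℂ} : θ ∈ bigAlg N ↔
    (∀ g : SL(2, ℤ), preComp g θ ∈ modGrowth) ∧
    (∀ γ : SL(2, ℤ), γ ∈ Gamma0 N → ∀ τ : ℍ, θ (γ • τ) = θ τ) ∧
    ∃ y : LaurentSeries Qbar, Rep (cmI y) θ := Iff.rfl

theorem mem_bigAlg {N : ℕ} {θ : ℍ → ℂ} (h1 : MDiff θ)
    (h2 : ∀ γ : SL(2, ℤ), γ ∈ Gamma0 N → ∀ τ : ℍ, θ (γ • τ) = θ τ) (h3 : Growth θ)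
    {y : LaurentSeries Qbar} (h4 : Rep (cmI y) θ) : θ ∈ bigAlg N :=
  ⟨fun g => ⟨Fermat.Agent.S24.DegBd.mdiff_comp_SL_smul h1 g, h3 g⟩, h2, y, h4⟩

theorem bigAlg_mdiff {N : ℕ} {θ : ℍ → ℂ} (h : θ ∈ bigAlg N) : MDiff θ := by
  have := (h.1 1).1
  have e : preComp 1 θ = θ := by
    funext τ
    rw [Fermat.Agent.S24.DegBd.preComp_apply, one_smul]
  rwa [e] at this

theorem bigAlg_growth {N : ℕ} {θ : ℍ → ℂ} (h : θ ∈ bigAlg N) (g : SL(2, ℤ)) :
    ∃ m : ℕ, IsBoundedAtImInfty (fun τ => θ (g • τ) * discriminant τ ^ m) :=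
  (h.1 g).2

theorem funAlg_le_bigAlg (N : ℕ) [NeZero N] : funAlg N ≤ bigAlg N := fun θ hθ =>
  mem_bigAlg (Fermat.Agent.S24.funAlg_mdiff hθ)
    (fun γ hγ τ => Fermat.Agent.S24.funAlg_invariant hθ γ hγ τ)
    (fun g => Fermat.Agent.S24.funAlg_growth hθ g)
    (Fermat.Agent.S24.QX.qExpFun_rep N ⟨θ, hθ⟩)

/-- The `q`-expansion of an element of `bigAlg N`. -/
noncomputable def bigExp (N : ℕ) (θ : bigAlg N) : LaurentSeries Qbar :=
  Classical.choose θ.2.2.2

theorem bigExp_rep (N : ℕ) (θ : bigAlg N) : Rep (cmI (bigExp N θ)) (θ : ℍ → ℂ) :=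
  Classical.choose_spec θ.2.2.2

theorem bigExp_eq {N : ℕ} {θ : bigAlg N} {x : LaurentSeries Qbar}
    (h : Rep (cmI x) (θ : ℍ → ℂ)) : bigExp N θ = x :=
  Fermat.Agent.S24.QX.cmI_injective ((bigExp_rep N θ).unique h)

/-- The `q`-expansion homomorphism of `bigAlg N`. -/
noncomputable def bigHom (N : ℕ) : bigAlg N →ₐ[Qbar] LaurentSeries Qbar where
  toFun θ := bigExp N θ
  map_one' := bigExp_eq <| by
    have := Fermat.Agent.S24.QX.rep_algebraMap 1
    simp only [map_one] at this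
    show Rep (cmI 1) (1 : ℍ → ℂ)
    rw [map_one]
    exact this
  map_mul' θ θ' := bigExp_eq <| by
    show Rep (cmI (bigExp N θ * bigExp N θ')) ((θ : ℍ → ℂ) * (θ' : ℍ → ℂ))
    rw [map_mul]
    exact (bigExp_rep N θ).mul (bigExp_rep N θ')
  map_zero' := bigExp_eq <| by
    have := Fermat.Agent.S24.QX.rep_algebraMap 0
    simp only [map_zero] at this
    show Rep (cmI 0) (0 : ℍ → ℂ)
    rw [map_zero]
    exact this
  map_add' θ θ' := bigExp_eq <| by
    show Rep (cmI (bigExp N θ + bigExp N θ')) ((θ : ℍ → ℂ) + (θ' : ℍ → ℂ))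
    rw [map_add]
    exact (bigExp_rep N θ).add (bigExp_rep N θ')
  commutes' c := bigExp_eq <| Fermat.Agent.S24.QX.rep_algebraMap c

theorem bigHom_apply (N : ℕ) (θ : bigAlg N) : bigHom N θ = bigExp N θ := rfl

theorem bigHom_injective (N : ℕ) : Function.Injective (bigHom N) := by
  intro θ θ' h
  have h1 : bigExp N θ = bigExp N θ' := h
  have h2 := bigExp_rep N θ
  rw [h1] at h2
  exact Subtype.ext (h2.unique_right (bigExp_rep N θ'))

/-- descent for `bigAlg N`. -/
theorem linearIndependent_complex_of_bigAlg (N : ℕ) {κ : Type*} (θ : κ → bigAlg N)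
    (h : LinearIndependent Qbar θ) : LinearIndependent ℂ (fun i => ((θ i : bigAlg N) : ℍ → ℂ)) := by
  have h1 : LinearIndependent Qbar (fun i => bigExp N (θ i)) := by
    rw [linearIndependent_iff'] at h ⊢
    intro s g hg i hi
    refine h s g ?_ i hi
    apply bigHom_injective N
    rw [map_sum, map_zero, ← hg]
    refine Finset.sum_congr rfl fun i _ => ?_
    rw [Algebra.smul_def, map_mul, AlgHom.commutes,
      ModularCurve.algebraMap_laurentSeries_eq_single]
    ext m
    simp [bigHom_apply]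
  have h2 := Fermat.Agent.S24.linearIndependent_coeffMap _ h1
  rw [linearIndependent_iff'] at h2 ⊢
  intro s g hg i hi
  refine h2 s g ?_ i hi
  have hrep : Rep (∑ i ∈ s, HahnSeries.C (g i) * cmI (bigExp N (θ i)))
      (∑ i ∈ s, (fun _ : ℍ => g i) * ((θ i : bigAlg N) : ℍ → ℂ)) :=
    Rep.sum s fun i _ => (Rep.const (g i)).mul (bigExp_rep N (θ i))
  have hzero : (∑ i ∈ s, (fun _ : ℍ => g i) * ((θ i : bigAlg N) : ℍ → ℂ)) = 0 := by
    rw [← hg]
    refine Finset.sum_congr rfl fun i _ => ?_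
    funext τ
    simp
  have hS := hrep.eq_zero_iff.mpr hzero
  rw [← hS]
  refine Finset.sum_congr rfl fun i _ => ?_
  rw [HahnSeries.C_mul_eq_smul]

/-! ### the field of fractions -/

open IntermediateField

/-- The field generated by the `q`-expansions of the elements of `bigAlg N`. -/
noncomputable def bigField (N : ℕ) : IntermediateField Qbar (LaurentSeries Qbar) :=
  IntermediateField.adjoin Qbar ((bigHom N).range : Set (LaurentSeries Qbar))

theorem bigHom_mem_bigField (N : ℕ) (θ : bigAlg N) : bigHom N θ ∈ bigField N :=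
  IntermediateField.subset_adjoin _ _ ⟨θ, rfl⟩

/-- The `q`-expansion homomorphism with values in `bigField N`. -/
noncomputable def bigHomF (N : ℕ) : bigAlg N →ₐ[Qbar] bigField N :=
  (bigHom N).codRestrict (bigField N).toSubalgebra (bigHom_mem_bigField N)

theorem coe_bigHomF (N : ℕ) (θ : bigAlg N) :
    ((bigHomF N θ : bigField N) : LaurentSeries Qbar) = bigHom N θ := rfl

theorem bigHomF_injective (N : ℕ) : Function.Injective (bigHomF N) := fun _ _ h =>
  bigHom_injective N (congrArg Subtype.val h)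

theorem bigField_frac (N : ℕ) (f : bigField N) :
    ∃ a b : bigAlg N, b ≠ 0 ∧ f * bigHomF N b = bigHomF N a := by
  obtain ⟨r, hr, s, hs, hf⟩ := IntermediateField.mem_adjoin_iff_div.mp f.2
  rw [Algebra.adjoin_eq] at hr hs
  obtain ⟨a, rfl⟩ := hr
  obtain ⟨b, rfl⟩ := hs
  by_cases hb : b = 0
  · refine ⟨0, 1, one_ne_zero, ?_⟩
    have : f = 0 := Subtype.ext (by rw [hf, hb, map_zero, div_zero]; rfl)
    rw [this, zero_mul, map_zero]
  · refine ⟨a, b, hb, Subtype.ext ?_⟩
    show (f : LaurentSeries Qbar) * bigHom N b = bigHom N a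
    rw [hf]
    refine div_mul_cancel₀ _ ?_
    exact fun h => hb (bigHom_injective N (by rw [map_zero]; exact h))

/-- `j` as an element of `bigAlg N`. -/
noncomputable def jBig (N : ℕ) [NeZero N] : bigAlg N :=
  ⟨jFun, by
    rw [← Fermat.Agent.S24.DegBd.jFunD_one]
    exact funAlg_le_bigAlg N (Fermat.Agent.S24.jFunD_mem_funAlg (one_dvd N))⟩

theorem bigHom_jBig (N : ℕ) [NeZero N] : bigHom N (jBig N) = jBarSeries 1 := by
  refine bigExp_eq ?_
  have := Fermat.Agent.S24.QX.rep_jFunD 1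
  rwa [Fermat.Agent.S24.DegBd.jFunD_one] at this

theorem transcendental_jBarSeries_one : Transcendental Qbar (jBarSeries 1) := by
  have h := Fermat.Agent.S24.DegBd.transcendental_jF 1
  intro halg
  apply h
  exact (isAlgebraic_algHom_iff (ModularCurve.modularFunctionFieldBar 1).val
    Subtype.val_injective).mp halg

theorem transcendental_bigHomF_jBig (N : ℕ) [NeZero N] :
    Transcendental Qbar (bigHomF N (jBig N)) := by
  intro halg
  apply transcendental_jBarSeries_one
  rw [← bigHom_jBig N]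
  exact (isAlgebraic_algHom_iff (bigField N).val Subtype.val_injective).mpr halg

theorem finrank_bigField_le (N : ℕ) [NeZero N] :
    FiniteDimensional Qbar⟮bigHomF N (jBig N)⟯ (bigField N) ∧
      Module.finrank Qbar⟮bigHomF N (jBig N)⟯ (bigField N) ≤ Nat.card (Cosets N) := by
  have hdep : ∀ θ : bigAlg N, ∃ m : ℕ, ¬ LinearIndependent Qbar
      (fun p : Fin (m + 1) × Fin (Nat.card (Cosets N) + 1) =>
        jBig N ^ (p.1 : ℕ) * θ ^ (p.2 : ℕ)) := by
    intro θ
    obtain ⟨m, hm⟩ := Fermat.Agent.S24.DegBd.exists_complex_dependence N θ.1 (bigAlg_mdiff θ.2)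
      θ.2.2.1 (bigAlg_growth θ.2) Fermat.Agent.S24.exists_polynomial_of_invariant
    refine ⟨m, fun h => hm ?_⟩
    have := linearIndependent_complex_of_bigAlg N _ h
    convert this using 2 with p
    rw [Subalgebra.coe_mul, Subalgebra.coe_pow, Subalgebra.coe_pow]
    rfl
  exact Fermat.Agent.S24.DegBd.finrank_adjoin_le_of_dependent (bigHomF N) (jBig N) _
    (bigHomF_injective N) (bigField_frac N) (transcendental_bigHomF_jBig N) hdep

theorem card_le_finrank_FF (N : ℕ) [NeZero N] :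
    Nat.card (Cosets N) ≤ Module.finrank Qbar⟮jF N⟯ (FF N) := by
  classical
  have := (Fermat.Agent.S24.finrank_FF_le N).1
  let _ := Fintype.ofFinite (Cosets N)
  obtain ⟨U⟩ := Fermat.Agent.S24.localUnif_finite N 0
  rw [map_zero, sub_zero] at U
  rw [Nat.card_eq_fintype_card]
  exact U.card_le_finrank

theorem FF_le_bigField (N : ℕ) [NeZero N] :
    ModularCurve.modularFunctionFieldBar N ≤ bigField N := by
  refine (Fermat.Agent.S24.QX.modularFunctionFieldBar_le N).trans ?_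
  refine IntermediateField.adjoin.mono _ _ _ ?_
  rintro _ ⟨d, hd0, hd, rfl⟩
  refine ⟨⟨jFunD d, funAlg_le_bigAlg N (Fermat.Agent.S24.jFunD_mem_funAlg hd)⟩, ?_⟩
  exact bigExp_eq (Fermat.Agent.S24.QX.rep_jFunD d)

theorem bigField_le_FF (N : ℕ) [NeZero N] :
    bigField N ≤ ModularCurve.modularFunctionFieldBar N := by
  have hE1 : Qbar⟮jBarSeries 1⟯ ≤ ModularCurve.modularFunctionFieldBar N :=
    adjoin_simple_le_iff.mpr (Fermat.Agent.S24.jBarSeries_mem (one_dvd N))
  have h12 := FF_le_bigField N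
  have r1 : relfinrank Qbar⟮jBarSeries 1⟯ (ModularCurve.modularFunctionFieldBar N) =
      Module.finrank Qbar⟮jF N⟯ (FF N) := by
    have := relfinrank_map_map (A := Qbar⟮jF N⟯) (B := ⊤)
      (ModularCurve.modularFunctionFieldBar N).val
    rw [relfinrank_top_right, adjoin_map, Set.image_singleton, ← AlgHom.fieldRange_eq_map,
      fieldRange_val] at this
    exact this
  have r2 : relfinrank Qbar⟮jBarSeries 1⟯ (bigField N) =
      Module.finrank Qbar⟮bigHomF N (jBig N)⟯ (bigField N) := by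
    have := relfinrank_map_map (A := Qbar⟮bigHomF N (jBig N)⟯) (B := ⊤) (bigField N).val
    rw [relfinrank_top_right, adjoin_map, Set.image_singleton, ← AlgHom.fieldRange_eq_map,
      fieldRange_val] at this
    rw [← bigHom_jBig N]
    exact this
  have r3 := relfinrank_mul_relfinrank hE1 h12
  obtain ⟨hfd, hle⟩ := finrank_bigField_le N
  have hpos : 0 < Module.finrank Qbar⟮bigHomF N (jBig N)⟯ (bigField N) := Module.finrank_pos
  have hμ := card_le_finrank_FF N
  rw [r1, r2] at r3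
  rw [← relfinrank_eq_one_iff]
  set a := Module.finrank Qbar⟮jF N⟯ (FF N)
  set b := relfinrank (ModularCurve.modularFunctionFieldBar N) (bigField N)
  set c := Module.finrank Qbar⟮bigHomF N (jBig N)⟯ (bigField N)
  have hb0 : b ≠ 0 := by
    rintro h0
    rw [h0, mul_zero] at r3
    omega
  by_contra hb1
  have hb2 : 2 ≤ b := by omega
  have : a * 2 ≤ a * b := Nat.mul_le_mul_left a hb2
  omega

/-- (INV). -/
theorem invRat : Stmt_InvRat := by
  intro N _ f x hmd hinv hgr hrep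
  have hf : f ∈ bigAlg N := mem_bigAlg hmd hinv hgr hrep
  have hx : x ∈ ModularCurve.modularFunctionFieldBar N := by
    apply bigField_le_FF N
    have : bigHom N ⟨f, hf⟩ = x := bigExp_eq hrep
    rw [← this]
    exact bigHom_mem_bigField N _
  obtain ⟨r, hr, s, hs, hxrs⟩ :=
    IntermediateField.mem_adjoin_iff_div.mp (Fermat.Agent.S24.QX.modularFunctionFieldBar_le N hx)
  obtain ⟨a, ha⟩ := Fermat.Agent.S24.QX.exists_qExpFun_eq N hr
  obtain ⟨b, hb⟩ := Fermat.Agent.S24.QX.exists_qExpFun_eq N hs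
  have key : ∀ θ₁ θ₂ : funAlg N,
      x * (qExpHom N θ₂ : LaurentSeries Qbar) = (qExpHom N θ₁ : LaurentSeries Qbar) →
      ∀ z, f z * (θ₂ : ℍ → ℂ) z = (θ₁ : ℍ → ℂ) z := by
    intro θ₁ θ₂ h z
    have h1 : Rep (cmI x * cmI (Fermat.Agent.S24.QX.qExpFun N θ₂)) (f * (θ₂ : ℍ → ℂ)) :=
      hrep.mul (Fermat.Agent.S24.QX.qExpFun_rep N θ₂)
    have h2 : Rep (cmI (Fermat.Agent.S24.QX.qExpFun N θ₁)) (θ₁ : ℍ → ℂ) :=
      Fermat.Agent.S24.QX.qExpFun_rep N θ₁
    rw [Fermat.Agent.S24.QX.coe_qExpHom, Fermat.Agent.S24.QX.coe_qExpHom] at h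
    rw [← map_mul, h] at h1
    exact congrFun (h1.unique_right h2) z
  by_cases hs0 : s = 0
  · have hx0 : x = 0 := by rw [hxrs, hs0, div_zero]
    have h : x * (qExpHom N 1 : LaurentSeries Qbar) = (qExpHom N 0 : LaurentSeries Qbar) := by
      rw [hx0, zero_mul, map_zero]
      rfl
    exact ⟨0, 1, one_ne_zero, key 0 1 h, h⟩
  · have h : x * (qExpHom N b : LaurentSeries Qbar) = (qExpHom N a : LaurentSeries Qbar) := by
      rw [Fermat.Agent.S24.QX.coe_qExpHom, Fermat.Agent.S24.QX.coe_qExpHom, ha, hb, hxrs,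
        div_mul_cancel₀ _ hs0]
    refine ⟨a, b, ?_, key a b h, h⟩
    rintro rfl
    apply hs0
    rw [← hb]
    exact congrArg Subtype.val (map_zero (qExpHom N))

end Fermat.Agent.ES.Mid.INV
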