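import Fermat.Agent.ES.Mid.Defs

/-!
# ES / Mid : interface (statements as Props) of the middle layer (architect: helper43)

Every package proves `theorem xxx : Stmt_xxx` (possibly from other `Stmt_`s as hypotheses) in its
own NEW file importing this one.  Output of the layer: `Stmt_FinLevel` (Galois action on
`X_m = {χ : Γ₀(N) → ℤ/m, IsPE χ}` with Eichler-Shimura relation), consumed by ES/Coh (helper21).
-/

set_option autoImplicit false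

namespace Fermat.Agent.ES.Mid

open UpperHalfPlane CongruenceSubgroup AlgebraicCurve
open scoped MatrixGroups Manifold
open Fermat.Agent.S24 (Qbar FF funAlg iota)
open Fermat.Agent.S24.QX (qExpHom)
attribute [local instance] Fermat.Agent.S24.algQbarComplex

/-! ### formal properties of `Kum` (package KF) -/

def Stmt_KumMul : Prop :=
  ∀ (N m : ℕ) [NeZero N] [NeZero m] (u u' : FF N) (χ χ' : Additive (Gamma0 N) →+ ZMod m),
    Kum N m u χ → Kum N m u' χ' → Kum N m (u * u') (χ + χ')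

def Stmt_KumInv : Prop :=
  ∀ (N m : ℕ) [NeZero N] [NeZero m] (u : FF N) (χ : Additive (Gamma0 N) →+ ZMod m),
    Kum N m u χ → Kum N m u⁻¹ (-χ)

def Stmt_KumPow : Prop :=
  ∀ (N m : ℕ) [NeZero N] [NeZero m] (f : FF N), f ≠ 0 → Kum N m (f ^ m) 0

def Stmt_KumUnique : Prop :=
  ∀ (N m : ℕ) [NeZero N] [NeZero m] (u : FF N) (χ χ' : Additive (Gamma0 N) →+ ZMod m),
    Kum N m u χ → Kum N m u χ' → χ = χ'

def Stmt_KumRed : Prop :=
  ∀ (N m m' : ℕ) [NeZero N] [NeZero m] [NeZero m'] (h : m ∣ m') (u : FF N)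
    (χ : Additive (Gamma0 N) →+ ZMod m'), Kum N m' u χ → Kum N m u (redChar h χ)

/-! ### the dictionary divisors <-> characters -/

/-- (A) = M2+M3+M4. -/
def Stmt_KumOfDiv : Prop :=
  ∀ (N m : ℕ) [NeZero N] [NeZero m] (u : FF N), IsDiv N m u →
    ∃ χ : Additive (Gamma0 N) →+ ZMod m, IsPE χ ∧ Kum N m u χ

/-- (B) = M5. -/
def Stmt_DivOfKum : Prop :=
  ∀ (N m : ℕ) [NeZero N] [NeZero m] (u : FF N) (χ : Additive (Gamma0 N) →+ ZMod m),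
    Kum N m u χ → IsPE χ → IsDiv N m u

/-- (E) = M6. -/
def Stmt_KumKer : Prop :=
  ∀ (N m : ℕ) [NeZero N] [NeZero m] (u : FF N), Kum N m u 0 → ∃ f : FF N, f ^ m = u

/-- (F) = M7. -/
def Stmt_KumSurj : Prop :=
  ∀ (N m : ℕ) [NeZero N] [NeZero m] (χ : Additive (Gamma0 N) →+ ZMod m), IsPE χ →
    ∃ u : FF N, Kum N m u χ

/-! ### Hecke operators -/

/-- (I) `tau` preserves `IsPE`. -/
def Stmt_TauPE : Prop :=
  ∀ (N : ℕ) [NeZero N] (ℓ : Nat.Primes) (A : Type) [AddCommGroup A]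
    (χ : Additive (Gamma0 N) →+ A), IsPE χ → IsPE (tau N ℓ A χ)

/-- (H) = M8+M9: the multiplicative Hecke operator `N_ℓ u = u(q^ℓ) ∏_ζ u(ζ q^{1/ℓ})`. -/
def Stmt_Hecke : Prop :=
  ∀ (N : ℕ) [NeZero N] (ℓ : Nat.Primes), ¬ (ℓ : ℕ) ∣ N →
    ∃ Nl : FF N → FF N,
      (∀ (m : ℕ) [NeZero m] (u : FF N) (χ : Additive (Gamma0 N) →+ ZMod m),
        Kum N m u χ → Kum N m (Nl u) (tau N ℓ (ZMod m) χ)) ∧
      (∀ (σ : GQ) (u : FF N), Nl (gal N σ u) = gal N σ (Nl u)) ∧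
      (∀ A : ValuationSubring Qbar, A.LiesOverPrime ℓ → ∀ σ : GQ, A.IsFrobeniusAt σ ℓ →
        ∀ u : FF N, u ≠ 0 →
          CongOne N A (gal N σ (gal N σ u) * u ^ (ℓ : ℕ) * (Nl (gal N σ u))⁻¹))

/-- (J) inertia acts trivially modulo `𝔪_A`. -/
def Stmt_CongInertia : Prop :=
  ∀ (N : ℕ) [NeZero N] (q : ℕ) (A : ValuationSubring Qbar), q.Prime → ¬ q ∣ N →
    A.LiesOverPrime q →
    ∀ σ ∈ A.inertiaSubgroupIn ℚ, ∀ u : FF N, u ≠ 0 → CongOne N A (gal N σ u * u⁻¹)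

/-- (K) Claim K (delivered by team KL, helper49). -/
def Stmt_ClaimK : Prop :=
  ∀ (N : ℕ) [NeZero N] (ℓ : ℕ), ℓ.Prime → ¬ ℓ ∣ N →
    ∀ A : ValuationSubring Qbar, A.LiesOverPrime ℓ → ∀ m : ℕ, ¬ ℓ ∣ m →
      ∀ u : FF N, CongOne N A u → IsDiv N m u → ∃ g : FF N, g ^ m = u

/-! ### finiteness -/

/-- (L) every element of `F_N` is fixed by an open subgroup. -/
def Stmt_FixedOpen : Prop :=
  ∀ (N : ℕ) (u : FF N), ∃ L : IntermediateField ℚ Qbar, FiniteDimensional ℚ L ∧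
    ∀ σ : GQ, (∀ x ∈ L, σ x = x) → gal N σ u = u

/-- (M) `Hom(Γ₀(N), ℤ/m)` is finite. -/
def Stmt_HomFinite : Prop :=
  ∀ (N m : ℕ) [NeZero N] [NeZero m], Finite (Additive (Gamma0 N) →+ ZMod m)

/-! ### output of the layer -/

/-- The Galois action on `X_m` with all its properties. (`act m σ χ` is only meaningful for
`IsPE χ`.) -/
def Stmt_FinLevel : Prop :=
  ∀ (N : ℕ) [NeZero N],
    ∃ act : ∀ (m : ℕ) [NeZero m], GQ → (Additive (Gamma0 N) →+ ZMod m) →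
        (Additive (Gamma0 N) →+ ZMod m),
      (∀ (m : ℕ) [NeZero m] (σ : GQ) χ, IsPE χ → IsPE (act m σ χ)) ∧
      (∀ (m : ℕ) [NeZero m] (σ : GQ) χ χ', IsPE χ → IsPE χ' →
        act m σ (χ + χ') = act m σ χ + act m σ χ') ∧
      (∀ (m : ℕ) [NeZero m] χ, IsPE χ → act m 1 χ = χ) ∧
      (∀ (m : ℕ) [NeZero m] (σ τ : GQ) χ, IsPE χ → act m (σ * τ) χ = act m σ (act m τ χ)) ∧
      (∀ (m m' : ℕ) [NeZero m] [NeZero m'] (h : m ∣ m') (σ : GQ) χ, IsPE χ →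
        redChar h (act m' σ χ) = act m σ (redChar h χ)) ∧
      (∀ (m : ℕ) [NeZero m] (ℓ : Nat.Primes), ¬ (ℓ : ℕ) ∣ N → ∀ (σ : GQ) χ, IsPE χ →
        act m σ (tau N ℓ (ZMod m) χ) = tau N ℓ (ZMod m) (act m σ χ)) ∧
      (∀ (m : ℕ) [NeZero m], ∃ L : IntermediateField ℚ Qbar, FiniteDimensional ℚ L ∧
        ∀ σ : GQ, (∀ x ∈ L, σ x = x) → ∀ χ, IsPE χ → act m σ χ = χ) ∧
      (∀ (m : ℕ) [NeZero m] (q : ℕ), q.Prime → ¬ q ∣ N → ¬ q ∣ m →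
        ∀ A : ValuationSubring Qbar, A.LiesOverPrime q → ∀ σ ∈ A.inertiaSubgroupIn ℚ,
          ∀ χ, IsPE χ → act m σ χ = χ) ∧
      (∀ (m : ℕ) [NeZero m] (ℓ : Nat.Primes), ¬ (ℓ : ℕ) ∣ N → ¬ (ℓ : ℕ) ∣ m →
        ∀ A : ValuationSubring Qbar, A.LiesOverPrime ℓ → ∀ σ : GQ, A.IsFrobeniusAt σ ℓ →
          ∀ χ, IsPE χ →
            act m σ (act m σ χ) - tau N ℓ (ZMod m) (act m σ χ) + (ℓ : ℕ) • χ = 0)

end Fermat.Agent.ES.Mid
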