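import Fermat.Agent.ES.Mid.Interface2

/-!
# ES / Mid, package J : inertia acts trivially modulo the maximal ideal
-/

set_option autoImplicit false

namespace Fermat.Agent.ES.Mid.J

open UpperHalfPlane CongruenceSubgroup AlgebraicCurve
open scoped MatrixGroups Manifold
open Fermat.Agent.S24 (Qbar FF funAlg iota)
open Fermat.Agent.S24.QX (qExpHom cmI)
open ModularCurve (coeffMap coeffMap_coeffMap coeffMap_congr)
attribute [local instance] Fermat.Agent.S24.algQbarComplex

theorem sub_mem_nonunits {A : ValuationSubring Qbar} {σ : GQ} (hσ : σ ∈ A.inertiaSubgroupIn ℚ) :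
    ∀ a ∈ A, σ a - a ∈ A.nonunits := by
  obtain ⟨g, hg, rfl⟩ := hσ
  intro a ha
  have h1 : g • (IsLocalRing.residue A ⟨a, ha⟩) = IsLocalRing.residue A ⟨a, ha⟩ :=
    RingEquiv.congr_fun (MonoidHom.mem_ker.1 hg) (IsLocalRing.residue A ⟨a, ha⟩)
  rw [← IsLocalRing.ResidueField.residue_smul, ← sub_eq_zero, ← map_sub,
    IsLocalRing.residue_eq_zero_iff, ← ValuationSubring.coe_mem_nonunits_iff] at h1
  exact h1

theorem apply_mem {A : ValuationSubring Qbar} {σ : GQ} (hσ : σ ∈ A.inertiaSubgroupIn ℚ)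
    (a : Qbar) (ha : a ∈ A) : σ a ∈ A := by
  have h1 : σ a - a ∈ A := A.nonunits_subset (sub_mem_nonunits hσ a ha)
  have := A.add_mem _ _ h1 ha
  rwa [sub_add_cancel] at this

/-- the restriction of an element of the inertia group to the valuation ring -/
noncomputable def resHom {A : ValuationSubring Qbar} {σ : GQ} (hσ : σ ∈ A.inertiaSubgroupIn ℚ) :
    A →+* A where
  toFun a := ⟨σ a, apply_mem hσ a a.2⟩
  map_one' := Subtype.ext (map_one σ)
  map_mul' a b := Subtype.ext (map_mul σ (a : Qbar) (b : Qbar))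
  map_zero' := Subtype.ext (map_zero σ)
  map_add' a b := Subtype.ext (map_add σ (a : Qbar) (b : Qbar))

theorem subtype_comp_resHom {A : ValuationSubring Qbar} {σ : GQ}
    (hσ : σ ∈ A.inertiaSubgroupIn ℚ) :
    A.subtype.comp (resHom hσ) = (σ : Qbar →+* Qbar).comp A.subtype :=
  RingHom.ext fun _ => rfl

theorem residue_comp_resHom {A : ValuationSubring Qbar} {σ : GQ}
    (hσ : σ ∈ A.inertiaSubgroupIn ℚ) :
    (IsLocalRing.residue A).comp (resHom hσ) = IsLocalRing.residue A := by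
  ext a
  rw [RingHom.comp_apply, ← sub_eq_zero, ← map_sub, IsLocalRing.residue_eq_zero_iff,
    ← ValuationSubring.coe_mem_nonunits_iff]
  exact sub_mem_nonunits hσ a a.2

theorem congInertia (hI : Stmt_IntRep) : Stmt_CongInertia := by
  intro N _ q A hq _ hA σ hσ u hu
  obtain ⟨y₁, y₂, θ₁, θ₂, h1, h2, hu12, hr1, hr2⟩ := hI N q A hq hA u hu
  set X₁ : FF N := qExpHom N θ₁ with hX₁
  set X₂ : FF N := qExpHom N θ₂ with hX₂
  -- the conjugate series
  have hz : ∀ (y : LaurentSeries A) (X : FF N), coeffMap A.subtype y = (X : LaurentSeries Qbar) →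
      coeffMap A.subtype (coeffMap (resHom hσ) y) = ((gal N σ X : FF N) : LaurentSeries Qbar) := by
    intro y X h
    rw [coe_gal, ← h, coeffMap_coeffMap, coeffMap_coeffMap, subtype_comp_resHom]
  have hred : ∀ y : LaurentSeries A, coeffMap (IsLocalRing.residue A) (coeffMap (resHom hσ) y) =
      coeffMap (IsLocalRing.residue A) y := by
    intro y
    rw [coeffMap_coeffMap, residue_comp_resHom]
  have e1 : coeffMap A.subtype (coeffMap (resHom hσ) y₁ * y₂) =
      ((gal N σ X₁ * X₂ : FF N) : LaurentSeries Qbar) := by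
    rw [map_mul, hz y₁ X₁ h1, h2]
    rfl
  have e2 : coeffMap A.subtype (coeffMap (resHom hσ) y₂ * y₁) =
      ((gal N σ X₂ * X₁ : FF N) : LaurentSeries Qbar) := by
    rw [map_mul, hz y₂ X₂ h2, h1]
    rfl
  refine ⟨coeffMap (resHom hσ) y₁ * y₂, coeffMap (resHom hσ) y₂ * y₁, ?_, ?_, ?_, ?_, ?_⟩
  · rw [e1]
    exact (gal N σ X₁ * X₂ : FF N).2
  · rw [e2]
    exact (gal N σ X₂ * X₁ : FF N).2
  · rw [e1, e2]
    have key : gal N σ u * u⁻¹ * (gal N σ X₂ * X₁) = gal N σ X₁ * X₂ := by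
      rw [← hu12, map_mul]
      field_simp
    exact congrArg Subtype.val key
  · rw [map_mul, map_mul, hred, hred, mul_comm]
  · rw [map_mul, hred]
    exact mul_ne_zero hr2 hr1

end Fermat.Agent.ES.Mid.J
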