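import Fermat.Agent.ES.Mid.Interface2
import Fermat.Prelude.Def_ModularCurve_X0ModL

/-!
# ES / Mid : integral representatives (package INT)

`Stmt_IntRep` of `Interface2` is false for constants of nonzero valuation; we prove the corrected
statement `Stmt_IntRep'`: every `u ≠ 0` of `F_N` is `c * y₁ / y₂` with `c ∈ ℚ̄ˣ` and `y₁, y₂`
`A`-integral elements of `ℚ̄[j_d : d ∣ N]` with nonzero reductions.
-/

set_option autoImplicit false

namespace Fermat.Agent.ES.Mid

open UpperHalfPlane CongruenceSubgroup AlgebraicCurve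
open scoped MatrixGroups Manifold
open Fermat.Agent.S24 (Qbar FF funAlg iota)
open Fermat.Agent.S24.QX (qExpHom cmI)
attribute [local instance] Fermat.Agent.S24.algQbarComplex

/-- (INT', corrected) every nonzero element of `F_N` is a nonzero constant times a quotient of two
`A`-integral series of `ℚ̄[j_d : d ∣ N]` with nonzero reductions. -/
def Stmt_IntRep' : Prop :=
  ∀ (N : ℕ) [NeZero N] (A : ValuationSubring Qbar),
    ∀ u : FF N, u ≠ 0 → ∃ (c : Qbar) (y₁ y₂ : LaurentSeries A) (θ₁ θ₂ : funAlg N), c ≠ 0 ∧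
      ModularCurve.coeffMap A.subtype y₁ = (qExpHom N θ₁ : LaurentSeries Qbar) ∧
      ModularCurve.coeffMap A.subtype y₂ = (qExpHom N θ₂ : LaurentSeries Qbar) ∧
      u * qExpHom N θ₂ = algebraMap Qbar (FF N) c * qExpHom N θ₁ ∧
      ModularCurve.coeffMap (IsLocalRing.residue A) y₁ ≠ 0 ∧
      ModularCurve.coeffMap (IsLocalRing.residue A) y₂ ≠ 0

namespace INT

open Fermat.Agent.S24 Fermat.Agent.S24.QX

/-- the coefficients of `x` lie in a finitely generated `ℤ`-submodule of `ℚ̄`. -/
def FGCoeff (x : LaurentSeries Qbar) : Prop :=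
  ∃ C : Submodule ℤ Qbar, C.FG ∧ ∀ n, x.coeff n ∈ C

lemma fgCoeff_jBarSeries (d : ℕ) [NeZero d] : FGCoeff (jBarSeries d) := by
  refine ⟨Submodule.span ℤ {1}, Submodule.fg_span_singleton 1, fun n => ?_⟩
  have h1 : jBarSeries d = ModularCurve.coeffMap (Int.castRingHom Qbar)
      (ModularCurve.jqNModC ℤ d) := by
    rw [ModularCurve.coeffMap_jqNModC]
    have : jBarSeries d = ModularCurve.coeffMap (algebraMap ℚ Qbar) (ModularCurve.jqNModC ℚ d) :=
      rfl
    rw [this, ModularCurve.coeffMap_jqNModC]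
  rw [h1, ModularCurve.coeffMap_coeff, Submodule.mem_span_singleton]
  exact ⟨(ModularCurve.jqNModC ℤ d).coeff n, by simp⟩

lemma fgCoeff_algebraMap (c : Qbar) : FGCoeff (algebraMap Qbar (LaurentSeries Qbar) c) := by
  refine ⟨Submodule.span ℤ {c}, Submodule.fg_span_singleton c, fun n => ?_⟩
  rw [ModularCurve.algebraMap_laurentSeries_eq_single, HahnSeries.coeff_single]
  split_ifs
  · exact Submodule.mem_span_singleton_self c
  · exact Submodule.zero_mem _

lemma FGCoeff.add {x y : LaurentSeries Qbar} (hx : FGCoeff x) (hy : FGCoeff y) :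
    FGCoeff (x + y) := by
  obtain ⟨C, hC, h⟩ := hx
  obtain ⟨C', hC', h'⟩ := hy
  refine ⟨C ⊔ C', hC.sup hC', fun n => ?_⟩
  rw [HahnSeries.coeff_add]
  exact Submodule.add_mem_sup (h n) (h' n)

lemma FGCoeff.mul {x y : LaurentSeries Qbar} (hx : FGCoeff x) (hy : FGCoeff y) :
    FGCoeff (x * y) := by
  obtain ⟨C, hC, h⟩ := hx
  obtain ⟨C', hC', h'⟩ := hy
  refine ⟨C * C', hC.mul hC', fun n => ?_⟩
  rw [HahnSeries.coeff_mul]
  exact Submodule.sum_mem _ fun ij _ => Submodule.mul_mem_mul (h _) (h' _)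

lemma fgCoeff_of_mem_serAlg {N : ℕ} {x : LaurentSeries Qbar} (hx : x ∈ serAlg N) : FGCoeff x := by
  unfold serAlg at hx
  induction hx using Algebra.adjoin_induction with
  | mem x hx =>
    obtain ⟨d, hd0, hd, rfl⟩ := hx
    exact fgCoeff_jBarSeries d
  | algebraMap c => exact fgCoeff_algebraMap c
  | add x y _ _ h h' => exact h.add h'
  | mul x y _ _ h h' => exact h.mul h'

/-- normalisation: some coefficient divides all the others in `A`. -/
lemma exists_scale (A : ValuationSubring Qbar) {x : LaurentSeries Qbar} (hx : x ≠ 0)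
    (h : FGCoeff x) : ∃ l : Qbar, l ≠ 0 ∧ (∀ n, l * x.coeff n ∈ A) ∧ ∃ n, l * x.coeff n = 1 := by
  classical
  obtain ⟨C, hC, hxC⟩ := h
  have hNoeth : IsNoetherian ℤ C := isNoetherian_of_fg_of_noetherian C hC
  set s : Set Qbar := Set.range x.coeff with hs
  have hle : Submodule.span ℤ s ≤ C := Submodule.span_le.2 (by rintro _ ⟨n, rfl⟩; exact hxC n)
  have hfg : (Submodule.span ℤ s).FG := by
    have := (isNoetherian_submodule.1 hNoeth) (Submodule.span ℤ s) hle
    exact this
  obtain ⟨s', hs's, hspan⟩ := (Submodule.fg_span_iff_fg_span_finset_subset s).1 hfg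
  -- `s'` contains a nonzero element
  have hne : s'.Nonempty := by
    by_contra hemp
    rw [Finset.not_nonempty_iff_eq_empty] at hemp
    rw [hemp, Finset.coe_empty, Submodule.span_empty] at hspan
    apply hx
    ext n
    have : x.coeff n ∈ Submodule.span ℤ s := Submodule.subset_span ⟨n, rfl⟩
    rw [hspan] at this
    simpa using this
  obtain ⟨y₀, hy₀, hmax⟩ := Finset.exists_max_image s' A.valuation hne
  have hy₀0 : y₀ ≠ 0 := by
    rintro rfl
    have hall : ∀ y ∈ s', y = 0 := by
      intro y hy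
      have := hmax y hy
      rw [map_zero] at this
      exact (map_eq_zero A.valuation).1 (le_antisymm this zero_le)
    apply hx
    ext n
    have h1 : x.coeff n ∈ Submodule.span ℤ (s' : Set Qbar) := by
      rw [← hspan]; exact Submodule.subset_span ⟨n, rfl⟩
    have h2 : Submodule.span ℤ (s' : Set Qbar) ≤ ⊥ :=
      Submodule.span_le.2 fun y hy => by simpa using hall y hy
    simpa using h2 h1
  refine ⟨y₀⁻¹, inv_ne_zero hy₀0, fun n => ?_, ?_⟩
  · have h1 : x.coeff n ∈ Submodule.span ℤ (s' : Set Qbar) := by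
      rw [← hspan]; exact Submodule.subset_span ⟨n, rfl⟩
    generalize x.coeff n = w at h1
    induction h1 using Submodule.span_induction with
    | mem y hy =>
      rw [← A.valuation_le_one_iff, map_mul, map_inv₀]
      have hv : A.valuation y₀ ≠ 0 := (map_ne_zero A.valuation).2 hy₀0
      rw [inv_mul_le_iff₀ (zero_lt_iff.2 hv), mul_one]
      exact hmax y hy
    | zero => rw [mul_zero]; exact A.zero_mem
    | add y z _ _ hy hz => rw [mul_add]; exact A.add_mem _ _ hy hz
    | smul a y _ hy =>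
      rw [zsmul_eq_mul, mul_left_comm]
      exact A.mul_mem _ _ (intCast_mem A a) hy
  · obtain ⟨n, hn⟩ := hs's hy₀
    exact ⟨n, by rw [hn]; exact inv_mul_cancel₀ hy₀0⟩

/-- an `A`-integral series from its coefficients. -/
noncomputable def lift (A : ValuationSubring Qbar) (x : LaurentSeries Qbar)
    (h : ∀ n, x.coeff n ∈ A) : LaurentSeries A where
  coeff n := ⟨x.coeff n, h n⟩
  isPWO_support' := by
    refine x.isPWO_support.mono fun n hn => ?_
    intro h0
    apply hn
    exact Subtype.ext h0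

lemma coeffMap_lift (A : ValuationSubring Qbar) (x : LaurentSeries Qbar)
    (h : ∀ n, x.coeff n ∈ A) : ModularCurve.coeffMap A.subtype (lift A x h) = x := by
  ext n
  rfl

/-- the key normalisation statement for elements of `funAlg N`. -/
lemma exists_normalised (N : ℕ) [NeZero N] (A : ValuationSubring Qbar) (θ : funAlg N)
    (hθ : θ ≠ 0) : ∃ (l : Qbar) (y : LaurentSeries A), l ≠ 0 ∧
      ModularCurve.coeffMap A.subtype y =
        (qExpHom N (algebraMap Qbar (funAlg N) l * θ) : LaurentSeries Qbar) ∧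
      ModularCurve.coeffMap (IsLocalRing.residue A) y ≠ 0 := by
  have hx : qExpFun N θ ≠ 0 := by
    intro h0
    apply hθ
    apply qExpHom_injective N
    rw [map_zero]
    exact Subtype.ext h0
  obtain ⟨l, hl, hA, n, hn⟩ := exists_scale A hx (fgCoeff_of_mem_serAlg (qExpFun_mem N θ))
  set z : LaurentSeries Qbar := algebraMap Qbar (LaurentSeries Qbar) l * qExpFun N θ with hz
  have hcoe : ((qExpHom N (algebraMap Qbar (funAlg N) l * θ) : FF N) : LaurentSeries Qbar) = z := by
    rw [map_mul, AlgHom.commutes]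
    rfl
  have hc : ∀ k, z.coeff k = l * (qExpFun N θ).coeff k := fun k => by
    rw [hz, ModularCurve.algebraMap_laurentSeries_eq_single, HahnSeries.coeff_single_zero_mul]
  refine ⟨l, lift A z (fun k => by rw [hc]; exact hA k), hl, ?_, ?_⟩
  · rw [coeffMap_lift, hcoe]
  · intro h0
    have h1 := congrArg (fun z => HahnSeries.coeff z n) h0
    simp only [ModularCurve.coeffMap_coeff, HahnSeries.coeff_zero] at h1
    have h2 : (lift A z (fun k => by rw [hc]; exact hA k)).coeff n = 1 := by
      apply Subtype.ext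
      show z.coeff n = 1
      rw [hc, hn]
    rw [h2, map_one] at h1
    exact one_ne_zero h1

/-- every element of `F_N` is a quotient of elements of `ℚ̄[j_d]`. -/
lemma exists_quot (N : ℕ) [NeZero N] (f : FF N) :
    ∃ a b : funAlg N, b ≠ 0 ∧ f * qExpHom N b = qExpHom N a := by
  obtain ⟨r, hr, s, hs, hf⟩ :=
    IntermediateField.mem_adjoin_iff_div.mp (modularFunctionFieldBar_le N f.2)
  obtain ⟨a, ha⟩ := exists_qExpFun_eq N hr
  obtain ⟨b, hb⟩ := exists_qExpFun_eq N hs
  by_cases hs0 : s = 0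
  · refine ⟨0, 1, one_ne_zero, ?_⟩
    have hf0 : f = 0 := Subtype.ext (by rw [hf, hs0, div_zero]; rfl)
    rw [hf0, zero_mul, map_zero]
  · refine ⟨a, b, ?_, ?_⟩
    · rintro rfl
      apply hs0
      rw [← hb]
      exact congrArg Subtype.val (map_zero (qExpHom N))
    · apply Subtype.ext
      show (f : LaurentSeries Qbar) * qExpFun N b = qExpFun N a
      rw [ha, hb, hf, div_mul_cancel₀ _ hs0]

/-- **INT'**. -/
theorem intRep' : Stmt_IntRep' := by
  intro N _ A u hu
  obtain ⟨a, b, hb, hab⟩ := exists_quot N u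
  have hqb : qExpHom N b ≠ 0 := fun h0 => hb (qExpHom_injective N (h0.trans (map_zero _).symm))
  have ha : a ≠ 0 := by
    rintro rfl
    rw [map_zero] at hab
    exact (mul_ne_zero hu hqb) hab
  obtain ⟨l₁, y₁, hl₁, h1, h1'⟩ := exists_normalised N A a ha
  obtain ⟨l₂, y₂, hl₂, h2, h2'⟩ := exists_normalised N A b hb
  refine ⟨l₂ * l₁⁻¹, y₁, y₂, algebraMap Qbar (funAlg N) l₁ * a, algebraMap Qbar (funAlg N) l₂ * b,
    mul_ne_zero hl₂ (inv_ne_zero hl₁), h1, h2, ?_, h1', h2'⟩
  rw [map_mul (qExpHom N), map_mul (qExpHom N), AlgHom.commutes, AlgHom.commutes, mul_left_comm,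
    hab, ← mul_assoc, ← map_mul, mul_assoc, inv_mul_cancel₀ hl₁, mul_one]

end INT

end Fermat.Agent.ES.Mid
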