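import Fermat.Agent.ES.Mid.Glue
import Fermat.Agent.ES.Mid.CongInertia
import Fermat.Agent.ES.Mid.IntRep
import Fermat.Agent.S24.PlaceBasic

/-!
# ES / Mid : corrected form of package J and of the glue

`Stmt_CongInertia` is false for constants (helper86).  Corrected statement: `σ u / u` is
congruent to `1` UP TO A NONZERO CONSTANT.  Constants are `m`-th powers, so the glue survives.
-/

set_option autoImplicit false

namespace Fermat.Agent.ES.Mid

open UpperHalfPlane CongruenceSubgroup AlgebraicCurve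
open scoped MatrixGroups Manifold
open Fermat.Agent.S24 (Qbar FF funAlg iota)
open Fermat.Agent.S24.QX (qExpHom cmI)
open ModularCurve (coeffMap coeffMap_coeffMap coeffMap_congr)
attribute [local instance] Fermat.Agent.S24.algQbarComplex

/-- (J', corrected) inertia acts trivially modulo `𝔪_A`, up to a constant. -/
def Stmt_CongInertia' : Prop :=
  ∀ (N : ℕ) [NeZero N] (A : ValuationSubring Qbar),
    ∀ σ ∈ A.inertiaSubgroupIn ℚ, ∀ u : FF N, u ≠ 0 →
      ∃ w : Qbar, w ≠ 0 ∧ CongOne N A (algebraMap Qbar (FF N) w * (gal N σ u * u⁻¹))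

namespace FIX

theorem gal_algebraMap (N : ℕ) (σ : GQ) (c : Qbar) :
    gal N σ (algebraMap Qbar (FF N) c) = algebraMap Qbar (FF N) (σ c) :=
  ModularCurve.arithmeticRingAut_algebraMap (ModularCurve.modularFunctionFieldFull N) σ c

theorem congInertia' : Stmt_CongInertia' := by
  intro N _ A σ hσ u hu
  obtain ⟨c, y₁, y₂, θ₁, θ₂, hc, h1, h2, hu12, hr1, hr2⟩ := INT.intRep' N A u hu
  set X₁ : FF N := qExpHom N θ₁ with hX₁
  set X₂ : FF N := qExpHom N θ₂ with hX₂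
  have hz : ∀ (y : LaurentSeries A) (X : FF N), coeffMap A.subtype y = (X : LaurentSeries Qbar) →
      coeffMap A.subtype (coeffMap (J.resHom hσ) y) =
        ((gal N σ X : FF N) : LaurentSeries Qbar) := by
    intro y X h
    rw [coe_gal, ← h, coeffMap_coeffMap, coeffMap_coeffMap, J.subtype_comp_resHom]
  have hred : ∀ y : LaurentSeries A,
      coeffMap (IsLocalRing.residue A) (coeffMap (J.resHom hσ) y) =
      coeffMap (IsLocalRing.residue A) y := by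
    intro y
    rw [coeffMap_coeffMap, J.residue_comp_resHom]
  have e1 : coeffMap A.subtype (coeffMap (J.resHom hσ) y₁ * y₂) =
      ((gal N σ X₁ * X₂ : FF N) : LaurentSeries Qbar) := by
    rw [map_mul, hz y₁ X₁ h1, h2]
    rfl
  have e2 : coeffMap A.subtype (coeffMap (J.resHom hσ) y₂ * y₁) =
      ((gal N σ X₂ * X₁ : FF N) : LaurentSeries Qbar) := by
    rw [map_mul, hz y₂ X₂ h2, h1]
    rfl
  have hσc : σ c ≠ 0 := (map_ne_zero_iff _ σ.injective).2 hc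
  have hX₂0 : X₂ ≠ 0 := by
    intro h0
    apply hr2
    have : y₂ = 0 := by
      apply Fermat.Agent.S18.coeffMap_subtype_injective A
      rw [h2, map_zero, h0]; rfl
    rw [this, map_zero]
  refine ⟨c * (σ c)⁻¹, mul_ne_zero hc (inv_ne_zero hσc),
    coeffMap (J.resHom hσ) y₁ * y₂, coeffMap (J.resHom hσ) y₂ * y₁, ?_, ?_, ?_, ?_, ?_⟩
  · rw [e1]
    exact (gal N σ X₁ * X₂ : FF N).2
  · rw [e2]
    exact (gal N σ X₂ * X₁ : FF N).2
  · rw [e1, e2]
    have hcF : algebraMap Qbar (FF N) c ≠ 0 := (map_ne_zero_iff _ (algebraMap Qbar (FF N)).injective).2 hc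
    have hσcF : algebraMap Qbar (FF N) (σ c) ≠ 0 :=
      (map_ne_zero_iff _ (algebraMap Qbar (FF N)).injective).2 hσc
    have hg : gal N σ u * gal N σ X₂ = algebraMap Qbar (FF N) (σ c) * gal N σ X₁ := by
      rw [← map_mul, hu12, map_mul, gal_algebraMap]
    have hgX₂ : gal N σ X₂ ≠ 0 := GLUE.gal_ne_zero N σ hX₂0
    have key : algebraMap Qbar (FF N) (c * (σ c)⁻¹) * (gal N σ u * u⁻¹) * (gal N σ X₂ * X₁)
        = gal N σ X₁ * X₂ := by
      have hu' : u = algebraMap Qbar (FF N) c * X₁ / X₂ := by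
        rw [eq_div_iff hX₂0]; exact hu12
      have hgu' : gal N σ u = algebraMap Qbar (FF N) (σ c) * gal N σ X₁ / gal N σ X₂ := by
        rw [eq_div_iff hgX₂]; exact hg
      have hX₁0 : X₁ ≠ 0 := by
        intro h0
        rw [h0, mul_zero] at hu12
        exact (mul_ne_zero hu hX₂0) hu12
      rw [hgu', hu', map_mul, map_inv₀]
      field_simp
    exact congrArg Subtype.val key
  · rw [map_mul, map_mul, hred, hred, mul_comm]
  · rw [map_mul, hred]
    exact mul_ne_zero hr2 hr1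

/-- constants have divisor `0`. -/
theorem isDiv_const (N m : ℕ) {w : Qbar} (hw : w ≠ 0) : IsDiv N m (algebraMap Qbar (FF N) w) :=
  ⟨(map_ne_zero_iff _ (algebraMap Qbar (FF N)).injective).2 hw, fun P => by
    rw [Fermat.Agent.S24.ord_algebraMap]; exact dvd_zero _⟩

/-- constants are `m`-th powers. -/
theorem exists_const_pow (N m : ℕ) [NeZero m] (w : Qbar) :
    ∃ v : Qbar, (algebraMap Qbar (FF N) v) ^ m = algebraMap Qbar (FF N) w := by
  obtain ⟨v, hv⟩ := IsAlgClosed.exists_pow_nat_eq w (Nat.pos_of_ne_zero (NeZero.ne m))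
  exact ⟨v, by rw [← map_pow, hv]⟩

open GLUE in
/-- The glue, with the corrected package J. -/
theorem finLevel' (hMul : Stmt_KumMul) (hInv : Stmt_KumInv) (hPow : Stmt_KumPow)
    (hUn : Stmt_KumUnique) (hRed : Stmt_KumRed) (hA : Stmt_KumOfDiv) (hB : Stmt_DivOfKum)
    (hE : Stmt_KumKer) (hF : Stmt_KumSurj) (hT : Stmt_TauPE) (hH : Stmt_Hecke)
    (hJ : Stmt_CongInertia') (hK : Stmt_ClaimK) (hL : Stmt_FixedOpen) (hM : Stmt_HomFinite) :
    Stmt_FinLevel := by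
  intro N _
  have hW : ∀ {m : ℕ} [NeZero m] (σ : GQ) {χ : Additive (Gamma0 N) →+ ZMod m}, IsPE χ →
      ∀ {u : FF N}, Kum N m u χ → IsPE (act N m σ χ) ∧ Kum N m (gal N σ u) (act N m σ χ) :=
    fun σ _ hχ _ hu => W hMul hInv hPow hA hB hE σ hχ hu
  have hU : ∀ {m : ℕ} [NeZero m] (σ : GQ) {χ ψ : Additive (Gamma0 N) →+ ZMod m}, IsPE χ →
      ∀ {u : FF N}, Kum N m u χ → Kum N m (gal N σ u) ψ → act N m σ χ = ψ :=
    fun σ _ _ hχ _ hu hψ => U hMul hInv hPow hUn hA hB hE σ hχ hu hψ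
  refine ⟨fun m _ σ χ => act N m σ χ, ?_, ?_, ?_, ?_, ?_, ?_, ?_, ?_, ?_⟩
  · -- IsPE
    intro m _ σ χ hχ
    obtain ⟨u, hu⟩ := hF N m χ hχ
    exact (hW σ hχ hu).1
  · -- add
    intro m _ σ χ χ' hχ hχ'
    obtain ⟨u, hu⟩ := hF N m χ hχ
    obtain ⟨u', hu'⟩ := hF N m χ' hχ'
    refine hU σ (isPE_add hχ hχ') (hMul N m _ _ _ _ hu hu') ?_
    rw [map_mul]
    exact hMul N m _ _ _ _ (hW σ hχ hu).2 (hW σ hχ' hu').2
  · -- one
    intro m _ χ hχ
    obtain ⟨u, hu⟩ := hF N m χ hχ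
    refine hU 1 hχ hu ?_
    rwa [gal_one]
  · -- mul
    intro m _ σ τ χ hχ
    obtain ⟨u, hu⟩ := hF N m χ hχ
    refine hU (σ * τ) hχ hu ?_
    rw [gal_mul]
    obtain ⟨h1, h2⟩ := hW τ hχ hu
    exact (hW σ h1 h2).2
  · -- red
    intro m m' _ _ h σ χ hχ
    obtain ⟨u, hu⟩ := hF N m' χ hχ
    exact (hU σ (isPE_red h hχ) (hRed N m m' h u χ hu)
      (hRed N m m' h _ _ (hW σ hχ hu).2)).symm
  · -- tau
    intro m _ ℓ hℓ σ χ hχ
    obtain ⟨u, hu⟩ := hF N m χ hχ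
    obtain ⟨Nl, hN1, hN2, -⟩ := hH N ℓ hℓ
    refine hU σ (hT N ℓ _ χ hχ) (hN1 m u χ hu) ?_
    rw [← hN2]
    exact hN1 m _ _ (hW σ hχ hu).2
  · -- finite level
    intro m _
    have hfin : Finite (Additive (Gamma0 N) →+ ZMod m) := hM N m
    have hex : ∀ χ : Additive (Gamma0 N) →+ ZMod m, ∃ L : IntermediateField ℚ Qbar,
        FiniteDimensional ℚ L ∧ ∀ σ : GQ, (∀ x ∈ L, σ x = x) → IsPE χ → act N m σ χ = χ := by
      intro χ
      by_cases hχ : IsPE χ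
      · obtain ⟨u, hu⟩ := hF N m χ hχ
        obtain ⟨L, hL1, hL2⟩ := hL N u
        refine ⟨L, hL1, fun σ hσ _ => hU σ hχ hu ?_⟩
        rwa [hL2 σ hσ]
      · exact ⟨⊥, inferInstance, fun _ _ h => absurd h hχ⟩
    choose L hL1 hL2 using hex
    refine ⟨⨆ χ, L χ, ?_, ?_⟩
    · have := hL1
      exact IntermediateField.finiteDimensional_iSup_of_finite
    · intro σ hσ χ hχ
      exact hL2 χ σ (fun x hx => hσ x ((le_iSup L χ) hx)) hχ
  · -- unramified
    intro m _ q hq hqN hqm A hA' σ hσ χ hχ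
    obtain ⟨u, hu⟩ := hF N m χ hχ
    have hdu : IsDiv N m u := hB N m u χ hu hχ
    have hdy : IsDiv N m (gal N σ u * u⁻¹) := isDiv_mul (isDiv_gal hdu σ) (isDiv_inv hdu)
    obtain ⟨w, hw, hcong⟩ := hJ N A σ hσ u hdu.1
    obtain ⟨g, hg⟩ := hK N q hq hqN A hA' m hqm _ hcong (isDiv_mul (isDiv_const N m hw) hdy)
    obtain ⟨v, hv⟩ := exists_const_pow N m w
    have hwF : algebraMap Qbar (FF N) w ≠ 0 := (isDiv_const N m hw).1
    have hg' : (g * (algebraMap Qbar (FF N) v)⁻¹) ^ m = gal N σ u * u⁻¹ := by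
      rw [mul_pow, inv_pow, hv, hg, mul_comm, inv_mul_cancel_left₀ hwF]
    have h0 := kum_zero_of_pow hPow hdy.1 hg'
    have h1 := hMul N m _ _ _ _ (hW σ hχ hu).2 (hInv N m _ _ hu)
    have h2 := hUn N m _ _ _ h1 h0
    rwa [← sub_eq_add_neg, sub_eq_zero] at h2
  · -- Eichler-Shimura relation
    intro m _ ℓ hℓN hℓm A hA' σ hσ χ hχ
    obtain ⟨u, hu⟩ := hF N m χ hχ
    have hdu : IsDiv N m u := hB N m u χ hu hχ
    obtain ⟨Nl, hN1, -, hN3⟩ := hH N ℓ hℓN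
    obtain ⟨h1, h2⟩ := hW σ hχ hu
    obtain ⟨h3, h4⟩ := hW σ h1 h2
    have h5 : Kum N m (gal N σ (gal N σ u) * u ^ (ℓ : ℕ) * (Nl (gal N σ u))⁻¹)
        (act N m σ (act N m σ χ) + (ℓ : ℕ) • χ + -(tau N ℓ (ZMod m) (act N m σ χ))) :=
      hMul N m _ _ _ _ (hMul N m _ _ _ _ h4 (kum_pow hMul hPow hu _))
        (hInv N m _ _ (hN1 m _ _ h2))
    have h6 : IsPE (act N m σ (act N m σ χ) + (ℓ : ℕ) • χ +
        -(tau N ℓ (ZMod m) (act N m σ χ))) :=
      isPE_add (isPE_add h3 (isPE_nsmul hχ _)) (isPE_neg (hT N ℓ _ _ h1))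
    have hdy := hB N m _ _ h5 h6
    obtain ⟨g, hg⟩ := hK N ℓ ℓ.2 hℓN A hA' m hℓm _ (hN3 A hA' σ hσ u hdu.1) hdy
    have h0 := kum_zero_of_pow hPow hdy.1 hg
    have h7 := hUn N m _ _ _ h5 h0
    rw [← h7]
    abel

end FIX

end Fermat.Agent.ES.Mid
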