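import Mathlib
import Fermat.Agent.S24.QExpHom
import Fermat.Agent.S16.HeckeHomMain
import Fermat.Prelude.Def_EllipticCurve_FrobeniusTrace

/-!
# ES / Mid : definitions of the middle layer of the Eichler-Shimura chain (architect: helper43)

`F_N = FF N` is the function field of `X₀(N)` over `ℚ̄` inside `ℚ̄((q))` (prelude).
* `IsDiv N m u`  : `u ∈ U_m`, i.e. `u ≠ 0` and `m ∣ ord_P u` for ALL places `P` of `F_N`.
* `IsPE χ`       : `χ : Γ₀(N) → A` kills every `γ` with `tr(γ)² ≤ 4` (`± 1`, parabolic, elliptic).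
* `Kum N m u χ`  : the function on `ℍ` attached to `u` is the `m`-th power of a meromorphic
  function `h = a / b` on `ℍ` with `h(γ z) = e(χ(γ)/m) h(z)`.
* `CongOne N A u`: `u = y₁ / y₂` with `y₁, y₂ ∈ A((q)) ∩ F_N` having EQUAL NONZERO reductions.
-/

set_option autoImplicit false

namespace Fermat.Agent.ES.Mid

open UpperHalfPlane CongruenceSubgroup AlgebraicCurve
open scoped MatrixGroups Manifold
open Fermat.Agent.S24 (Qbar FF funAlg iota)
open Fermat.Agent.S24.QX (qExpHom)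
attribute [local instance] Fermat.Agent.S24.algQbarComplex

/-- The absolute Galois group of `ℚ`. -/
abbrev GQ : Type := Qbar ≃ₐ[ℚ] Qbar

/-- The Galois action on `F_N` (on the coefficients of `q`-expansions). -/
noncomputable def gal (N : ℕ) (σ : GQ) : FF N ≃+* FF N :=
  ModularCurve.arithmeticRingAut (ModularCurve.modularFunctionFieldFull N) σ

theorem coe_gal (N : ℕ) (σ : GQ) (u : FF N) :
    ((gal N σ u : FF N) : LaurentSeries Qbar)
      = ModularCurve.coeffMap (σ : Qbar →+* Qbar) (u : LaurentSeries Qbar) := rfl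

/-- `u ∈ U_m`: the divisor of `u` is divisible by `m`. -/
def IsDiv (N m : ℕ) (u : FF N) : Prop :=
  u ≠ 0 ∧ ∀ P : Place Qbar (FF N), (m : ℤ) ∣ P.ord u

/-- `χ` kills `± 1`, the parabolic and the elliptic elements. -/
def IsPE {N : ℕ} {A : Type*} [AddCommGroup A] (χ : Additive (Gamma0 N) →+ A) : Prop :=
  ∀ γ : Gamma0 N, ((γ : SL(2, ℤ)) : Matrix (Fin 2) (Fin 2) ℤ).trace ^ 2 ≤ 4 →
    χ (Additive.ofMul γ) = 0

/-- The Kummer relation between `u ∈ F_N` and a character `χ : Γ₀(N) → ℤ/m`. -/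
def Kum (N m : ℕ) [NeZero N] [NeZero m] (u : FF N) (χ : Additive (Gamma0 N) →+ ZMod m) : Prop :=
  ∃ (a b : ℍ → ℂ) (θ₁ θ₂ : funAlg N), MDiff a ∧ MDiff b ∧ a ≠ 0 ∧ b ≠ 0 ∧ θ₂ ≠ 0 ∧
    u * qExpHom N θ₂ = qExpHom N θ₁ ∧
    (∀ z : ℍ, a z ^ m * (θ₂ : ℍ → ℂ) z = b z ^ m * (θ₁ : ℍ → ℂ) z) ∧
    ∀ (γ : Gamma0 N) (z : ℍ), a ((γ : SL(2, ℤ)) • z) * b z =
      ZMod.stdAddChar (χ (Additive.ofMul γ)) * (a z * b ((γ : SL(2, ℤ)) • z))

/-- `u ≡ 1` modulo the maximal ideal of `A` (ratio form). -/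
def CongOne (N : ℕ) (A : ValuationSubring Qbar) (u : FF N) : Prop :=
  ∃ y₁ y₂ : LaurentSeries A,
    ModularCurve.coeffMap A.subtype y₁ ∈ ModularCurve.modularFunctionFieldBar N ∧
    ModularCurve.coeffMap A.subtype y₂ ∈ ModularCurve.modularFunctionFieldBar N ∧
    (u : LaurentSeries Qbar) * ModularCurve.coeffMap A.subtype y₂
      = ModularCurve.coeffMap A.subtype y₁ ∧
    ModularCurve.coeffMap (IsLocalRing.residue A) y₁
      = ModularCurve.coeffMap (IsLocalRing.residue A) y₂ ∧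
    ModularCurve.coeffMap (IsLocalRing.residue A) y₂ ≠ 0

/-- The Hecke operator `T_ℓ` on `Hom(Γ₀(N), A)` (helper22's `tau`). -/
noncomputable abbrev tau (N : ℕ) (ℓ : Nat.Primes) (A : Type*) [AddCommGroup A] :
    (Additive (Gamma0 N) →+ A) →+ (Additive (Gamma0 N) →+ A) :=
  Fermat.Agent.S16.HH.tau N ℓ A

/-- Reduction of characters `ℤ/m' → ℤ/m`, `m ∣ m'`. -/
noncomputable def redChar {N m m' : ℕ} (h : m ∣ m') (χ : Additive (Gamma0 N) →+ ZMod m') :
    Additive (Gamma0 N) →+ ZMod m :=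
  (ZMod.castHom h (ZMod m)).toAddMonoidHom.comp χ

end Fermat.Agent.ES.Mid
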