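import Fermat.Agent.ES.Mid.Interface2

/-!
# ES / Mid / H : definitions and statements for the multiplicative Hecke operator
`N_ℓ x = x(q^ℓ) ∏_{j mod ℓ} x(ζ^j q^{1/ℓ})`  (architect: helper43)
-/

set_option autoImplicit false

namespace Fermat.Agent.ES.Mid

open UpperHalfPlane CongruenceSubgroup AlgebraicCurve
open scoped MatrixGroups Manifold
open Fermat.Agent.S24 (Qbar FF funAlg iota)
open Fermat.Agent.S24.QX (qExpHom cmI)
attribute [local instance] Fermat.Agent.S24.algQbarComplex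

section Formal

variable {R : Type*} [CommRing R]

/-- `x(q) ↦ x(ζ q)`. -/
noncomputable def tw (ζ : Rˣ) (x : LaurentSeries R) : LaurentSeries R :=
  HahnSeries.ofSuppBddBelow (fun n : ℤ => ((ζ ^ n : Rˣ) : R) * x.coeff n) (by
    refine ⟨x.order, fun n hn => HahnSeries.order_le_of_coeff_ne_zero ?_⟩
    intro h0
    apply hn
    show ((ζ ^ n : Rˣ) : R) * x.coeff n = 0
    rw [h0, mul_zero])

@[simp] theorem tw_coeff (ζ : Rˣ) (x : LaurentSeries R) (n : ℤ) :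
    (tw ζ x).coeff n = ((ζ ^ n : Rˣ) : R) * x.coeff n := rfl

/-- `∑ a_n q^n ↦ ∑ a_{ℓ n} q^n`. -/
noncomputable def compress (ℓ : ℕ) [NeZero ℓ] (x : LaurentSeries R) : LaurentSeries R :=
  HahnSeries.ofSuppBddBelow (fun n : ℤ => x.coeff ((ℓ : ℤ) * n)) (by
    refine ⟨min x.order 0, fun n hn => ?_⟩
    have h1 : x.order ≤ (ℓ : ℤ) * n := HahnSeries.order_le_of_coeff_ne_zero hn
    by_contra hlt
    push Not at hlt
    have hn0 : n < 0 := lt_of_lt_of_le hlt (min_le_right _ _)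
    have hnb : n < x.order := lt_of_lt_of_le hlt (min_le_left _ _)
    have hℓ : (1 : ℤ) ≤ (ℓ : ℤ) := by exact_mod_cast Nat.pos_of_ne_zero (NeZero.ne ℓ)
    nlinarith)

@[simp] theorem compress_coeff (ℓ : ℕ) [NeZero ℓ] (x : LaurentSeries R) (n : ℤ) :
    (compress ℓ x).coeff n = x.coeff ((ℓ : ℤ) * n) := rfl

/-- `∏_{j < ℓ} x(ζ^j q)`. -/
noncomputable def twProd (ℓ : ℕ) (ζ : Rˣ) (x : LaurentSeries R) : LaurentSeries R :=
  ∏ j ∈ Finset.range ℓ, tw (ζ ^ j) x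

/-- The formal multiplicative Hecke operator. -/
noncomputable def formalN (ℓ : ℕ) [NeZero ℓ] (ζ : Rˣ) (x : LaurentSeries R) : LaurentSeries R :=
  ModularCurve.qExpand R ℓ x * compress ℓ (twProd ℓ ζ x)

end Formal

/-- The multiplicative Hecke operator on functions on `ℍ`:
`(𝒩 f)(z) = ∏_{x ∈ ℙ¹(𝔽_ℓ)} f(α_x z)`, with helper22's coset data `dataT`. -/
noncomputable def funN (N : ℕ) {ℓ : ℕ} (hℓ : ℓ.Prime) (hℓN : ¬ ℓ ∣ N) (f : ℍ → ℂ) : ℍ → ℂ :=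
  haveI : Fact ℓ.Prime := ⟨hℓ⟩
  fun z => ∏ x : OnePoint (ZMod ℓ), f ((Fermat.Agent.S16.HH.dataT N hℓ hℓN).α x • z)

/-! ### formal statements (packages HF*) -/

/-- (HF1a) `∏_j x(ζ^j q)` is a series in `q^ℓ`. -/
def Stmt_HF_expand : Prop :=
  ∀ (R : Type) [CommRing R] [IsDomain R] (ℓ : ℕ) [NeZero ℓ] (ζ : Rˣ), IsPrimitiveRoot ζ ℓ →
    ∀ x : LaurentSeries R,
      ModularCurve.qExpand R ℓ (compress ℓ (twProd ℓ ζ x)) = twProd ℓ ζ x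

/-- (HF1b) `formalN` is multiplicative. -/
def Stmt_HF_mul : Prop :=
  ∀ (R : Type) [CommRing R] [IsDomain R] (ℓ : ℕ) [NeZero ℓ] (ζ : Rˣ), IsPrimitiveRoot ζ ℓ →
    formalN ℓ ζ (1 : LaurentSeries R) = 1 ∧
    ∀ x y : LaurentSeries R, formalN ℓ ζ (x * y) = formalN ℓ ζ x * formalN ℓ ζ y

/-- (HF1c) naturality in the coefficient ring. -/
def Stmt_HF_map : Prop :=
  ∀ (R S : Type) [CommRing R] [CommRing S] (φ : R →+* S) (ℓ : ℕ) [NeZero ℓ] (ζ : Rˣ)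
    (x : LaurentSeries R),
    ModularCurve.coeffMap φ (formalN ℓ ζ x)
      = formalN ℓ (Units.map (φ : R →* S) ζ) (ModularCurve.coeffMap φ x)

/-- (HF1d) independence of the primitive root of unity. -/
def Stmt_HF_indep : Prop :=
  ∀ (R : Type) [CommRing R] [IsDomain R] (ℓ : ℕ) [NeZero ℓ] (ζ ζ' : Rˣ), IsPrimitiveRoot ζ ℓ →
    IsPrimitiveRoot ζ' ℓ → ∀ x : LaurentSeries R, formalN ℓ ζ x = formalN ℓ ζ' x

/-- (HF2) characteristic `ℓ`. -/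
def Stmt_HF_char : Prop :=
  ∀ (k : Type) [Field k] (ℓ : ℕ) [Fact ℓ.Prime] [CharP k ℓ] (x : LaurentSeries k),
    haveI : NeZero ℓ := ⟨(Fact.out : ℓ.Prime).ne_zero⟩
    x ^ ℓ = ModularCurve.qExpand k ℓ (ModularCurve.coeffMap (frobenius k ℓ) x) ∧
    formalN ℓ 1 x = ModularCurve.qExpand k ℓ x * ModularCurve.coeffMap (frobenius k ℓ) x

/-- (HF3) the congruence `N_ℓ(σ y) ≡ σ²(y) y^ℓ`. -/
def Stmt_HF_cong : Prop :=
  ∀ (ℓ : ℕ) [NeZero ℓ], ℓ.Prime → ∀ A : ValuationSubring Qbar, A.LiesOverPrime ℓ →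
    ∀ σ : GQ, A.IsFrobeniusAt σ ℓ → ∀ ζ : Qbarˣ, IsPrimitiveRoot ζ ℓ →
    ∀ y : LaurentSeries A, ∃ y₁ y₂ w : LaurentSeries A,
      ModularCurve.coeffMap A.subtype y₁
        = ModularCurve.coeffMap (σ : Qbar →+* Qbar) (ModularCurve.coeffMap A.subtype y) ∧
      ModularCurve.coeffMap A.subtype y₂
        = ModularCurve.coeffMap (σ : Qbar →+* Qbar) (ModularCurve.coeffMap A.subtype y₁) ∧
      ModularCurve.coeffMap A.subtype w = formalN ℓ ζ (ModularCurve.coeffMap A.subtype y₁) ∧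
      ModularCurve.coeffMap (IsLocalRing.residue A) w
        = ModularCurve.coeffMap (IsLocalRing.residue A) y₂
          * ModularCurve.coeffMap (IsLocalRing.residue A) y ^ ℓ ∧
      (ModularCurve.coeffMap (IsLocalRing.residue A) y ≠ 0 →
        ModularCurve.coeffMap (IsLocalRing.residue A) y₂ ≠ 0)

/-! ### analytic statements (packages HA*) -/

/-- (HA1) `𝒩` multiplies characters by `tau`. -/
def Stmt_HA_char : Prop :=
  ∀ (N : ℕ) [NeZero N] {ℓ : ℕ} (hℓ : ℓ.Prime) (hℓN : ¬ ℓ ∣ N) (m : ℕ) [NeZero m]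
    (a b : ℍ → ℂ) (χ : Additive (Gamma0 N) →+ ZMod m),
    (∀ (γ : Gamma0 N) (z : ℍ), a ((γ : SL(2, ℤ)) • z) * b z =
      ZMod.stdAddChar (χ (Additive.ofMul γ)) * (a z * b ((γ : SL(2, ℤ)) • z))) →
    ∀ (γ : Gamma0 N) (z : ℍ),
      funN N hℓ hℓN a ((γ : SL(2, ℤ)) • z) * funN N hℓ hℓN b z =
        ZMod.stdAddChar (tau N ⟨ℓ, hℓ⟩ (ZMod m) χ (Additive.ofMul γ)) *
          (funN N hℓ hℓN a z * funN N hℓ hℓN b ((γ : SL(2, ℤ)) • z))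

/-- (HA1') `𝒩` preserves holomorphy and nonvanishing. -/
def Stmt_HA_mdiff : Prop :=
  ∀ (N : ℕ) [NeZero N] {ℓ : ℕ} (hℓ : ℓ.Prime) (hℓN : ¬ ℓ ∣ N) (a : ℍ → ℂ), MDiff a →
    MDiff (funN N hℓ hℓN a) ∧ (a ≠ 0 → funN N hℓ hℓN a ≠ 0)

/-- (HA2) the `q`-expansion of `𝒩 f` is `formalN` of the `q`-expansion of `f`. -/
def Stmt_HA_rep : Prop :=
  ∀ (N : ℕ) [NeZero N] {ℓ : ℕ} [NeZero ℓ] (hℓ : ℓ.Prime) (hℓN : ¬ ℓ ∣ N) (ζ : Qbarˣ),
    IsPrimitiveRoot ζ ℓ → ∀ (f : ℍ → ℂ) (x : LaurentSeries Qbar), MDiff f →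
      Fermat.Agent.S24.QX.Rep (cmI x) f →
      Fermat.Agent.S24.QX.Rep (cmI (formalN ℓ ζ x)) (funN N hℓ hℓN f)

/-- (HA3) `𝒩` preserves moderate growth. -/
def Stmt_HA_growth : Prop :=
  ∀ (N : ℕ) [NeZero N] {ℓ : ℕ} (hℓ : ℓ.Prime) (hℓN : ¬ ℓ ∣ N) (f : ℍ → ℂ), MDiff f →
    Growth f → Growth (funN N hℓ hℓN f)

end Fermat.Agent.ES.Mid
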