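import Fermat.Agent.ES.Mid.Interface
import Fermat.Agent.S24.ExistsIndex

/-!
# ES / Mid : second interface file (shared lemmas of the packages A, B, E, F, H, J)
-/

set_option autoImplicit false

namespace Fermat.Agent.ES.Mid

open UpperHalfPlane CongruenceSubgroup AlgebraicCurve
open scoped MatrixGroups Manifold
open Fermat.Agent.S24 (Qbar FF funAlg iota)
open Fermat.Agent.S24.QX (qExpHom cmI)
attribute [local instance] Fermat.Agent.S24.algQbarComplex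

/-- (VAL) a nontrivial `ℤ`-valued valuation trivial on `K` is a positive multiple of a place. -/
def Stmt_ValMult : Prop :=
  ∀ (K F : Type) [Field K] [Field F] [Algebra K F] (V : F → ℤ), Fermat.Agent.S24.IsVal K V →
    (∃ f : F, f ≠ 0 ∧ V f ≠ 0) →
    ∃ (P : Place K F) (e : ℕ), 0 < e ∧ ∀ f : F, f ≠ 0 → V f = e * P.ord f

/-- (ROOT, ball version). -/
def Stmt_RootBall : Prop :=
  ∀ (c : ℂ) (r : ℝ) (f : ℂ → ℂ) (m : ℕ), 0 < m → AnalyticOnNhd ℂ f (Metric.ball c r) →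
    (∃ z ∈ Metric.ball c r, f z ≠ 0) →
    (∀ z ∈ Metric.ball c r, ∃ k : ℕ, analyticOrderAt f z = ((m * k : ℕ) : ℕ∞)) →
    ∃ g : ℂ → ℂ, AnalyticOnNhd ℂ g (Metric.ball c r) ∧ ∀ z ∈ Metric.ball c r, g z ^ m = f z

/-- (ROOT, upper half plane version). -/
def Stmt_RootUHP : Prop :=
  ∀ (θ : ℍ → ℂ) (m : ℕ), 0 < m → MDiff θ → θ ≠ 0 →
    (∀ z : ℍ, ∃ k : ℕ, analyticOrderAt (θ ∘ ofComplex) (z : ℂ) = ((m * k : ℕ) : ℕ∞)) →
    ∃ h : ℍ → ℂ, MDiff h ∧ ∀ z, h z ^ m = θ z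

/-- moderate growth at all cusps (the shape of `S24.funAlg_growth`). -/
def Growth (f : ℍ → ℂ) : Prop :=
  ∀ g : SL(2, ℤ), ∃ k : ℕ,
    IsBoundedAtImInfty (fun τ => f (g • τ) * ModularForm.discriminant τ ^ k)

/-- (INV) a holomorphic `Γ₀(N)`-invariant function of moderate growth whose `q`-expansion has
coefficients in `ℚ̄` lies in `F_N`. -/
def Stmt_InvRat : Prop :=
  ∀ (N : ℕ) [NeZero N] (f : ℍ → ℂ) (x : LaurentSeries Qbar), MDiff f →
    (∀ γ ∈ Gamma0 N, ∀ z : ℍ, f (γ • z) = f z) → Growth f →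
    Fermat.Agent.S24.QX.Rep (cmI x) f →
    ∃ θ₁ θ₂ : funAlg N, θ₂ ≠ 0 ∧ (∀ z, f z * (θ₂ : ℍ → ℂ) z = (θ₁ : ℍ → ℂ) z) ∧
      x * (qExpHom N θ₂ : LaurentSeries Qbar) = (qExpHom N θ₁ : LaurentSeries Qbar)

/-- (RS) an `m`-th root in `ℂ((q))` of a series with coefficients in `ℚ̄` has coefficients in
`ℚ̄`. -/
def Stmt_RootSeries : Prop :=
  ∀ (m : ℕ) (y : LaurentSeries ℂ) (x : LaurentSeries Qbar), 0 < m → y ^ m = cmI x →
    ∃ x₀ : LaurentSeries Qbar, y = cmI x₀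

/-- (INT) every nonzero element of `F_N` is a quotient of two `A`-integral series of `F_N` with
nonzero reductions; moreover numerator and denominator can be taken in `ℚ̄[j_d : d ∣ N]`. -/
def Stmt_IntRep : Prop :=
  ∀ (N : ℕ) [NeZero N] (q : ℕ) (A : ValuationSubring Qbar), q.Prime → A.LiesOverPrime q →
    ∀ u : FF N, u ≠ 0 → ∃ (y₁ y₂ : LaurentSeries A) (θ₁ θ₂ : funAlg N),
      ModularCurve.coeffMap A.subtype y₁ = (qExpHom N θ₁ : LaurentSeries Qbar) ∧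
      ModularCurve.coeffMap A.subtype y₂ = (qExpHom N θ₂ : LaurentSeries Qbar) ∧
      u * qExpHom N θ₂ = qExpHom N θ₁ ∧
      ModularCurve.coeffMap (IsLocalRing.residue A) y₁ ≠ 0 ∧
      ModularCurve.coeffMap (IsLocalRing.residue A) y₂ ≠ 0

end Fermat.Agent.ES.Mid
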