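import Fermat.Agent.ES.Mid.Interface2
import Fermat.Agent.S24.UnifFinite
import Fermat.Agent.S24.UnifInfty
import Fermat.Agent.S24.CountZeros
import Fermat.Agent.S24.DegreeBound
import Fermat.Agent.S24.RiemannHurwitz

/-!
# ES / Mid / B : interface of package MID-B (`Stmt_DivOfKum`), sub-lead helper63

`Kum N m u χ`, `IsPE χ`  ⟹  `m ∣ ord_P u` for every place `P` of `F_N`.

* `Stmt_Count`    : (abstract) equality case of the counting in `S24.ncard_zeroPlaces_core`: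
                    a zero `v` of `x` comes from an index `i` with `w ∘ φ i = e * ord_v`,
                    `π ^ h` fixes `i`, `s = e * h`.
* `Stmt_UnifFin`  : `S24.localUnif_finite` with the CONCRETE embeddings `epsHom N τ₀ g`.
* `Stmt_UnifCusp` : `S24.localUnif_infty` with the CONCRETE embeddings `eps N g⁻¹`.
* `Stmt_FinOrd`   : analytic input at a point of `ℍ`.
* `Stmt_CuspOrd`  : analytic input at a cusp.
-/

set_option autoImplicit false

namespace Fermat.Agent.ES.Mid.B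

open UpperHalfPlane CongruenceSubgroup AlgebraicCurve ModularGroup IntermediateField
open scoped MatrixGroups Manifold
open Fermat.Agent.S24 (Qbar FF funAlg iota jF Cosets LocalUnif IsDiffVal zeroPlaces MerGerm)
open Fermat.Agent.S24.QX (qExpHom)
attribute [local instance] Fermat.Agent.S24.algQbarComplex

/-- The analytic data of a Kummer relation whose character kills `± 1`, parabolic and elliptic
elements. -/
structure KumData (N m : ℕ) [NeZero N] [NeZero m] (χ : Additive (Gamma0 N) →+ ZMod m)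
    (a b : ℍ → ℂ) (θ₁ θ₂ : funAlg N) : Prop where
  ha : MDiff a
  hb : MDiff b
  a0 : a ≠ 0
  b0 : b ≠ 0
  θ0 : θ₂ ≠ 0
  pow : ∀ z : ℍ, a z ^ m * (θ₂ : ℍ → ℂ) z = b z ^ m * (θ₁ : ℍ → ℂ) z
  char : ∀ (γ : Gamma0 N) (z : ℍ), a ((γ : SL(2, ℤ)) • z) * b z =
      ZMod.stdAddChar (χ (Additive.ofMul γ)) * (a z * b ((γ : SL(2, ℤ)) • z))
  pe : IsPE χ

/-- (B-COUNT) equality case of the counting argument of `S24.ncard_zeroPlaces_core`. -/
def Stmt_Count : Prop :=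
  ∀ (K F M : Type) [Field K] [IsAlgClosed K] [CharZero K] [Field F] [Algebra K F]
    [Field M] [Algebra K M] (w : M → ℤ) (δ : Derivation K M M), IsDiffVal w δ →
    ∀ (x : F) [FiniteDimensional K⟮x⟯ F] (I : Type) [Fintype I],
      Module.finrank K⟮x⟯ F ≤ Fintype.card I →
      ∀ (π : Equiv.Perm I) (U : LocalUnif K w x I π) (v : Place K F),
        v ∈ zeroPlaces (K := K) x →
        ∃ (i : I) (e h : ℕ), 0 < e ∧ 0 < h ∧ (π ^ h) i = i ∧ U.s = e * h ∧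
          ∀ f : F, f ≠ 0 → w (U.φ i f) = e * v.ord f

/-- (B-UFIN) local uniformisation at the finite values of `j`, with concrete embeddings. -/
def Stmt_UnifFin : Prop :=
  ∀ (N : ℕ) [NeZero N] (c : Qbar), ∃ (τ₀ : ℍ) (g₀ : SL(2, ℤ))
    (U : LocalUnif Qbar MerGerm.ord (jF N - algebraMap Qbar (FF N) c) (Cosets N)
      (MulAction.toPerm g₀)),
    g₀ • τ₀ = τ₀ ∧ IsPrimitiveRoot (1 / denom g₀ τ₀ ^ 2) U.s ∧
    ∀ (g : SL(2, ℤ)) (θ : funAlg N),
      U.φ (g : Cosets N) (qExpHom N θ) = Fermat.Agent.S24.B7a.epsHom N τ₀ g θ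

/-- (B-UCUSP) local uniformisation at the cusps, with concrete embeddings. -/
def Stmt_UnifCusp : Prop :=
  ∀ (N : ℕ) [NeZero N], ∃ U : LocalUnif Qbar MerGerm.ord (jF N)⁻¹ (Cosets N)
      (MulAction.toPerm (T : SL(2, ℤ))),
    U.s = N ∧ ∀ (g : SL(2, ℤ)) (θ : funAlg N),
      U.φ (g : Cosets N) (qExpHom N θ) = Fermat.Agent.S24.UnifInfty.eps N g⁻¹ θ

/-- (B-FIN) analytic input at a point `τ₀` of `ℍ` with stabiliser generated by `g₀`. -/
def Stmt_FinOrd : Prop :=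
  ∀ (N m : ℕ) [NeZero N] [NeZero m] (χ : Additive (Gamma0 N) →+ ZMod m)
    (a b : ℍ → ℂ) (θ₁ θ₂ : funAlg N), KumData N m χ a b θ₁ θ₂ →
    ∀ (τ₀ : ℍ) (g₀ g : SL(2, ℤ)) (s h : ℕ), g₀ • τ₀ = τ₀ →
      IsPrimitiveRoot (1 / denom g₀ τ₀ ^ 2) s → g⁻¹ * g₀ ^ h * g ∈ Gamma0 N →
      ∃ k : ℤ, (Fermat.Agent.S24.B7a.epsHom N τ₀ g θ₁).ord
          - (Fermat.Agent.S24.B7a.epsHom N τ₀ g θ₂).ord = m * k ∧ (s : ℤ) ∣ h * k

/-- (B-CUSP) analytic input at the cusp `g⁻¹ ∞`. -/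
def Stmt_CuspOrd : Prop :=
  ∀ (N m : ℕ) [NeZero N] [NeZero m] (χ : Additive (Gamma0 N) →+ ZMod m)
    (a b : ℍ → ℂ) (θ₁ θ₂ : funAlg N), KumData N m χ a b θ₁ θ₂ →
    ∀ (g : SL(2, ℤ)) (h : ℕ), g⁻¹ * T ^ h * g ∈ Gamma0 N →
      ∃ k : ℤ, (Fermat.Agent.S24.UnifInfty.eps N g⁻¹ θ₁).ord
          - (Fermat.Agent.S24.UnifInfty.eps N g⁻¹ θ₂).ord = m * k ∧ (N : ℤ) ∣ h * k

end Fermat.Agent.ES.Mid.B
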