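/-
ES / Mid / B-COUNT: equality case of the counting argument of `S24.ncard_zeroPlaces_core`.
-/
import Fermat.Agent.ES.Mid.BInterface

set_option autoImplicit false

namespace Fermat.Agent.ES.Mid.B

open AlgebraicCurve IntermediateField
open Fermat.Agent.S24 (LocalUnif IsDiffVal zeroPlaces)

namespace Count

theorem exists_ord_eq_one {K F : Type*} [Field K] [Field F] [Algebra K F] (v : Place K F) :
    ∃ t : F, t ≠ 0 ∧ v.ord t = 1 := by
  obtain ⟨π, hπ⟩ := IsDiscreteValuationRing.exists_irreducible v.toValuationSubring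
  refine ⟨(π : F), ?_, v.ord_coe_irreducible hπ⟩
  simpa [ne_eq, ZeroMemClass.coe_eq_zero] using hπ.ne_zero

/-- Abstract equality case: `e ≤ h ≤ size ∘ g`, `g` injective, `∑ size ≤ ∑ e` forces `e = h`. -/
theorem eq_of_sum_le {Z Q : Type*} [Fintype Q] (s : Finset Z) (g : Z → Q)
    (hg : Set.InjOn g s) (e h : Z → ℕ) (size : Q → ℕ)
    (he : ∀ v ∈ s, e v ≤ h v) (hh : ∀ v ∈ s, h v ≤ size (g v))
    (hsum : ∑ q, size q ≤ ∑ v ∈ s, e v) : ∀ v ∈ s, e v = h v := by
  classical
  have h1 : ∑ v ∈ s, e v ≤ ∑ v ∈ s, h v := Finset.sum_le_sum he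
  have h2 : ∑ v ∈ s, h v ≤ ∑ v ∈ s, size (g v) := Finset.sum_le_sum hh
  have h3 : ∑ v ∈ s, size (g v) = ∑ q ∈ s.image g, size q := (Finset.sum_image hg).symm
  have h4 : ∑ q ∈ s.image g, size q ≤ ∑ q, size q :=
    Finset.sum_le_sum_of_subset (Finset.subset_univ _)
  exact (Finset.sum_eq_sum_iff_of_le he).1 (by omega)

end Count

theorem count : Stmt_Count := by
  classical
  intro K F M _ _ _ _ _ _ _ w δ hw x _ I _ hn π U v₀ hv₀
  have hx0 : x ≠ 0 := by
    rintro rfl
    have h0 : 0 < v₀.ord (0 : F) := hv₀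
    simp at h0
  have hI : Nonempty I := by
    have h0 : 0 < Module.finrank K⟮x⟯ F := Module.finrank_pos
    exact Fintype.card_pos_iff.1 (h0.trans_le hn)
  have hx : Transcendental K x := U.transcendental hw hx0
  have hfin := Fermat.Agent.S24.zeroPlaces_finite (K := K) x hx
  have hsum := Fermat.Agent.S24.sum_ord_zeroPlaces (K := K) x hx
  have hcard := Fermat.Agent.S24.finrank_eq_card w δ hw x I hn π U
  have hex : ∀ v : Place K F, v ∈ zeroPlaces (K := K) x →
      ∃ i : I, ∃ m : ℕ, 0 < m ∧ ∀ f : F, f ≠ 0 → w (U.φ i f) = m * v.ord f :=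
    fun v hv => Fermat.Agent.S24.exists_index_of_mem_zeroPlaces w δ hw x I hn π U v hv
  choose! iv mv hm hwv using hex
  let Q := Quotient (Equiv.Perm.SameCycle.setoid π)
  let _ : Fintype Q := Fintype.ofFinite Q
  let mk : I → Q := Quotient.mk (Equiv.Perm.SameCycle.setoid π)
  let size : Q → ℕ := fun q => (Finset.univ.filter (fun i => mk i = q)).card
  have hsizesum : ∑ q, size q = Fintype.card I := by
    rw [← Finset.card_univ]
    exact (Finset.card_eq_sum_card_fiberwise (fun i _ => Finset.mem_univ (mk i))).symm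
  have hmem : ∀ v, v ∈ hfin.toFinset ↔ v ∈ zeroPlaces (K := K) x := fun v => hfin.mem_toFinset
  have hinj : Set.InjOn (fun v => mk (iv v)) (hfin.toFinset : Set (Place K F)) := by
    intro v hv v' hv' h
    have hv1 : v ∈ zeroPlaces (K := K) x := (hmem v).1 hv
    have hv2 : v' ∈ zeroPlaces (K := K) x := (hmem v').1 hv'
    have hsc : π.SameCycle (iv v) (iv v') := Quotient.exact h
    apply Fermat.Agent.S24.place_eq_of_ord_proportional v v' (mv v) (mv v') (hm v hv1) (hm v' hv2)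
    intro f hf
    rw [← hwv v hv1 f hf, ← hwv v' hv2 f hf, U.w_sameCycle hsc]
  have hs : ∀ v, v ∈ zeroPlaces (K := K) x → (U.s : ℤ) = mv v * v.ord x := by
    intro v hv1
    rw [← U.w_x (iv v), hwv v hv1 x hx0]
  have hkey : ∀ v, v ∈ zeroPlaces (K := K) x → ∃ h : ℕ, 0 < h ∧ h ≤ size (mk (iv v)) ∧
      (π ^ h) (iv v) = iv v ∧ (v.ord x).toNat ≤ h := by
    intro v hv1
    have hpos : 0 < v.ord x := hv1
    obtain ⟨h, h0, hle, hfix⟩ := Fermat.Agent.S24.exists_pow_fix_le π (iv v)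
      (Finset.univ.filter (fun i => mk i = mk (iv v))) (by
        intro k
        simp only [Finset.mem_filter, Finset.mem_univ, true_and]
        apply Quotient.sound
        exact (Equiv.Perm.sameCycle_pow_left).2 (Equiv.Perm.SameCycle.refl _ _))
    refine ⟨h, h0, hle, hfix, ?_⟩
    obtain ⟨t, ht0, ht⟩ := Count.exists_ord_eq_one v
    have hd := U.dvd (iv v) h hfix t ht0
    rw [hwv v hv1 t ht0, ht, mul_one, hs v hv1, mul_comm (h : ℤ)] at hd
    have hmZ : (mv v : ℤ) ≠ 0 := by exact_mod_cast (hm v hv1).ne'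
    have hd2 : v.ord x ∣ (h : ℤ) := (mul_dvd_mul_iff_left hmZ).1 hd
    have hle2 : v.ord x ≤ h := Int.le_of_dvd (by exact_mod_cast h0) hd2
    omega
  choose! hh hh0 hhle hhfix hhord using hkey
  have hsum' : ∑ q, size q ≤ ∑ v ∈ hfin.toFinset, (v.ord x).toNat := by
    rw [hsizesum, ← hcard]
    have h1 : (∑ v ∈ hfin.toFinset, v.ord x) =
        ((∑ v ∈ hfin.toFinset, (v.ord x).toNat : ℕ) : ℤ) := by
      rw [Nat.cast_sum]
      apply Finset.sum_congr rfl
      intro v hv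
      have hpos : 0 < v.ord x := (hmem v).1 hv
      rw [Int.toNat_of_nonneg hpos.le]
    rw [h1] at hsum
    exact le_of_eq (by exact_mod_cast hsum.symm)
  have heq := Count.eq_of_sum_le hfin.toFinset (fun v => mk (iv v)) hinj
    (fun v => (v.ord x).toNat) hh size (fun v hv => hhord v ((hmem v).1 hv))
    (fun v hv => hhle v ((hmem v).1 hv)) hsum' v₀ ((hmem v₀).2 hv₀)
  refine ⟨iv v₀, mv v₀, hh v₀, hm v₀ hv₀, hh0 v₀ hv₀, hhfix v₀ hv₀, ?_, hwv v₀ hv₀⟩
  have hpos : 0 < v₀.ord x := hv₀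
  have h1 := hs v₀ hv₀
  have h2 : ((hh v₀ : ℕ) : ℤ) = v₀.ord x := by
    rw [← heq]
    exact Int.toNat_of_nonneg hpos.le
  rw [← h2] at h1
  exact_mod_cast h1

end Fermat.Agent.ES.Mid.B
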