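/-
TEAM ES, package MID-B, task MID-B-CUSP (helper75): analytic input at a cusp (`Stmt_CuspOrd`).

`R_i = cuspFn N θ_i γ = u ^ n_i * r_i(u)`; `s ^ m = r₁ / r₂` on a small ball;
`E(z) = e(n₀ z / (N m)) s(q_N z)`, `n₀ = n₁ - n₂`, satisfies `E ^ m θ₂(γ z) = θ₁(γ z)` for `Im z > C`,
where `θ₂(γ z)` has no zero.  So `a(γ z) = ζ b(γ z) E(z)`; for every `w` with
`γ T ^ w γ⁻¹ ∈ Γ₀(N)` the character relation gives `E(z + w) = E(z)`, and `Im z → ∞` gives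
`e(n₀ w / (N m)) = 1`, i.e. `N m ∣ n₀ w` (`CuspOrd.period_dvd`).  Apply this to `w = N` and `w = h`.
-/
import Fermat.Agent.ES.Mid.BInterface
import Fermat.Agent.ES.Root

set_option autoImplicit false
set_option linter.unusedSectionVars false

namespace Fermat.Agent.ES.Mid.B

open UpperHalfPlane CongruenceSubgroup AlgebraicCurve ModularGroup IntermediateField
open scoped MatrixGroups Manifold Topology
open Filter Function
open Fermat.Agent.S24 (Qbar FF funAlg iota jF Cosets LocalUnif IsDiffVal zeroPlaces MerGerm)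
open Fermat.Agent.S24.QX (qExpHom)
open Fermat.Agent.S24.UnifInfty (cuspFn eps)
attribute [local instance] Fermat.Agent.S24.algQbarComplex
local notation "𝕢" => Periodic.qParam

namespace CuspOrd

/-- the half plane `C < Im z` -/
def HP (C : ℝ) : Set ℂ := {z : ℂ | C < z.im}

theorem isOpen_HP (C : ℝ) : IsOpen (HP C) := isOpen_lt continuous_const Complex.continuous_im

theorem isPreconnected_HP (C : ℝ) : IsPreconnected (HP C) :=
  (convex_halfSpace_im_gt C).isPreconnected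

theorem add_int_mem_HP {C : ℝ} {z : ℂ} (hz : z ∈ HP C) (w : ℤ) : z + w ∈ HP C := by
  have hz' : C < z.im := hz
  show C < (z + w).im
  simpa using hz'

/-- the function `z ↦ f (γ • z)` on `ℂ` -/
noncomputable def pull (f : ℍ → ℂ) (γ : SL(2, ℤ)) : ℂ → ℂ := fun z => f (γ • ofComplex z)

theorem pull_analytic {f : ℍ → ℂ} (hf : MDiff f) (γ : SL(2, ℤ)) {C : ℝ} (hC : 0 ≤ C) :
    AnalyticOnNhd ℂ (pull f γ) (HP C) := by
  have h1 := UpperHalfPlane.mdifferentiable_iff.1 (Fermat.Agent.S24.UnifInfty.mdiff_comp_smul hf γ)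
  have h2 : AnalyticOnNhd ℂ (pull f γ) {z : ℂ | 0 < z.im} :=
    h1.analyticOnNhd isOpen_upperHalfPlaneSet
  exact h2.mono fun z hz => lt_of_le_of_lt hC hz

theorem pull_ne_zero {f : ℍ → ℂ} (hf : MDiff f) (hf0 : f ≠ 0) (γ : SL(2, ℤ)) (C : ℝ) :
    ¬ ∀ z ∈ HP C, pull f γ z = 0 := by
  intro h
  apply hf0
  have h1 : (fun τ : ℍ => f (γ • τ)) = fun _ => 0 := by
    refine Fermat.Agent.S24.UnifInfty.eq_of_eventuallyEq_atImInfty
      (Fermat.Agent.S24.UnifInfty.mdiff_comp_smul hf γ) mdifferentiable_const ?_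
    refine (atImInfty_mem _).mpr ⟨C + 1, fun τ hτ => ?_⟩
    have := h (τ : ℂ) (show C < (τ : ℂ).im by
      have : τ.im = (τ : ℂ).im := rfl
      linarith)
    simpa [pull] using this
  funext τ
  have := congrFun h1 (γ⁻¹ • τ)
  simpa using this

theorem pull_add_int (f : ℍ → ℂ) (γ : SL(2, ℤ)) {z : ℂ} (hz : 0 < z.im) (w : ℤ) :
    pull f γ (z + w) = f ((γ * T ^ w * γ⁻¹) • γ • ofComplex z) := by
  have h1 := Fermat.Agent.S24.UnifInfty.ofComplex_add_int (ofComplex z) w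
  rw [ofComplex_apply_of_im_pos hz] at h1
  have h2 : ((⟨z, hz⟩ : ℍ) : ℂ) = z := rfl
  rw [h2] at h1
  unfold pull
  rw [h1, ofComplex_apply_of_im_pos hz]
  simp [mul_smul]

theorem trace_conj_T (γ : SL(2, ℤ)) (w : ℤ) :
    ((γ * T ^ w * γ⁻¹ : SL(2, ℤ)) : Matrix (Fin 2) (Fin 2) ℤ).trace = 2 := by
  rw [Matrix.SpecialLinearGroup.coe_mul, Matrix.SpecialLinearGroup.coe_mul,
    Matrix.trace_mul_cycle, ← Matrix.SpecialLinearGroup.coe_mul, inv_mul_cancel,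
    Matrix.SpecialLinearGroup.coe_one, one_mul, ModularGroup.coe_T_zpow]
  simp [Matrix.trace_fin_two]

variable {N : ℕ} [NeZero N]

/-- local shape of the expansion of a nonzero `θ` at the cusp `γ ∞`. -/
theorem exists_local (θ : funAlg N) (hθ : θ ≠ 0) (γ : SL(2, ℤ)) :
    ∃ r : ℂ → ℂ, AnalyticAt ℂ r 0 ∧ r 0 ≠ 0 ∧
      ∀ᶠ u in 𝓝[≠] (0 : ℂ), cuspFn N θ γ u = u ^ (eps N γ θ).ord * r u := by
  have hk : meromorphicOrderAt (cuspFn N θ γ) 0
      = ((meromorphicOrderAt (cuspFn N θ γ) 0).untop₀ : ℤ) :=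
    (WithTop.coe_untop₀_of_ne_top (Fermat.Agent.S24.UnifInfty.order_ne_top hθ γ)).symm
  obtain ⟨r, hr, hr0, hR⟩ := (meromorphicOrderAt_eq_int_iff
    (Fermat.Agent.S24.UnifInfty.cuspFn_meromorphicAt θ.2 γ)).1 hk
  refine ⟨r, hr, hr0, ?_⟩
  rw [Fermat.Agent.S24.UnifInfty.ord_eps]
  filter_upwards [hR] with u hu
  simpa using hu

/-- a common ball for two expansions, and the `m`-th root of the quotient of the unit parts -/
theorem exists_ball (m : ℕ) (hm : m ≠ 0) (θ₁ θ₂ : funAlg N) (h₁ : θ₁ ≠ 0) (h₂ : θ₂ ≠ 0)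
    (γ : SL(2, ℤ)) :
    ∃ (ρ : ℝ) (r₂ s : ℂ → ℂ), 0 < ρ ∧ AnalyticOnNhd ℂ s (Metric.ball 0 ρ) ∧
      (∀ u ∈ Metric.ball (0 : ℂ) ρ, s u ≠ 0 ∧ r₂ u ≠ 0) ∧
      (∀ u ∈ Metric.ball (0 : ℂ) ρ, u ≠ 0 →
        cuspFn N θ₂ γ u = u ^ (eps N γ θ₂).ord * r₂ u ∧
        cuspFn N θ₁ γ u = u ^ (eps N γ θ₁).ord * (s u ^ m * r₂ u)) := by
  obtain ⟨r₁, hr₁, hr₁0, hR₁⟩ := exists_local θ₁ h₁ γ
  obtain ⟨r₂, hr₂, hr₂0, hR₂⟩ := exists_local θ₂ h₂ γ
  rw [eventually_nhdsWithin_iff] at hR₁ hR₂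
  have hev := ((((hr₁.eventually_analyticAt.and hr₂.eventually_analyticAt).and
    (hr₁.continuousAt.eventually_ne hr₁0)).and (hr₂.continuousAt.eventually_ne hr₂0)).and
    hR₁).and hR₂
  obtain ⟨ρ, hρ, hball⟩ := Metric.eventually_nhds_iff_ball.1 hev
  have hq : DifferentiableOn ℂ (fun u => r₁ u / r₂ u) (Metric.ball 0 ρ) := by
    intro u hu
    obtain ⟨⟨⟨⟨⟨a1, a2⟩, -⟩, b2⟩, -⟩, -⟩ := hball u hu
    exact (a1.differentiableAt.div a2.differentiableAt b2).differentiableWithinAt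
  obtain ⟨s, hs, hsr⟩ := Fermat.Agent.ES.Root.hasRoot_of_ne_zero hq (fun u hu => by
    obtain ⟨⟨⟨⟨-, b1⟩, b2⟩, -⟩, -⟩ := hball u hu
    exact div_ne_zero b1 b2) hm
  refine ⟨ρ, r₂, s, hρ, hs, ?_, ?_⟩
  · intro u hu
    obtain ⟨⟨⟨⟨-, b1⟩, b2⟩, -⟩, -⟩ := hball u hu
    refine ⟨?_, b2⟩
    intro h0
    have := hsr u hu
    rw [h0, zero_pow hm] at this
    exact div_ne_zero b1 b2 this.symm
  · intro u hu hu0
    obtain ⟨⟨⟨⟨-, b1⟩, b2⟩, c1⟩, c2⟩ := hball u hu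
    refine ⟨c2 hu0, ?_⟩
    rw [c1 hu0, hsr u hu, div_mul_cancel₀ _ b2]

/-- the exponential factor -/
noncomputable def expo (N m : ℕ) (n : ℤ) (z : ℂ) : ℂ :=
  Complex.exp (2 * Real.pi * Complex.I * n * z / ((N : ℂ) * m))

theorem expo_ne_zero (N m : ℕ) (n : ℤ) (z : ℂ) : expo N m n z ≠ 0 := Complex.exp_ne_zero _

theorem expo_add (N m : ℕ) (n : ℤ) (z w : ℂ) : expo N m n (z + w) = expo N m n z * expo N m n w := by
  unfold expo
  rw [← Complex.exp_add]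
  congr 1
  ring

theorem expo_pow (m : ℕ) (hm : m ≠ 0) (n : ℤ) (z : ℂ) : expo N m n z ^ m = (𝕢 N z) ^ n := by
  have hN : (N : ℂ) ≠ 0 := by exact_mod_cast NeZero.ne N
  have hm' : (m : ℂ) ≠ 0 := by exact_mod_cast hm
  unfold expo Periodic.qParam
  rw [← Complex.exp_nat_mul, ← Complex.exp_int_mul]
  congr 1
  push_cast
  field_simp

theorem expo_analytic (N m : ℕ) (n : ℤ) (z : ℂ) : AnalyticAt ℂ (expo N m n) z := by
  unfold expo
  fun_prop

theorem qParam_analytic (z : ℂ) : AnalyticAt ℂ (𝕢 (N : ℝ)) z := by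
  unfold Periodic.qParam
  fun_prop

theorem qParam_add (z w : ℂ) : 𝕢 (N : ℝ) (z + w) = 𝕢 (N : ℝ) w * 𝕢 (N : ℝ) z := by
  simp only [Periodic.qParam, ← Complex.exp_add]
  congr 1
  ring

theorem dvd_of_expo_eq_one (m : ℕ) (hm : m ≠ 0) (n w : ℤ) (h : expo N m n (w : ℂ) = 1) :
    ((N : ℤ) * m) ∣ n * w := by
  have hN : (N : ℂ) ≠ 0 := by exact_mod_cast NeZero.ne N
  have hm' : (m : ℂ) ≠ 0 := by exact_mod_cast hm
  rw [expo, Complex.exp_eq_one_iff] at h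
  obtain ⟨k, hk⟩ := h
  refine ⟨k, ?_⟩
  have h3 : ((n * w : ℤ) : ℂ) = (((N : ℤ) * m * k : ℤ) : ℂ) := by
    push_cast
    field_simp at hk
    linear_combination hk
  exact_mod_cast h3

theorem theta1_ne_zero {m : ℕ} [NeZero m] {χ : Additive (Gamma0 N) →+ ZMod m}
    {a b : ℍ → ℂ} {θ₁ θ₂ : funAlg N} (D : KumData N m χ a b θ₁ θ₂) : θ₁ ≠ 0 := by
  intro h
  have h1 : a ^ m * (θ₂ : ℍ → ℂ) = 0 := by
    funext z
    have := D.pow z
    rw [h] at this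
    simpa using this
  rcases (UpperHalfPlane.mul_eq_zero_iff (D.ha.pow m)
    (Fermat.Agent.S24.funAlg_mdiff θ₂.2)).1 h1 with h2 | h2
  · exact D.a0 (pow_eq_zero_iff (NeZero.ne m) |>.1 h2)
  · exact D.θ0 (Subtype.ext h2)

theorem exists_height {ρ : ℝ} (hρ : 0 < ρ) :
    ∃ C : ℝ, 0 ≤ C ∧ ∀ z ∈ HP C, 𝕢 (N : ℝ) z ∈ Metric.ball (0 : ℂ) ρ := by
  have hN : (0 : ℝ) < N := by exact_mod_cast Nat.pos_of_ne_zero (NeZero.ne N)
  have h1 : Tendsto (𝕢 (N : ℝ)) (comap Complex.im atTop) (𝓝 0) :=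
    (Periodic.qParam_tendsto hN).mono_right nhdsWithin_le_nhds
  have h2 := h1.eventually (Metric.ball_mem_nhds (0 : ℂ) hρ)
  rw [eventually_comap, eventually_atTop] at h2
  obtain ⟨C, hC⟩ := h2
  refine ⟨max C 0, le_max_right _ _, fun z hz => ?_⟩
  have hz' : max C 0 < z.im := hz
  exact hC z.im ((le_max_left C 0).trans hz'.le) z rfl

theorem pull_eq_cuspFn (θ : funAlg N) (γ : SL(2, ℤ)) {z : ℂ} (hz : 0 < z.im) :
    pull θ γ z = cuspFn N θ γ (𝕢 (N : ℝ) z) := by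
  have := Fermat.Agent.S24.UnifInfty.cuspFn_qParam θ.2 γ ⟨z, hz⟩
  rw [pull, ofComplex_apply_of_im_pos hz, ← this]

/-- the periods: `N m ∣ (n₁ - n₂) w` whenever `γ T ^ w γ⁻¹ ∈ Γ₀(N)`. -/
theorem period_dvd {m : ℕ} [NeZero m] {χ : Additive (Gamma0 N) →+ ZMod m}
    {a b : ℍ → ℂ} {θ₁ θ₂ : funAlg N} (D : KumData N m χ a b θ₁ θ₂) (γ : SL(2, ℤ)) (w : ℤ)
    (hw : γ * T ^ w * γ⁻¹ ∈ Gamma0 N) :
    ((N : ℤ) * m) ∣ ((eps N γ θ₁).ord - (eps N γ θ₂).ord) * w := by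
  have hm : m ≠ 0 := NeZero.ne m
  obtain ⟨ρ, r₂, s, hρ, hs, hne, hR⟩ := exists_ball m hm θ₁ θ₂ (theta1_ne_zero D) D.θ0 γ
  obtain ⟨C, hC0, hC⟩ := exists_height (N := N) hρ
  set n₁ := (eps N γ θ₁).ord with hn₁
  set n₂ := (eps N γ θ₂).ord with hn₂
  set E : ℂ → ℂ := fun z => expo N m (n₁ - n₂) z * s (𝕢 (N : ℝ) z) with hE
  have hpos : ∀ z ∈ HP C, 0 < z.im := fun z hz => lt_of_le_of_lt hC0 hz
  have hEan : AnalyticOnNhd ℂ E (HP C) := by
    intro z hz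
    exact (expo_analytic N m _ z).mul ((hs _ (hC z hz)).comp (qParam_analytic z))
  have hq0 : ∀ z : ℂ, 𝕢 (N : ℝ) z ≠ 0 := fun z => Periodic.qParam_ne_zero z
  -- the two theta functions
  have hθ₂ : ∀ z ∈ HP C, pull θ₂ γ z ≠ 0 := by
    intro z hz
    rw [pull_eq_cuspFn θ₂ γ (hpos z hz), (hR _ (hC z hz) (hq0 z)).1]
    exact mul_ne_zero (zpow_ne_zero _ (hq0 z)) (hne _ (hC z hz)).2
  have hθ₁ : ∀ z ∈ HP C, pull θ₁ γ z = E z ^ m * pull θ₂ γ z := by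
    intro z hz
    rw [pull_eq_cuspFn θ₁ γ (hpos z hz), pull_eq_cuspFn θ₂ γ (hpos z hz),
      (hR _ (hC z hz) (hq0 z)).1, (hR _ (hC z hz) (hq0 z)).2, hE]
    simp only
    rw [mul_pow, expo_pow m hm, zpow_sub₀ (hq0 z)]
    have := zpow_ne_zero n₂ (hq0 z)
    field_simp
  -- `A = ζ B E`
  have hpow : ∀ z ∈ HP C, pull a γ z ^ m = (pull b γ z * E z) ^ m := by
    intro z hz
    have h1 : pull a γ z ^ m * pull θ₂ γ z = pull b γ z ^ m * pull θ₁ γ z := D.pow _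
    rw [hθ₁ z hz, ← mul_assoc, ← mul_pow] at h1
    exact mul_right_cancel₀ (hθ₂ z hz) h1
  obtain ⟨ζ, hζ, hζA⟩ := Fermat.Agent.ES.Root.exists_root_of_unity (isPreconnected_HP C) hm
    (pull_analytic D.ha γ hC0) ((pull_analytic D.hb γ hC0).mul hEan) hpow
  have hζ0 : ζ ≠ 0 := by
    intro h
    rw [h, zero_pow hm] at hζ
    exact zero_ne_one hζ
  -- the character is trivial on `γ T ^ w γ⁻¹`
  have hχ : χ (Additive.ofMul (⟨γ * T ^ w * γ⁻¹, hw⟩ : Gamma0 N)) = 0 := by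
    apply D.pe
    show ((γ * T ^ w * γ⁻¹ : SL(2, ℤ)) : Matrix (Fin 2) (Fin 2) ℤ).trace ^ 2 ≤ 4
    rw [trace_conj_T]
    norm_num
  have hper : ∀ z ∈ HP C, pull a γ (z + w) * pull b γ z = pull a γ z * pull b γ (z + w) := by
    intro z hz
    have h1 := D.char ⟨γ * T ^ w * γ⁻¹, hw⟩ (γ • ofComplex z)
    rw [hχ, AddChar.map_zero_eq_one, one_mul] at h1
    rw [pull_add_int a γ (hpos z hz), pull_add_int b γ (hpos z hz)]
    exact h1
  -- `E` is periodic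
  have hshift : ∀ {F : ℂ → ℂ}, AnalyticOnNhd ℂ F (HP C) →
      AnalyticOnNhd ℂ (fun z => F (z + w)) (HP C) := by
    intro F hF z hz
    exact (hF _ (add_int_mem_HP hz w)).comp (f := fun z : ℂ => z + w) (by fun_prop)
  have hprod : ∀ z ∈ HP C, (pull b γ z * pull b γ (z + w)) * (E (z + w) - E z) = 0 := by
    intro z hz
    have h1 := hper z hz
    rw [hζA z hz, hζA _ (add_int_mem_HP hz w)] at h1
    have h2 : ζ * ((pull b γ z * pull b γ (z + w)) * (E (z + w) - E z)) = 0 := by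
      linear_combination h1
    exact (mul_eq_zero.1 h2).resolve_left hζ0
  have hBan := pull_analytic D.hb γ hC0
  have hEper : ∀ z ∈ HP C, E (z + w) = E z := by
    rcases (hBan.mul (hshift hBan)).eq_zero_or_eq_zero_of_mul_eq_zero
      ((hshift hEan).sub hEan) hprod (isPreconnected_HP C) with h | h
    · exfalso
      rcases hBan.eq_zero_or_eq_zero_of_mul_eq_zero (hshift hBan) h (isPreconnected_HP C)
        with h' | h'
      · exact pull_ne_zero D.hb D.b0 γ C h'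
      · refine pull_ne_zero D.hb D.b0 γ C fun z hz => ?_
        have := h' (z - w) (by
          have := add_int_mem_HP hz (-w)
          simpa [sub_eq_add_neg] using this)
        simpa using this
    · intro z hz
      exact sub_eq_zero.1 (h z hz)
  -- the limit
  have hrel : ∀ z ∈ HP C, expo N m (n₁ - n₂) w * s (𝕢 (N : ℝ) w * 𝕢 (N : ℝ) z) = s (𝕢 (N : ℝ) z) := by
    intro z hz
    have h1 := hEper z hz
    simp only [hE] at h1
    rw [expo_add, qParam_add, mul_assoc] at h1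
    exact mul_left_cancel₀ (expo_ne_zero N m _ z) h1
  have hN : (0 : ℝ) < N := by exact_mod_cast Nat.pos_of_ne_zero (NeZero.ne N)
  have ht : Tendsto (fun τ : ℍ => 𝕢 (N : ℝ) (τ : ℂ)) atImInfty (𝓝 0) :=
    ((Periodic.qParam_tendsto hN).comp tendsto_coe_atImInfty).mono_right nhdsWithin_le_nhds
  have hs0 : ContinuousAt s 0 := (hs 0 (Metric.mem_ball_self hρ)).continuousAt
  have l1 : Tendsto (fun τ : ℍ => s (𝕢 (N : ℝ) (τ : ℂ))) atImInfty (𝓝 (s 0)) := hs0.tendsto.comp ht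
  have ht2 : Tendsto (fun τ : ℍ => 𝕢 (N : ℝ) w * 𝕢 (N : ℝ) (τ : ℂ)) atImInfty (𝓝 0) := by
    simpa using ht.const_mul (𝕢 (N : ℝ) w)
  have l2 : Tendsto (fun τ : ℍ => expo N m (n₁ - n₂) w * s (𝕢 (N : ℝ) w * 𝕢 (N : ℝ) (τ : ℂ)))
      atImInfty (𝓝 (expo N m (n₁ - n₂) w * s 0)) := (hs0.tendsto.comp ht2).const_mul _
  have l3 : Tendsto (fun τ : ℍ => expo N m (n₁ - n₂) w * s (𝕢 (N : ℝ) w * 𝕢 (N : ℝ) (τ : ℂ)))
      atImInfty (𝓝 (s 0)) := by
    refine l1.congr' ?_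
    refine (atImInfty_mem _).mpr ⟨C + 1, fun τ hτ => ?_⟩
    refine (hrel (τ : ℂ) (show C < (τ : ℂ).im from ?_)).symm
    have : τ.im = (τ : ℂ).im := rfl
    linarith
  have hone : expo N m (n₁ - n₂) w = 1 := by
    have := tendsto_nhds_unique l2 l3
    exact mul_right_cancel₀ (hne 0 (Metric.mem_ball_self hρ)).1 (by rw [this, one_mul])
  exact dvd_of_expo_eq_one m hm _ w hone

end CuspOrd

open CuspOrd in
/-- (B-CUSP) analytic input at the cusp `g⁻¹ ∞`. -/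
theorem cuspOrd : Stmt_CuspOrd := by
  intro N m _ _ χ a b θ₁ θ₂ D g h hmem
  have hN : (N : ℤ) ≠ 0 := by exact_mod_cast NeZero.ne N
  have hm : (m : ℤ) ≠ 0 := by exact_mod_cast NeZero.ne m
  have h1 := period_dvd D g⁻¹ (N : ℤ) (by
    have := Fermat.Agent.S24.UnifInfty.conj_T_zpow_mem N g⁻¹ 1
    simpa using this)
  have h2 := period_dvd D g⁻¹ (h : ℤ) (by simpa using hmem)
  obtain ⟨k, hk⟩ := h1
  have hk' : (eps N g⁻¹ θ₁).ord - (eps N g⁻¹ θ₂).ord = m * k := by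
    apply mul_right_cancel₀ hN
    rw [hk]
    ring
  refine ⟨k, hk', ?_⟩
  rw [hk'] at h2
  obtain ⟨j, hj⟩ := h2
  refine ⟨j, ?_⟩
  apply mul_left_cancel₀ hm
  linear_combination hj

end Fermat.Agent.ES.Mid.B
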