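import Fermat.Agent.ES.Mid.BInterface

/-!
# ES / Mid / B-FIN : analytic input at a point of `ℍ` (`Stmt_FinOrd`)
-/

set_option autoImplicit false

namespace Fermat.Agent.ES.Mid.B

open UpperHalfPlane CongruenceSubgroup AlgebraicCurve ModularGroup IntermediateField Filter
open scoped MatrixGroups Manifold Topology
open Fermat.Agent.S24 (Qbar FF funAlg iota jF Cosets LocalUnif IsDiffVal zeroPlaces MerGerm)
open Fermat.Agent.S24.QX (qExpHom)
attribute [local instance] Fermat.Agent.S24.algQbarComplex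

namespace FinOrd

/-- An element of `SL₂(ℤ)` with a fixed point in `ℍ` has `tr² ≤ 4`. -/
theorem trace_sq_le_four (γ : SL(2, ℤ)) (z : ℍ) (h : γ • z = z) :
    ((γ : Matrix (Fin 2) (Fin 2) ℤ)).trace ^ 2 ≤ 4 := by
  have h1 := congrArg (fun w : ℍ => (w : ℂ)) h
  simp only [coe_specialLinearGroup_apply] at h1
  have hden : ((algebraMap ℤ ℝ (γ 1 0) : ℝ) : ℂ) * z + ((algebraMap ℤ ℝ (γ 1 1) : ℝ) : ℂ) ≠ 0 := by
    have := denom_ne_zero (γ : GL (Fin 2) ℝ) z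
    rw [ModularGroup.denom_apply] at this
    simpa using this
  rw [div_eq_iff hden] at h1
  set a : ℝ := ((γ 0 0 : ℤ) : ℝ) with ha
  set b : ℝ := ((γ 0 1 : ℤ) : ℝ) with hb
  set c : ℝ := ((γ 1 0 : ℤ) : ℝ) with hc
  set d : ℝ := ((γ 1 1 : ℤ) : ℝ) with hd
  have hdet : a * d - b * c = 1 := by
    have := γ.det_coe
    rw [Matrix.det_fin_two] at this
    have h2 := congrArg (fun n : ℤ => (n : ℝ)) this
    simp only [Int.cast_sub, Int.cast_mul, Int.cast_one] at h2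
    exact h2
  have hre := congrArg Complex.re h1
  have him := congrArg Complex.im h1
  simp only [algebraMap_int_eq, eq_intCast, Complex.add_re, Complex.mul_re, Complex.ofReal_re,
    Complex.ofReal_im, Complex.add_im, Complex.mul_im, zero_mul, sub_zero, add_zero,
    UpperHalfPlane.coe_re, UpperHalfPlane.coe_im] at hre him
  have hy : 0 < z.im := z.im_pos
  have e1 : a - d = 2 * c * z.re := by
    have : (a - d - 2 * c * z.re) * z.im = 0 := by
      simp only [← ha, ← hc, ← hd] at him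
      linarith
    rcases mul_eq_zero.mp this with h3 | h3
    · linarith
    · exact absurd h3 hy.ne'
  have e2 : b = -c * (z.re ^ 2 + z.im ^ 2) := by
    simp only [← ha, ← hb, ← hc, ← hd] at hre
    linear_combination hre - z.re * e1
  have e3 : (a + d) ^ 2 ≤ 4 := by
    have : (a + d) ^ 2 - 4 = -4 * c ^ 2 * z.im ^ 2 := by
      have : (a + d) ^ 2 - 4 = (a - d) ^ 2 + 4 * (b * c) := by
        linear_combination (4 : ℝ) * hdet
      rw [this, e1, e2]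
      ring
    nlinarith [mul_nonneg (sq_nonneg c) (sq_nonneg z.im)]
  have e4 : (((γ : Matrix (Fin 2) (Fin 2) ℤ).trace ^ 2 : ℤ) : ℝ) ≤ ((4 : ℤ) : ℝ) := by
    rw [Matrix.trace_fin_two]
    push_cast
    exact e3
  exact_mod_cast e4

/-- the order of a nonzero holomorphic function on `ℍ` is finite. -/
theorem order_ne_top {F : ℍ → ℂ} (hF : MDiff F) (hF0 : F ≠ 0) (g : SL(2, ℤ)) (τ₀ : ℍ) :
    meromorphicOrderAt (fun z => F (g • ofComplex z)) τ₀ ≠ ⊤ := by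
  intro htop
  have h1 : meromorphicOrderAt (Fermat.Agent.S24.B7a.locFun τ₀ (fun τ => F (g • τ))) 0 = ⊤ := by
    rw [Fermat.Agent.S24.B7a.meromorphicOrderAt_locFun]
    exact htop
  rw [meromorphicOrderAt_eq_top_iff] at h1
  have h2 : (fun τ => F (g • τ)) = (fun _ => (0 : ℂ)) := by
    refine Fermat.Agent.S24.B7a.eq_of_locFun_eventuallyEq
      (Fermat.Agent.S24.B7a.mdiff_comp_smul hF g) mdifferentiable_const τ₀ ?_
    filter_upwards [h1] with u hu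
    rw [hu]
    rfl
  apply hF0
  ext τ
  have := congrFun h2 (g⁻¹ • τ)
  simpa using this

theorem pow_smul_fix (g₀ : SL(2, ℤ)) (τ₀ : ℍ) (hg₀ : g₀ • τ₀ = τ₀) (h : ℕ) :
    g₀ ^ h • τ₀ = τ₀ := by
  induction h with
  | zero => simp
  | succ n ih => rw [pow_succ, mul_smul, hg₀, ih]

theorem analyticAt_loc {F : ℍ → ℂ} (hF : MDiff F) (g : SL(2, ℤ)) (τ₀ : ℍ) :
    AnalyticAt ℂ (fun z => F (g • ofComplex z)) τ₀ :=
  Fermat.Agent.S24.B7a.analyticAt_comp_ofComplex (Fermat.Agent.S24.B7a.mdiff_comp_smul hF g) τ₀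

end FinOrd

open FinOrd in
theorem finOrd : Stmt_FinOrd := by
  intro N m _ _ χ a b θ₁ θ₂ D τ₀ g₀ g s h hg₀ hprim hmem
  have hm0 : m ≠ 0 := NeZero.ne m
  -- θ₁ ≠ 0
  have hθ1 : θ₁ ≠ 0 := by
    intro h0
    have h1 : ∀ z : ℍ, a z ^ m * (θ₂ : ℍ → ℂ) z = 0 := by
      intro z
      rw [D.pow z, h0]
      simp
    have h2 : (fun z => a z ^ m) * (θ₂ : ℍ → ℂ) = 0 := by
      ext z
      exact h1 z
    rcases (UpperHalfPlane.mul_eq_zero_iff (D.ha.pow m)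
      (Fermat.Agent.S24.funAlg_mdiff θ₂.2)).mp h2 with h3 | h3
    · apply D.a0
      ext z
      have := congrFun h3 z
      exact pow_eq_zero_iff hm0 |>.mp this
    · exact D.θ0 (Subtype.ext h3)
  set A : ℂ → ℂ := fun z => a (g⁻¹ • ofComplex z) with hA
  set B : ℂ → ℂ := fun z => b (g⁻¹ • ofComplex z) with hB
  set T1 : ℂ → ℂ := fun z => (θ₁ : ℍ → ℂ) (g⁻¹ • ofComplex z) with hT1
  set T2 : ℂ → ℂ := fun z => (θ₂ : ℍ → ℂ) (g⁻¹ • ofComplex z) with hT2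
  have aA : AnalyticAt ℂ A τ₀ := analyticAt_loc D.ha g⁻¹ τ₀
  have aB : AnalyticAt ℂ B τ₀ := analyticAt_loc D.hb g⁻¹ τ₀
  have aT1 : AnalyticAt ℂ T1 τ₀ := analyticAt_loc (Fermat.Agent.S24.funAlg_mdiff θ₁.2) g⁻¹ τ₀
  have aT2 : AnalyticAt ℂ T2 τ₀ := analyticAt_loc (Fermat.Agent.S24.funAlg_mdiff θ₂.2) g⁻¹ τ₀
  have oA : meromorphicOrderAt A τ₀ ≠ ⊤ := order_ne_top D.ha D.a0 g⁻¹ τ₀
  have oB : meromorphicOrderAt B τ₀ ≠ ⊤ := order_ne_top D.hb D.b0 g⁻¹ τ₀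
  have oT1 : meromorphicOrderAt T1 τ₀ ≠ ⊤ :=
    Fermat.Agent.S24.B7a.order_ne_top_of_ne_zero N τ₀ g θ₁ hθ1
  have oT2 : meromorphicOrderAt T2 τ₀ ≠ ⊤ :=
    Fermat.Agent.S24.B7a.order_ne_top_of_ne_zero N τ₀ g θ₂ D.θ0
  obtain ⟨kA, hkA⟩ := WithTop.ne_top_iff_exists.mp oA
  obtain ⟨kB, hkB⟩ := WithTop.ne_top_iff_exists.mp oB
  obtain ⟨k1, hk1⟩ := WithTop.ne_top_iff_exists.mp oT1
  obtain ⟨k2, hk2⟩ := WithTop.ne_top_iff_exists.mp oT2
  have heq : A ^ m * T2 = B ^ m * T1 := by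
    ext z
    exact D.pow _
  have hord : meromorphicOrderAt (A ^ m * T2) τ₀ = meromorphicOrderAt (B ^ m * T1) τ₀ := by
    rw [heq]
  rw [meromorphicOrderAt_mul (aA.meromorphicAt.pow m) aT2.meromorphicAt,
    meromorphicOrderAt_mul (aB.meromorphicAt.pow m) aT1.meromorphicAt,
    meromorphicOrderAt_pow aA.meromorphicAt, meromorphicOrderAt_pow aB.meromorphicAt,
    ← hkA, ← hkB, ← hk1, ← hk2] at hord
  have hord' : (m : ℤ) * kA + k2 = m * kB + k1 := by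
    exact_mod_cast hord
  refine ⟨kA - kB, ?_, ?_⟩
  · rw [Fermat.Agent.S24.B7a.ord_epsHom, Fermat.Agent.S24.B7a.ord_epsHom]
    change (meromorphicOrderAt T1 τ₀).untop₀ - (meromorphicOrderAt T2 τ₀).untop₀ = _
    rw [← hk1, ← hk2, WithTop.untop₀_coe, WithTop.untop₀_coe]
    linarith
  · set γ : SL(2, ℤ) := g₀ ^ h with hγ
    have hγfix : γ • τ₀ = τ₀ := pow_smul_fix g₀ τ₀ hg₀ h
    have hdet : 0 < ((γ : SL(2, ℤ)) : GL (Fin 2) ℝ).val.det := by
      rw [Fermat.Agent.S24.B7a.det_coe_SL]; exact one_pos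
    -- the conjugate
    set γ' : Gamma0 N := ⟨g⁻¹ * γ * g, hmem⟩ with hγ'
    have hfix' : (γ' : SL(2, ℤ)) • (g⁻¹ • τ₀) = g⁻¹ • τ₀ := by
      change (g⁻¹ * γ * g) • (g⁻¹ • τ₀) = g⁻¹ • τ₀
      rw [← mul_smul, mul_assoc, mul_assoc, mul_inv_cancel, mul_one, mul_smul, hγfix]
    have hχ : χ (Additive.ofMul γ') = 0 := D.pe γ' (trace_sq_le_four _ _ hfix')
    have hchar : ∀ w : ℍ, a ((γ' : SL(2, ℤ)) • w) * b w = a w * b ((γ' : SL(2, ℤ)) • w) := by
      intro w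
      have := D.char γ' w
      rwa [hχ, AddChar.map_zero_eq_one, one_mul] at this
    set φ : ℂ → ℂ := fun z => (((γ : GL (Fin 2) ℝ) • ofComplex z : ℍ) : ℂ) with hφ
    have hφa : AnalyticAt ℂ φ τ₀ := τ₀.analyticAt_smul hdet
    have hφ0 : φ τ₀ = τ₀ := by
      simp only [hφ]
      rw [ofComplex_apply, ← sl_moeb, hγfix]
    have hφd : deriv φ τ₀ ≠ 0 := τ₀.deriv_smul_ne_zero hdet
    have hφt : Tendsto φ (𝓝[≠] (τ₀ : ℂ)) (𝓝[≠] (τ₀ : ℂ)) := by
      have := hφa.differentiableAt.hasDerivAt.tendsto_nhdsNE hφd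
      rwa [hφ0] at this
    have hconj : ∀ (F : ℍ → ℂ) (z : ℂ), F (g⁻¹ • ofComplex (φ z))
        = F ((γ' : SL(2, ℤ)) • (g⁻¹ • ofComplex z)) := by
      intro F z
      simp only [hφ]
      rw [ofComplex_apply, ← sl_moeb]
      congr 1
      change _ = (g⁻¹ * γ * g) • (g⁻¹ • ofComplex z)
      rw [← mul_smul, ← mul_smul, mul_assoc, mul_assoc, mul_inv_cancel, mul_one]
    have hBne : ∀ᶠ z in 𝓝[≠] (τ₀ : ℂ), B z ≠ 0 :=
      (meromorphicOrderAt_ne_top_iff_eventually_ne_zero aB.meromorphicAt).mp oB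
    have hinv : ∀ᶠ z in 𝓝[≠] (τ₀ : ℂ), (A / B) (φ z) = (A / B) z := by
      filter_upwards [hBne, hφt.eventually hBne] with z h1 h2
      simp only [Pi.div_apply]
      rw [div_eq_div_iff h2 h1]
      simp only [hA, hB]
      rw [hconj a z, hconj b z]
      exact hchar _
    have hk : meromorphicOrderAt (A / B) τ₀ = ((kA - kB : ℤ) : WithTop ℤ) := by
      rw [meromorphicOrderAt_div aA.meromorphicAt aB.meromorphicAt, ← hkA, ← hkB]
      rfl
    have h4 := Fermat.Agent.S24.deriv_zpow_order_eq_one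
      (aA.meromorphicAt.div aB.meromorphicAt) _ hk hφa hφ0 hφd hinv
    rw [deriv_smul hdet, Fermat.Agent.S24.B7a.det_coe_SL, Complex.ofReal_one,
      Fermat.Agent.S24.B7a.denom_pow_of_smul_eq g₀ τ₀ hg₀, ← pow_mul, mul_comm h 2, pow_mul,
      ← one_div_pow, ← zpow_natCast, ← zpow_mul] at h4
    exact (hprim.zpow_eq_one_iff_dvd _).mp h4

end Fermat.Agent.ES.Mid.B

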