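import Fermat.Agent.ES.Mid.BInterface

/-!
# ES / Mid / B-UCUSP : concrete local uniformisation at the cusps (`Stmt_UnifCusp`)

Copy of `S24.localUnif_infty_of_qExpHom` returning the structure itself together with the
formula for the embeddings.
-/

set_option autoImplicit false

namespace Fermat.Agent.ES.Mid.B

open UpperHalfPlane CongruenceSubgroup AlgebraicCurve ModularGroup IntermediateField
open scoped MatrixGroups Manifold
open Fermat.Agent.S24 (Qbar FF funAlg iota jF Cosets LocalUnif IsDiffVal zeroPlaces MerGerm)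
open Fermat.Agent.S24.QX (qExpHom)
attribute [local instance] Fermat.Agent.S24.algQbarComplex

namespace UCusp

open Fermat.Agent.S24 Fermat.Agent.S24.UnifInfty Filter Function ModularForm
open scoped Topology

theorem qExpHom_frac (N : ℕ) [NeZero N] (f : FF N) :
    ∃ a b : funAlg N, b ≠ 0 ∧ f * qExpHom N b = qExpHom N a := by
  obtain ⟨r, hr, s, hs, hf⟩ :=
    IntermediateField.mem_adjoin_iff_div.mp (Fermat.Agent.S24.QX.modularFunctionFieldBar_le N f.2)
  obtain ⟨a, ha⟩ := Fermat.Agent.S24.QX.exists_qExpFun_eq N hr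
  obtain ⟨b, hb⟩ := Fermat.Agent.S24.QX.exists_qExpFun_eq N hs
  by_cases hs0 : s = 0
  · refine ⟨0, 1, one_ne_zero, ?_⟩
    have hf0 : f = 0 := Subtype.ext (by rw [hf, hs0, div_zero]; rfl)
    rw [hf0, zero_mul, map_zero]
  · refine ⟨a, b, ?_, ?_⟩
    · rintro rfl
      apply hs0
      rw [← hb]
      exact congrArg Subtype.val (map_zero (qExpHom N))
    · apply Subtype.ext
      show (f : LaurentSeries Qbar) * Fermat.Agent.S24.QX.qExpFun N b
        = Fermat.Agent.S24.QX.qExpFun N a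
      rw [ha, hb, hf, div_mul_cancel₀ _ hs0]

theorem unif_of (N : ℕ) [NeZero N] (ρ : funAlg N →ₐ[Qbar] FF N) (hρ : Function.Injective ρ)
    (hρj : ∀ (d : ℕ) [NeZero d] (hd : d ∣ N), ρ (jAlg N d hd) = jBar N d hd)
    (hfrac : ∀ f : FF N, ∃ a b : funAlg N, b ≠ 0 ∧ f * ρ b = ρ a) :
    ∃ U : LocalUnif Qbar MerGerm.ord (jF N)⁻¹ (Cosets N) (MulAction.toPerm (T : SL(2, ℤ))),
      U.s = N ∧ ∀ (g : SL(2, ℤ)) (θ : funAlg N), U.φ (g : Cosets N) (ρ θ) = eps N g⁻¹ θ := by
  have hlift : ∀ x : Cosets N, ∃ φ : FF N →ₐ[Qbar] MerGerm,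
      ∀ a, φ (ρ a) = eps N (x.out)⁻¹ a :=
    fun x => exists_lift ρ hρ hfrac _ (eps_injective _)
  choose φ hφ using hlift
  have hj : ∀ x : Cosets N, φ x (jF N) = eps N (x.out)⁻¹ (jAlg N 1 (one_dvd N)) := by
    intro x
    rw [← hφ, hρj 1 (one_dvd N)]
    rfl
  have hjval : ∀ g : SL(2, ℤ), eps N g (jAlg N 1 (one_dvd N)) =
      MerGerm.mk (fun u : ℂ => jFun (ofComplex (Periodic.invQParam N u)))
        (by rw [← cuspFn_jFunD_one (N := N) g]
            exact cuspFn_meromorphicAt (jFunD_mem_funAlg (one_dvd N)) g) := by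
    intro g
    rw [eps_apply]
    exact mk_congr _ _ (cuspFn_jFunD_one g)
  refine ⟨{ φ := φ, φ_injective := ?_, φ_x := ?_, s := N, s_pos := Nat.pos_of_ne_zero (NeZero.ne N),
            w_x := ?_, w_perm := ?_, dvd := ?_ }, rfl, ?_⟩
  · intro x x' hxx
    have h1 : eps N (x.out)⁻¹ (jAlg N N dvd_rfl) = eps N (x'.out)⁻¹ (jAlg N N dvd_rfl) := by
      rw [← hφ, ← hφ, hxx]
    rw [eps_eq_iff] at h1
    have h2 : x.out⁻¹ * x'.out ∈ CongruenceSubgroup.Gamma0 N := by
      apply mem_Gamma0_of_jFunD_smul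
      intro τ
      have := h1 (x'.out • τ)
      simpa [mul_smul, jAlg] using this
    rw [← QuotientGroup.eq, QuotientGroup.out_eq', QuotientGroup.out_eq'] at h2
    exact h2
  · intro i i'
    rw [map_inv₀, map_inv₀, hj, hj, hjval, hjval]
  · intro i
    rw [map_inv₀, hj]
    have hne : eps N (i.out)⁻¹ (jAlg N 1 (one_dvd N)) ≠ 0 := by
      intro h0
      have h1 := eps_injective (N := N) (i.out)⁻¹ (h0.trans (map_zero _).symm)
      have h2 := ord_eps (N := N) (jAlg N 1 (one_dvd N)) (i.out)⁻¹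
      have h3 : cuspFn N ((jAlg N 1 (one_dvd N) : funAlg N) : ℍ → ℂ) (i.out)⁻¹ =
          fun u : ℂ => jFun (ofComplex (Periodic.invQParam N u)) := cuspFn_jFunD_one _
      have h4 := order_ne_top (N := N) (θ := jAlg N 1 (one_dvd N))
      have h5 : meromorphicOrderAt (cuspFn N ((0 : funAlg N) : ℍ → ℂ) (i.out)⁻¹) 0 = ⊤ := by
        rw [meromorphicOrderAt_eq_top_iff]
        exact Eventually.of_forall fun u => rfl
      rw [← h1, h3, meromorphicOrderAt_jFun_cusp] at h5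
      exact absurd h5 (by exact WithTop.coe_ne_top)
    rw [ord_inv hne, hjval, MerGerm.ord_mk, meromorphicOrderAt_jFun_cusp]
    have : ((-(N : ℤ) : ℤ) : WithTop ℤ).untop₀ = -(N : ℤ) := WithTop.untop₀_coe _
    have h6 : (-((N : ℤ) : WithTop ℤ)) = ((-(N : ℤ) : ℤ) : WithTop ℤ) := rfl
    rw [h6, this]
    simp
  · intro i f
    by_cases hf : f = 0
    · subst hf; simp
    obtain ⟨a, b, hb, hab⟩ := hfrac f
    have h1 := (ord_lift hρ (hφ (MulAction.toPerm (T : SL(2, ℤ)) i)) hf hb hab).2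
    have h2 := (ord_lift hρ (hφ i) hf hb hab).2
    have h3 : eps N ((MulAction.toPerm (T : SL(2, ℤ)) i : Cosets N).out)⁻¹
        = eps N ((i.out)⁻¹ * T ^ (-1 : ℤ)) := by
      have := eps_inv_eq_of_mem (out_inv_mul_mem (N := N) T i)
      rw [MulAction.toPerm_apply, this]
      congr 1
      simp [mul_inv_rev]
    rw [h1, h2, h3, ord_eps_mul_T_zpow, ord_eps_mul_T_zpow]
  · intro i h hfix f hf
    obtain ⟨a, b, hb, hab⟩ := hfrac f
    obtain ⟨ha, h2⟩ := ord_lift hρ (hφ i) hf hb hab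
    rw [toPerm_pow_apply] at hfix
    have h3 : eps N ((i.out)⁻¹ * T ^ (-(h : ℤ))) = eps N (i.out)⁻¹ := by
      have := eps_inv_eq_of_mem (out_inv_mul_mem (N := N) (T ^ h) i)
      rw [hfix] at this
      rw [this]
      congr 1
      simp [mul_inv_rev]
    have ha' := dvd_ord_of_eps_eq ha (i.out)⁻¹ (-(h : ℤ)) (by rw [h3])
    have hb' := dvd_ord_of_eps_eq hb (i.out)⁻¹ (-(h : ℤ)) (by rw [h3])
    rw [h2, mul_sub]
    rw [neg_mul, dvd_neg] at ha' hb'
    exact dvd_sub ha' hb'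
  · intro g θ
    show φ (g : Cosets N) (ρ θ) = eps N g⁻¹ θ
    rw [hφ]
    have h : ((g : Cosets N).out)⁻¹ * g ∈ CongruenceSubgroup.Gamma0 N := by
      rw [← QuotientGroup.eq, QuotientGroup.out_eq']
    rw [eps_inv_eq_of_mem h]

end UCusp

theorem unifCusp : Stmt_UnifCusp := fun N _ =>
  UCusp.unif_of N (qExpHom N) (Fermat.Agent.S24.QX.qExpHom_injective N)
    (fun d _ hd => Fermat.Agent.S24.QX.qExpHom_jAlg N d hd) (UCusp.qExpHom_frac N)

end Fermat.Agent.ES.Mid.B
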