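import Fermat.Agent.ES.Mid.BInterface

/-!
# ES / Mid / B-UFIN : concrete local uniformisation at the finite values of `j`
-/

set_option autoImplicit false

namespace Fermat.Agent.ES.Mid.B

open UpperHalfPlane CongruenceSubgroup AlgebraicCurve ModularGroup IntermediateField
open scoped MatrixGroups Manifold
open Fermat.Agent.S24 (Qbar FF funAlg iota jF Cosets LocalUnif IsDiffVal zeroPlaces MerGerm)
open Fermat.Agent.S24.QX (qExpHom)
attribute [local instance] Fermat.Agent.S24.algQbarComplex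

namespace UFin

open Fermat.Agent.S24 Fermat.Agent.S24.QX Fermat.Agent.S24.B7a

/-- every element of `F_N` is a quotient of `q`-expansions of elements of `funAlg N`. -/
theorem qExpHom_frac (N : ℕ) [NeZero N] (f : FF N) :
    ∃ a b : funAlg N, b ≠ 0 ∧ f * qExpHom N b = qExpHom N a := by
  obtain ⟨r, hr, s, hs, hf⟩ :=
    IntermediateField.mem_adjoin_iff_div.mp (modularFunctionFieldBar_le N f.2)
  obtain ⟨a, ha⟩ := exists_qExpFun_eq N hr
  obtain ⟨b, hb⟩ := exists_qExpFun_eq N hs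
  by_cases hs0 : s = 0
  · refine ⟨0, 1, one_ne_zero, ?_⟩
    have hf0 : f = 0 := Subtype.ext (by rw [hf, hs0, div_zero]; rfl)
    rw [hf0, zero_mul, map_zero]
  · refine ⟨a, b, ?_, ?_⟩
    · rintro rfl
      apply hs0
      rw [← hb]
      exact congrArg Subtype.val (map_zero (qExpHom N))
    · apply Subtype.ext
      show (f : LaurentSeries Qbar) * qExpFun N b = qExpFun N a
      rw [ha, hb, hf, div_mul_cancel₀ _ hs0]

theorem localUnif_of_stab' (N : ℕ) [NeZero N] (c : Qbar) (τ₀ : ℍ) (hτ₀ : jFun τ₀ = iota c)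
    (g₀ : SL(2, ℤ)) (hg₀ : g₀ • τ₀ = τ₀) (s : ℕ) (hs : 0 < s)
    (hord : meromorphicOrderAt (fun z : ℂ => jFun (ofComplex z) - jFun τ₀) (τ₀ : ℂ) = (s : ℤ))
    (hprim : IsPrimitiveRoot (1 / denom g₀ τ₀ ^ 2) s) :
    ∃ U : LocalUnif Qbar MerGerm.ord (jF N - algebraMap Qbar (FF N) c) (Cosets N)
      (MulAction.toPerm g₀), U.s = s ∧ ∀ (g : SL(2, ℤ)) (θ : funAlg N),
        U.φ (g : Cosets N) (qExpHom N θ) = epsHom N τ₀ g θ := by
  have hρ := qExpHom_injective N
  have hρj : ∀ (d : ℕ) [NeZero d] (hd : d ∣ N), qExpHom N (jAlg N d hd) = jBar N d hd :=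
    fun d _ hd => qExpHom_jAlg N d hd
  have hfrac := qExpHom_frac N
  let φ : Cosets N → (FF N →ₐ[Qbar] MerGerm) := fun x =>
    liftHom (qExpHom N) hρ hfrac (epsHom N τ₀ x.out) (epsHom_injective N τ₀ x.out)
  have hφ : ∀ (g : SL(2, ℤ)) (θ : funAlg N),
      φ (g : Cosets N) (qExpHom N θ) = epsHom N τ₀ g θ := by
    intro g θ
    have h1 : epsHom N τ₀ (g : Cosets N).out = epsHom N τ₀ g := by
      rw [epsHom_eq_iff]
      exact QuotientGroup.eq.mp (QuotientGroup.out_eq' _)
    rw [← h1]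
    exact liftHom_apply (qExpHom N) hρ hfrac _ _ θ
  have hx : ∀ g : SL(2, ℤ), φ (g : Cosets N) (jF N - algebraMap Qbar (FF N) c) =
      MerGerm.mk (locFun τ₀ (fun τ => jFun τ - iota c))
        (locFun_analyticAt (jFun_mdiff.sub mdifferentiable_const) τ₀).meromorphicAt := by
    intro g
    rw [map_sub, AlgHom.commutes, ← epsHom_jAlg_one N τ₀ g c, ← hφ, hρj 1 (one_dvd N)]
    rfl
  have hmul := MerGerm.isDiffVal.map_mul
  refine ⟨{
    φ := φ
    φ_injective := ?_
    φ_x := ?_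
    s := s
    s_pos := hs
    w_x := ?_
    w_perm := ?_
    dvd := ?_ }, rfl, hφ⟩
  · intro x x' h
    induction x using QuotientGroup.induction_on with | _ g => ?_
    induction x' using QuotientGroup.induction_on with | _ g' => ?_
    refine QuotientGroup.eq.mpr ((epsHom_eq_iff N τ₀ g g').mp ?_)
    ext θ
    rw [← hφ, ← hφ, h]
  · intro x x'
    induction x using QuotientGroup.induction_on with | _ g => ?_
    induction x' using QuotientGroup.induction_on with | _ g' => ?_
    rw [hx, hx]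
  · intro x
    induction x using QuotientGroup.induction_on with | _ g => ?_
    rw [hx, MerGerm.ord_mk, meromorphicOrderAt_locFun, ← hτ₀, hord]
    rfl
  · intro x f
    induction x using QuotientGroup.induction_on with | _ g => ?_
    refine w_eq_of_frac (qExpHom N) hρ hfrac _ hmul _ _ (fun θ => ?_) f
    rw [MulAction.toPerm_apply, MulAction.Quotient.smul_coe, smul_eq_mul, hφ, hφ,
      ord_epsHom_mul_left N τ₀ g₀ g hg₀]
  · intro x h hx' f hf
    induction x using QuotientGroup.induction_on with | _ g => ?_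
    refine dvd_of_frac (qExpHom N) hρ hfrac _ hmul _ _ _ (fun θ hθ => ?_) f hf
    rw [hφ]
    have h1 : (MulAction.toPerm g₀ : Equiv.Perm (Cosets N)) ^ h = MulAction.toPerm (g₀ ^ h) :=
      (map_pow (MulAction.toPermHom SL(2, ℤ) (Cosets N)) g₀ h).symm
    rw [h1, MulAction.toPerm_apply, MulAction.Quotient.smul_coe, smul_eq_mul] at hx'
    have h2 : g⁻¹ * g₀ ^ h * g ∈ CongruenceSubgroup.Gamma0 N := by
      have := QuotientGroup.eq.mp hx'.symm
      rwa [← mul_assoc] at this
    have h3 : g₀ ^ h • τ₀ = τ₀ := by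
      clear h1 h2 hx'
      induction h with
      | zero => simp
      | succ n ih => rw [pow_succ, mul_smul, hg₀, ih]
    have h4 := zpow_ord_epsHom_eq_one N τ₀ (g₀ ^ h) g h3 h2 θ hθ
    rw [denom_pow_of_smul_eq g₀ τ₀ hg₀, ← pow_mul, mul_comm h 2, pow_mul, ← one_div_pow,
      ← zpow_natCast, ← zpow_mul] at h4
    exact (hprim.zpow_eq_one_iff_dvd _).mp h4

end UFin

open Fermat.Agent.S24 Fermat.Agent.S24.B7a UFin in
/-- (B-UFIN) -/
theorem unifFin : Stmt_UnifFin := by
  intro N _ c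
  by_cases h0 : c = 0
  · obtain ⟨U, hs, hU⟩ := localUnif_of_stab' N c rho (by rw [jFun_rho, h0, map_zero]) _
      ST_smul_rho 3 (by norm_num)
      (by rw [meromorphicOrderAt_jFun_sub, if_pos jFun_rho]; rfl) isPrimitiveRoot_rho
    exact ⟨rho, S * T, U, ST_smul_rho, by rw [hs]; exact isPrimitiveRoot_rho, hU⟩
  by_cases h1 : c = 1728
  · obtain ⟨U, hs, hU⟩ := localUnif_of_stab' N c UpperHalfPlane.I
      (by rw [jFun_I, h1, map_ofNat]) _ S_smul_I 2 (by norm_num)
      (by
        rw [meromorphicOrderAt_jFun_sub, if_neg (by rw [jFun_I]; norm_num), if_pos jFun_I]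
        rfl) isPrimitiveRoot_I
    exact ⟨UpperHalfPlane.I, S, U, S_smul_I, by rw [hs]; exact isPrimitiveRoot_I, hU⟩
  · obtain ⟨τ₀, hτ₀⟩ := jFun_surjective (iota c)
    have hprim : IsPrimitiveRoot (1 / denom ((1 : SL(2, ℤ)) : GL (Fin 2) ℝ) τ₀ ^ 2) 1 := by
      have : denom ((1 : SL(2, ℤ)) : GL (Fin 2) ℝ) τ₀ = 1 := by
        rw [ModularGroup.denom_apply]
        simp
      rw [this]
      simp
    obtain ⟨U, hs, hU⟩ := localUnif_of_stab' N c τ₀ hτ₀ 1 (one_smul _ _) 1 one_pos
      (by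
        rw [meromorphicOrderAt_jFun_sub, if_neg, if_neg]
        · rfl
        · rw [hτ₀, ← map_ofNat iota 1728]
          exact fun h => h1 (iota.toRingHom.injective h)
        · rw [hτ₀]
          exact (map_ne_zero iota).mpr h0) hprim
    exact ⟨τ₀, 1, U, one_smul _ _, by rw [hs]; exact hprim, hU⟩

end Fermat.Agent.ES.Mid.B
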