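import Fermat.Agent.ES.Mid.BInterface

/-!
# ES / Mid / B : glue of package MID-B

`divOfKum_of : Stmt_Count → Stmt_UnifFin → Stmt_UnifCusp → Stmt_FinOrd → Stmt_CuspOrd →
  Stmt_DivOfKum`.
-/

set_option autoImplicit false

namespace Fermat.Agent.ES.Mid.B

open UpperHalfPlane CongruenceSubgroup AlgebraicCurve ModularGroup IntermediateField
open scoped MatrixGroups Manifold
open Fermat.Agent.S24 (Qbar FF funAlg iota jF Cosets LocalUnif IsDiffVal zeroPlaces MerGerm)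
open Fermat.Agent.S24.QX (qExpHom)
attribute [local instance] Fermat.Agent.S24.algQbarComplex

namespace Glue

/-- abstract divisibility: from the counting statement. -/
theorem dvd_ord_of_unif (hC : Stmt_Count) {N : ℕ} (x : FF N) [FiniteDimensional Qbar⟮x⟯ (FF N)]
    [Fintype (Cosets N)] (hn : Module.finrank Qbar⟮x⟯ (FF N) ≤ Fintype.card (Cosets N))
    {π : Equiv.Perm (Cosets N)} (U : LocalUnif Qbar MerGerm.ord x (Cosets N) π)
    (P : Place Qbar (FF N)) (hP : 0 < P.ord x) (u : FF N) (hu : u ≠ 0) (m : ℕ)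
    (H : ∀ (i : Cosets N) (h : ℕ), (π ^ h) i = i →
      ∃ k : ℤ, MerGerm.ord (U.φ i u) = m * k ∧ (U.s : ℤ) ∣ h * k) :
    (m : ℤ) ∣ P.ord u := by
  obtain ⟨i, e, h, he, hh, hfix, hs, hord⟩ :=
    hC Qbar (FF N) MerGerm MerGerm.ord MerGerm.deriv MerGerm.isDiffVal x (Cosets N) hn π U P hP
  obtain ⟨k, hk, hdvd⟩ := H i h hfix
  rw [hord u hu] at hk
  rw [hs] at hdvd
  push_cast at hdvd
  have hhZ : (h : ℤ) ≠ 0 := by exact_mod_cast hh.ne'
  have heZ : (e : ℤ) ≠ 0 := by exact_mod_cast he.ne'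
  rw [mul_comm (e : ℤ) (h : ℤ)] at hdvd
  obtain ⟨k', rfl⟩ := (mul_dvd_mul_iff_left hhZ).1 hdvd
  refine ⟨k', ?_⟩
  have : (e : ℤ) * P.ord u = e * (m * k') := by rw [hk]; ring
  exact mul_left_cancel₀ heZ this

/-- the order of the image of `u = θ₁ / θ₂` under an embedding. -/
theorem ord_phi {N : ℕ} [NeZero N] (φ : FF N →ₐ[Qbar] MerGerm) (ε : funAlg N →ₐ[Qbar] MerGerm)
    (hφ : ∀ θ, φ (qExpHom N θ) = ε θ) {u : FF N} (hu : u ≠ 0) {θ₁ θ₂ : funAlg N} (h2 : θ₂ ≠ 0)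
    (huθ : u * qExpHom N θ₂ = qExpHom N θ₁) :
    MerGerm.ord (φ u) = (ε θ₁).ord - (ε θ₂).ord := by
  have hρ2 : qExpHom N θ₂ ≠ 0 := fun h0 =>
    h2 (Fermat.Agent.S24.QX.qExpHom_injective N (by rw [h0, map_zero]))
  have h1 : φ u * ε θ₂ = ε θ₁ := by rw [← hφ, ← hφ, ← map_mul, huθ]
  have hφu : φ u ≠ 0 := (map_ne_zero φ).mpr hu
  have hε2 : ε θ₂ ≠ 0 := by rw [← hφ]; exact (map_ne_zero φ).mpr hρ2
  have h3 := MerGerm.isDiffVal.map_mul (φ u) (ε θ₂) hφu hε2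
  rw [h1] at h3
  linarith

theorem toPerm_pow_coe {N : ℕ} (g₀ g : SL(2, ℤ)) (h : ℕ)
    (hfix : ((MulAction.toPerm g₀ : Equiv.Perm (Cosets N)) ^ h) (g : Cosets N) = (g : Cosets N)) :
    g⁻¹ * g₀ ^ h * g ∈ Gamma0 N := by
  have h1 : (MulAction.toPerm g₀ : Equiv.Perm (Cosets N)) ^ h = MulAction.toPerm (g₀ ^ h) :=
    (map_pow (MulAction.toPermHom SL(2, ℤ) (Cosets N)) g₀ h).symm
  rw [h1, MulAction.toPerm_apply, MulAction.Quotient.smul_coe, smul_eq_mul] at hfix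
  have := QuotientGroup.eq.mp hfix.symm
  rwa [← mul_assoc] at this

end Glue

open Glue in
theorem divOfKum_of (hC : Stmt_Count) (hUF : Stmt_UnifFin) (hUC : Stmt_UnifCusp)
    (hF : Stmt_FinOrd) (hK : Stmt_CuspOrd) : Stmt_DivOfKum := by
  intro N m _ _ u χ hKum hPE
  obtain ⟨a, b, θ₁, θ₂, ha, hb, a0, b0, θ0, huθ, hpow, hchar⟩ := hKum
  have D : KumData N m χ a b θ₁ θ₂ := ⟨ha, hb, a0, b0, θ0, hpow, hchar, hPE⟩
  have hm0 : m ≠ 0 := NeZero.ne m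
  -- `θ₁ ≠ 0`
  have hθ1 : θ₁ ≠ 0 := by
    rintro rfl
    have hmd2 : MDiff ((θ₂ : funAlg N) : ℍ → ℂ) := Fermat.Agent.S24.funAlg_mdiff θ₂.2
    have h0 : a ^ m * ((θ₂ : funAlg N) : ℍ → ℂ) = 0 := by
      funext z
      have := hpow z
      simpa using this
    rcases (UpperHalfPlane.mul_eq_zero_iff (ha.pow m) hmd2).1 h0 with h | h
    · exact a0 (pow_eq_zero_iff hm0 |>.1 h)
    · exact θ0 (Subtype.ext h)
  have hu : u ≠ 0 := by
    rintro rfl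
    rw [zero_mul] at huθ
    exact hθ1 (Fermat.Agent.S24.QX.qExpHom_injective N (by rw [← huθ, map_zero]))
  refine ⟨hu, fun P => ?_⟩
  obtain ⟨hfd, hn⟩ := Fermat.Agent.S24.finrank_FF_le N
  let _ := Fintype.ofFinite (Cosets N)
  rw [Nat.card_eq_fintype_card] at hn
  obtain ⟨Uc, hUs, hUφ⟩ := hUC N
  have hI : Nonempty (Cosets N) := ⟨((1 : SL(2, ℤ)) : Cosets N)⟩
  have hjinv0 : (jF N)⁻¹ ≠ 0 := by
    intro h0
    have h1 := Uc.w_x ((1 : SL(2, ℤ)) : Cosets N)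
    have h2 : Uc.φ ((1 : SL(2, ℤ)) : Cosets N) (jF N)⁻¹ = 0 := by
      rw [congrArg (Uc.φ ((1 : SL(2, ℤ)) : Cosets N)) h0, map_zero]
    rw [h2, MerGerm.ord_zero] at h1
    have := Uc.s_pos
    omega
  have hjinv : Transcendental Qbar (jF N)⁻¹ := Uc.transcendental MerGerm.isDiffVal hjinv0
  have hj : Transcendental Qbar (jF N) := by
    have := Fermat.Agent.S24.placeCases_transcendental_inv hjinv
    rwa [inv_inv] at this
  rcases Fermat.Agent.S24.place_cases (jF N) hj P with ⟨hP, -⟩ | ⟨-, c, hP, -⟩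
  · -- cusps
    have hfdinv : FiniteDimensional Qbar⟮(jF N)⁻¹⟯ (FF N) := by
      rw [Fermat.Agent.S24.rh_adjoin_inv_eq]; infer_instance
    have hninv : Module.finrank Qbar⟮(jF N)⁻¹⟯ (FF N) ≤ Fintype.card (Cosets N) := by
      rw [Fermat.Agent.S24.rh_adjoin_inv_eq]; exact hn
    refine dvd_ord_of_unif hC _ hninv Uc P hP u hu m fun i h hfix => ?_
    induction i using QuotientGroup.induction_on with | _ g => ?_
    obtain ⟨k, hk, hdvd⟩ := hK N m χ a b θ₁ θ₂ D g h (toPerm_pow_coe T g h hfix)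
    refine ⟨k, ?_, by rw [hUs]; exact hdvd⟩
    rw [ord_phi (Uc.φ (g : Cosets N)) _ (hUφ g) hu θ0 huθ, hk]
  · -- finite points
    obtain ⟨τ₀, g₀, U, hg₀, hprim, hφ⟩ := hUF N c
    have hfdc : FiniteDimensional Qbar⟮jF N - algebraMap Qbar (FF N) c⟯ (FF N) := by
      rw [Fermat.Agent.S24.rh_adjoin_sub_algebraMap_eq]; infer_instance
    have hnc : Module.finrank Qbar⟮jF N - algebraMap Qbar (FF N) c⟯ (FF N)
        ≤ Fintype.card (Cosets N) := by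
      rw [Fermat.Agent.S24.rh_adjoin_sub_algebraMap_eq]; exact hn
    refine dvd_ord_of_unif hC _ hnc U P hP u hu m fun i h hfix => ?_
    induction i using QuotientGroup.induction_on with | _ g => ?_
    obtain ⟨k, hk, hdvd⟩ := hF N m χ a b θ₁ θ₂ D τ₀ g₀ g U.s h hg₀ hprim
      (toPerm_pow_coe g₀ g h hfix)
    refine ⟨k, ?_, hdvd⟩
    rw [ord_phi (U.φ (g : Cosets N)) _ (hφ g) hu θ0 huθ, hk]

end Fermat.Agent.ES.Mid.B
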