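import Fermat.Agent.ES.Mid.Interface2

/-! ES / Mid (MID-LM): small finiteness facts `Stmt_FixedOpen`, `Stmt_HomFinite`. -/

set_option autoImplicit false

namespace Fermat.Agent.ES.Mid.LM

open UpperHalfPlane CongruenceSubgroup
open scoped MatrixGroups
open Fermat.Agent.S24 (Qbar FF)
open ModularCurve

/-- the property "fixed by an open subgroup" on Laurent series. -/
def Good (x : LaurentSeries Qbar) : Prop :=
  ∃ L : IntermediateField ℚ Qbar, FiniteDimensional ℚ L ∧
    ∀ σ : GQ, (∀ a ∈ L, σ a = a) → coeffMap (σ : Qbar →+* Qbar) x = x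

theorem good_binary {x y z : LaurentSeries Qbar} (hx : Good x) (hy : Good y)
    (h : ∀ σ : GQ, coeffMap (σ : Qbar →+* Qbar) x = x → coeffMap (σ : Qbar →+* Qbar) y = y →
      coeffMap (σ : Qbar →+* Qbar) z = z) : Good z := by
  obtain ⟨L₁, h₁, hx⟩ := hx
  obtain ⟨L₂, h₂, hy⟩ := hy
  refine ⟨L₁ ⊔ L₂, IntermediateField.finiteDimensional_sup L₁ L₂, fun σ hσ => ?_⟩
  exact h σ (hx σ fun a ha => hσ a ((le_sup_left : L₁ ≤ L₁ ⊔ L₂) ha))
    (hy σ fun a ha => hσ a ((le_sup_right : L₂ ≤ L₁ ⊔ L₂) ha))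

theorem good_unary {x z : LaurentSeries Qbar} (hx : Good x)
    (h : ∀ σ : GQ, coeffMap (σ : Qbar →+* Qbar) x = x → coeffMap (σ : Qbar →+* Qbar) z = z) :
    Good z := good_binary hx hx fun σ h1 _ => h σ h1

theorem good_algebraMap (a : Qbar) : Good (algebraMap Qbar (LaurentSeries Qbar) a) := by
  have ha : IsIntegral ℚ a := ((AlgebraicClosure.isAlgebraic ℚ).isAlgebraic a).isIntegral
  refine ⟨IntermediateField.adjoin ℚ {a}, IntermediateField.adjoin.finiteDimensional ha,
    fun σ hσ => ?_⟩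
  rw [coeffMap_algebraMap]
  congr 1
  exact hσ a (IntermediateField.mem_adjoin_simple_self ℚ a)

theorem good_coeffEmb (x : LaurentSeries ℚ) : Good (coeffEmb Qbar x) :=
  ⟨⊥, inferInstance, fun σ _ => coeffMap_coeffEmb σ x⟩

theorem good_of_mem (F₀ : IntermediateField ℚ (LaurentSeries ℚ)) {x : LaurentSeries Qbar}
    (hx : x ∈ laurentBaseChange Qbar F₀) : Good x := by
  rw [mem_laurentBaseChange_iff] at hx
  induction hx using Subfield.closure_induction with
  | mem y hy =>
      rcases hy with ⟨a, rfl⟩ | ⟨z, _, rfl⟩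
      · exact good_algebraMap a
      · exact good_coeffEmb z
  | one => exact ⟨⊥, inferInstance, fun σ _ => map_one _⟩
  | add y z _ _ hy hz => exact good_binary hy hz fun σ h1 h2 => by rw [map_add, h1, h2]
  | neg y _ hy => exact good_unary hy fun σ h1 => by rw [map_neg, h1]
  | inv y _ hy => exact good_unary hy fun σ h1 => by rw [map_inv₀, h1]
  | mul y z _ _ hy hz => exact good_binary hy hz fun σ h1 h2 => by rw [map_mul, h1, h2]

theorem fixedOpen : Stmt_FixedOpen := by
  intro N u
  obtain ⟨L, hL, h⟩ := good_of_mem (modularFunctionFieldFull N) u.2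
  exact ⟨L, hL, fun σ hσ => Subtype.ext (by rw [coe_gal]; exact h σ hσ)⟩

/-- homs from a finitely generated group to a finite group form a finite set. -/
theorem finite_addHom_of_fg (G : Type*) [Group G] [hG : Group.FG G] (B : Type*) [AddCommGroup B]
    [Finite B] : Finite (Additive G →+ B) := by
  obtain ⟨S, hS⟩ := Group.fg_def.mp hG
  refine Finite.of_injective (fun (χ : Additive G →+ B) (s : S) => χ (Additive.ofMul (s : G))) ?_
  intro χ χ' h
  have hmon : (AddMonoidHom.toMultiplicativeRight χ) = (AddMonoidHom.toMultiplicativeRight χ') := by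
    refine MonoidHom.eq_of_eqOn_dense hS ?_
    intro s hs
    exact congrArg Multiplicative.ofAdd (congrFun h ⟨s, hs⟩)
  exact AddMonoidHom.toMultiplicativeRight.injective hmon

theorem fg_SL2Z : Group.FG SL(2, ℤ) := by
  rw [Group.fg_def]
  refine ⟨{ModularGroup.S, ModularGroup.T}, ?_⟩
  simpa using SpecialLinearGroup.SL2Z_generators

theorem homFinite : Stmt_HomFinite := by
  intro N m _ _
  have := fg_SL2Z
  have : Group.FG (Gamma0 N) := Subgroup.fg_of_index_ne_zero (Gamma0 N)
  exact finite_addHom_of_fg (Gamma0 N) (ZMod m)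

end Fermat.Agent.ES.Mid.LM
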