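import Fermat.Agent.ES.Mid.HGlue
import Fermat.Agent.ES.Mid.HF3
import Fermat.Agent.ES.Mid.IntRep

/-!
# ES / Mid / H : glue, corrected — `Stmt_Hecke` from the packages `HF*`, `HA*`, `InvRat`
and the (true) statement `Stmt_IntRep'` (helper23)

`Stmt_IntRep` is false for constants; here the constant `c` of `Stmt_IntRep'` is taken care of by
`κ = σ²(c) c^ℓ / σ(c)^{ℓ+1}`, a unit of `A` which is `≡ 1` modulo the maximal ideal.
-/

set_option autoImplicit false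

namespace Fermat.Agent.ES.Mid.HGF

open UpperHalfPlane CongruenceSubgroup AlgebraicCurve
open scoped MatrixGroups Manifold
open Fermat.Agent.S24 (Qbar FF funAlg iota)
open Fermat.Agent.S24.QX (qExpHom cmI qExpFun)
open Fermat.Agent.ES.Mid.HG
attribute [local instance] Fermat.Agent.S24.algQbarComplex

/-! ### the constant `κ` -/

theorem exists_pow_fix (σ : GQ) (c : Qbar) : ∃ n : ℕ, 0 < n ∧ (σ ^ n) c = c := by
  have hint : IsIntegral ℚ c := (AlgebraicClosure.isAlgebraic ℚ).isIntegral.isIntegral c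
  have hmem : ∀ i : ℕ, (σ ^ i) c ∈ (minpoly ℚ c).rootSet Qbar := by
    intro i
    rw [Polynomial.mem_rootSet]
    refine ⟨minpoly.ne_zero hint, ?_⟩
    have := Polynomial.aeval_algHom_apply ((σ ^ i : GQ) : Qbar →ₐ[ℚ] Qbar) c (minpoly ℚ c)
    rw [minpoly.aeval, map_zero] at this
    exact this
  have hfin : Finite ((minpoly ℚ c).rootSet Qbar) := Polynomial.rootSet_finite _ _
  obtain ⟨i, j, hij, h⟩ := Finite.exists_ne_map_eq_of_infinite
    (fun i : ℕ => (⟨(σ ^ i) c, hmem i⟩ : (minpoly ℚ c).rootSet Qbar))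
  have h' : (σ ^ i) c = (σ ^ j) c := congrArg Subtype.val h
  have key : ∀ i j : ℕ, i < j → (σ ^ i) c = (σ ^ j) c → ∃ n : ℕ, 0 < n ∧ (σ ^ n) c = c := by
    intro i j hij h
    refine ⟨j - i, by omega, ?_⟩
    have hj : j = i + (j - i) := by omega
    rw [hj, pow_add, AlgEquiv.mul_apply] at h
    exact ((σ ^ i).injective h).symm
  rcases Nat.lt_or_gt_of_ne hij with h1 | h1
  · exact key i j h1 h'
  · exact key j i h1 h'.symm

variable (A : ValuationSubring Qbar)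

theorem not_mem_mul {x y : Qbar} (hx : x ∉ A) (hy : y ∉ A) : x * y ∉ A := by
  intro h
  have hx0 : x ≠ 0 := by rintro rfl; exact hx A.zero_mem
  have hx' : x⁻¹ ∈ A := (A.mem_or_inv_mem x).resolve_left hx
  apply hy
  have : y = x⁻¹ * (x * y) := by field_simp
  rw [this]
  exact A.mul_mem _ _ hx' h

theorem pow_mem_decomp {σ : GQ} (hσ : σ ∈ A.decompositionSubgroup ℚ) (n : ℕ) :
    σ ^ n ∈ A.decompositionSubgroup ℚ := Subgroup.pow_mem _ hσ n

theorem not_mem_of_not_mem {σ : GQ} (hσ : σ ∈ A.decompositionSubgroup ℚ) {x : Qbar} (hx : x ∉ A) :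
    σ x ∉ A := by
  intro h
  apply hx
  have := HF3.sigma_mem A σ⁻¹ (Subgroup.inv_mem _ hσ) h
  rwa [← AlgEquiv.mul_apply, inv_mul_cancel, AlgEquiv.one_apply] at this

theorem sigma_div_mem {σ : GQ} (hσ : σ ∈ A.decompositionSubgroup ℚ) {c : Qbar} (hc : c ≠ 0) :
    σ c / c ∈ A := by
  by_contra hw
  have key : ∀ n : ℕ, (σ ^ (n + 1)) c / c ∉ A := by
    intro n
    induction n with
    | zero => simpa using hw
    | succ n ih =>
      have h1 : (σ ^ (n + 1 + 1)) c / c = (σ ^ (n + 1)) (σ c / c) * ((σ ^ (n + 1)) c / c) := by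
        have h2 : (σ ^ (n + 1)) c ≠ 0 := (map_ne_zero_iff _ (σ ^ (n + 1)).injective).mpr hc
        rw [pow_succ σ (n + 1), AlgEquiv.mul_apply, map_div₀]
        field_simp
      rw [h1]
      exact not_mem_mul A (not_mem_of_not_mem A (pow_mem_decomp A hσ _) hw) ih
  obtain ⟨n, hn, hfix⟩ := exists_pow_fix σ c
  obtain ⟨m, rfl⟩ : ∃ m, n = m + 1 := ⟨n - 1, by omega⟩
  apply key m
  rw [hfix, div_self hc]
  exact A.one_mem

/-- the constant `σ²(c) c^ℓ / σ(c)^{ℓ+1}` is an element of `A` congruent to `1`. -/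
theorem cstES {ℓ : ℕ} {σ : GQ} (hσ : A.IsFrobeniusAt σ ℓ) {c : Qbar} (hc : c ≠ 0) :
    ∃ κ : A, (κ : Qbar) * σ c ^ (ℓ + 1) = σ (σ c) * c ^ ℓ ∧ IsLocalRing.residue A κ = 1 := by
  have hD := hσ.mem_decompositionSubgroup
  have hσc : σ c ≠ 0 := by simpa using hc
  have hσσc : σ (σ c) ≠ 0 := by simpa using hσc
  let w : A := ⟨σ c / c, sigma_div_mem A hD hc⟩
  have hw' : c / σ c ∈ A := by
    have := sigma_div_mem A (Subgroup.inv_mem _ hD) hσc
    rwa [← AlgEquiv.mul_apply, inv_mul_cancel, AlgEquiv.one_apply] at this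
  let w' : A := ⟨c / σ c, hw'⟩
  have hww : w * w' = 1 := Subtype.ext (by
    show σ c / c * (c / σ c) = 1
    field_simp)
  refine ⟨HF3.sA A σ hD w * w' ^ ℓ, ?_, ?_⟩
  · show σ (σ c / c) * (c / σ c) ^ ℓ * σ c ^ (ℓ + 1) = σ (σ c) * c ^ ℓ
    rw [map_div₀, div_pow, pow_succ (σ c) ℓ]
    have h3 : σ c ^ ℓ ≠ 0 := pow_ne_zero _ hσc
    field_simp
  · rw [map_mul, map_pow, HF3.residue_sA A σ ℓ hσ, ← mul_pow, ← map_mul, hww, map_one, one_pow]

/-! ### `formalN` of a constant -/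

section Const

variable {R : Type*} [CommRing R]

theorem tw_C (ζ : Rˣ) (d : R) : tw ζ (HahnSeries.C d : LaurentSeries R) = HahnSeries.C d := by
  ext n
  rw [tw_coeff, HahnSeries.C_apply, HahnSeries.coeff_single]
  split_ifs with h
  · subst h; simp
  · simp

theorem compress_C (ℓ : ℕ) [NeZero ℓ] (d : R) :
    compress ℓ (HahnSeries.C d : LaurentSeries R) = HahnSeries.C d := by
  ext n
  rw [compress_coeff, HahnSeries.C_apply, HahnSeries.coeff_single, HahnSeries.coeff_single]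
  have hℓ : (ℓ : ℤ) ≠ 0 := by exact_mod_cast NeZero.ne ℓ
  by_cases h : n = 0
  · subst h; simp
  · rw [if_neg h, if_neg (mul_ne_zero hℓ h)]

theorem formalN_C (ℓ : ℕ) [NeZero ℓ] (ζ : Rˣ) (d : R) :
    formalN ℓ ζ (HahnSeries.C d : LaurentSeries R) = HahnSeries.C (d ^ (ℓ + 1)) := by
  unfold formalN twProd
  simp only [tw_C, Finset.prod_const, Finset.card_range]
  rw [ModularCurve.qExpand_C, ← map_pow, compress_C, ← map_mul, pow_succ']

end Const

/-! ### constants in `F_N` -/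

section ConstFF

variable {N : ℕ}

theorem coe_const (c : Qbar) :
    ((algebraMap Qbar (FF N) c : FF N) : LaurentSeries Qbar) = HahnSeries.C c := by
  have h1 : ((algebraMap Qbar (FF N) c : FF N) : LaurentSeries Qbar)
      = algebraMap Qbar (LaurentSeries Qbar) c := rfl
  rw [h1, ModularCurve.algebraMap_laurentSeries_eq_single, HahnSeries.C_apply]

theorem gal_const (σ : GQ) (c : Qbar) :
    gal N σ (algebraMap Qbar (FF N) c) = algebraMap Qbar (FF N) (σ c) := by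
  apply Subtype.ext
  rw [coe_gal, coe_const, coe_const, HahnSeries.C_apply, HahnSeries.C_apply,
    ModularCurve.coeffMap_single]
  rfl

variable {ℓ : ℕ} [NeZero ℓ] {ζ : Qbarˣ}
  (hmem : ∀ u : FF N, formalN ℓ ζ (u : LaurentSeries Qbar) ∈ ModularCurve.modularFunctionFieldBar N)

theorem mkN_const (c : Qbar) :
    mkN hmem (algebraMap Qbar (FF N) c) = algebraMap Qbar (FF N) (c ^ (ℓ + 1)) := by
  apply Subtype.ext
  rw [coe_mkN, coe_const, coe_const, formalN_C]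

end ConstFF

/-! ### (P3), corrected -/

theorem cong_mkN' (hInt : Stmt_IntRep') (hcong : Stmt_HF_cong) (hmul : Stmt_HF_mul)
    (N : ℕ) [NeZero N] {ℓ : ℕ} [NeZero ℓ] (hℓ : ℓ.Prime)
    (ζ : Qbarˣ) (hζ : IsPrimitiveRoot ζ ℓ)
    (hmem : ∀ u : FF N,
      formalN ℓ ζ (u : LaurentSeries Qbar) ∈ ModularCurve.modularFunctionFieldBar N)
    (A : ValuationSubring Qbar) (hA : A.LiesOverPrime ℓ) (σ : GQ) (hσ : A.IsFrobeniusAt σ ℓ)
    (u : FF N) (hu : u ≠ 0) :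
    CongOne N A (gal N σ (gal N σ u) * u ^ ℓ * (mkN hmem (gal N σ u))⁻¹) := by
  obtain ⟨c, y₁, y₂, θ₁, θ₂, hc, hy₁, hy₂, hu12, hr₁, hr₂⟩ := hInt N A u hu
  obtain ⟨κ, hκ, hκ1⟩ := cstES A hσ hc
  obtain ⟨a₁, a₂, w, ha₁, ha₂, hw, hrw, hra⟩ := hcong ℓ hℓ A hA σ hσ ζ hζ y₁
  obtain ⟨b₁, b₂, w', hb₁, hb₂, hw', hrw', hrb⟩ := hcong ℓ hℓ A hA σ hσ ζ hζ y₂
  set X₁ : FF N := qExpHom N θ₁ with hX₁
  set X₂ : FF N := qExpHom N θ₂ with hX₂
  set K : Qbar →+* FF N := algebraMap Qbar (FF N) with hK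
  have hκC : ModularCurve.coeffMap A.subtype (HahnSeries.C κ) = ((K (κ : Qbar) : FF N) :
      LaurentSeries Qbar) := by
    rw [hK, coe_const, HahnSeries.C_apply, HahnSeries.C_apply, ModularCurve.coeffMap_single]
    rfl
  have hκR : ModularCurve.coeffMap (IsLocalRing.residue A) (HahnSeries.C κ) = 1 := by
    rw [HahnSeries.C_apply, ModularCurve.coeffMap_single, hκ1]
    rfl
  -- the two series, as elements of `F_N`
  have hY1 : ModularCurve.coeffMap A.subtype (HahnSeries.C κ * (a₂ * y₁ ^ ℓ * w'))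
      = ((K (κ : Qbar) * (gal N σ (gal N σ X₁) * X₁ ^ ℓ * mkN hmem (gal N σ X₂)) : FF N) :
        LaurentSeries Qbar) := by
    rw [map_mul, map_mul, map_mul, map_pow, ha₂, ha₁, hw', hb₁, hy₁, hy₂, hκC]
    rfl
  have hY2 : ModularCurve.coeffMap A.subtype (b₂ * y₂ ^ ℓ * w)
      = ((gal N σ (gal N σ X₂) * X₂ ^ ℓ * mkN hmem (gal N σ X₁) : FF N) : LaurentSeries Qbar) := by
    rw [map_mul, map_mul, map_pow, hb₂, hb₁, hw, ha₁, hy₁, hy₂]
    rfl
  refine ⟨HahnSeries.C κ * (a₂ * y₁ ^ ℓ * w'), b₂ * y₂ ^ ℓ * w, ?_, ?_, ?_, ?_, ?_⟩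
  · rw [hY1]; exact Subtype.property _
  · rw [hY2]; exact Subtype.property _
  · rw [hY1, hY2]
    have hgu : gal N σ u ≠ 0 := by
      simpa using hu
    have h0 : mkN hmem (gal N σ u) ≠ 0 := mkN_ne_zero hmem hmul hζ hgu
    have e1 : gal N σ (gal N σ u) * gal N σ (gal N σ X₂)
        = K (σ (σ c)) * gal N σ (gal N σ X₁) := by
      rw [← map_mul, ← map_mul, hu12, map_mul, map_mul, gal_const, gal_const]
    have e2 : mkN hmem (gal N σ u) * mkN hmem (gal N σ X₂)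
        = K (σ c ^ (ℓ + 1)) * mkN hmem (gal N σ X₁) := by
      rw [← mkN_mul hmem hmul hζ, ← map_mul, hu12, map_mul, gal_const, mkN_mul hmem hmul hζ,
        mkN_const]
    have e3 : u ^ ℓ * X₂ ^ ℓ = K (c ^ ℓ) * X₁ ^ ℓ := by
      rw [← mul_pow, hu12, mul_pow, map_pow]
    have e4 : K (κ : Qbar) * K (σ c ^ (ℓ + 1)) = K (σ (σ c)) * K (c ^ ℓ) := by
      rw [← map_mul, ← map_mul, hκ]
    have key : gal N σ (gal N σ u) * u ^ ℓ * (mkN hmem (gal N σ u))⁻¹
          * (gal N σ (gal N σ X₂) * X₂ ^ ℓ * mkN hmem (gal N σ X₁))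
        = K (κ : Qbar) * (gal N σ (gal N σ X₁) * X₁ ^ ℓ * mkN hmem (gal N σ X₂)) := by
      have hσc : σ c ≠ 0 := by simpa using hc
      have hK0 : K (σ c ^ (ℓ + 1)) ≠ 0 := by
        rw [Ne, map_eq_zero]
        exact pow_ne_zero _ hσc
      -- multiply by the nonzero `K (σ c ^ (ℓ+1)) * mkN (σ u)`
      apply mul_left_cancel₀ (mul_ne_zero hK0 h0)
      calc K (σ c ^ (ℓ + 1)) * mkN hmem (gal N σ u) * (gal N σ (gal N σ u) * u ^ ℓ
              * (mkN hmem (gal N σ u))⁻¹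
              * (gal N σ (gal N σ X₂) * X₂ ^ ℓ * mkN hmem (gal N σ X₁)))
          = (mkN hmem (gal N σ u) * (mkN hmem (gal N σ u))⁻¹)
              * (gal N σ (gal N σ u) * gal N σ (gal N σ X₂)) * (u ^ ℓ * X₂ ^ ℓ)
              * (K (σ c ^ (ℓ + 1)) * mkN hmem (gal N σ X₁)) := by ring
        _ = (K (σ (σ c)) * K (c ^ ℓ)) * gal N σ (gal N σ X₁) * X₁ ^ ℓ
              * (mkN hmem (gal N σ u) * mkN hmem (gal N σ X₂)) := by
            rw [mul_inv_cancel₀ h0, e1, e3, ← e2]; ring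
        _ = K (σ c ^ (ℓ + 1)) * mkN hmem (gal N σ u) * (K (κ : Qbar)
              * (gal N σ (gal N σ X₁) * X₁ ^ ℓ * mkN hmem (gal N σ X₂))) := by
            rw [← e4]; ring
    exact congrArg Subtype.val key
  · rw [map_mul, hκR, one_mul, map_mul, map_mul, map_pow, map_mul, map_mul, map_pow, hrw, hrw']
    ring
  · rw [map_mul, map_mul, map_pow, hrw]
    exact mul_ne_zero (mul_ne_zero (hrb hr₂) (pow_ne_zero _ hr₂))
      (mul_ne_zero (hra hr₁) (pow_ne_zero _ hr₁))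

end Fermat.Agent.ES.Mid.HGF

namespace Fermat.Agent.ES.Mid

open Fermat.Agent.S24 (Qbar FF)

open HG HGF in
/-- **(H)** the multiplicative Hecke operator (corrected glue: no false hypothesis). -/
theorem hecke' (hmul : Stmt_HF_mul) (hmap : Stmt_HF_map) (hind : Stmt_HF_indep)
    (hcong : Stmt_HF_cong) (hchar : Stmt_HA_char) (hmd : Stmt_HA_mdiff) (hrep : Stmt_HA_rep)
    (hgr : Stmt_HA_growth) (hI : Stmt_InvRat) : Stmt_Hecke := by
  intro N _ ℓ hℓN
  have hℓ : (ℓ : ℕ).Prime := ℓ.2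
  have : NeZero (ℓ : ℕ) := ⟨hℓ.ne_zero⟩
  obtain ⟨ζ₀, hζ₀⟩ := HasEnoughRootsOfUnity.exists_primitiveRoot Qbar (ℓ : ℕ)
  obtain ⟨ζ, rfl⟩ := hζ₀.isUnit (NeZero.ne _)
  have hζ : IsPrimitiveRoot ζ (ℓ : ℕ) := IsPrimitiveRoot.coe_units_iff.mp hζ₀
  have hmem := formalN_mem hI hchar hmd hrep hgr hmul N hℓ hℓN ζ hζ
  refine ⟨mkN hmem, ?_, ?_, ?_⟩
  · intro m _ u χ h
    exact kum_mkN hI hchar hmd hrep hgr hmul N hℓ hℓN ζ hζ hmem m u χ h
  · intro σ u
    exact mkN_gal hmem hmap hind hζ σ u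
  · intro A hA σ hσ u hu
    exact cong_mkN' INT.intRep' hcong hmul N hℓ ζ hζ hmem A hA σ hσ u hu

end Fermat.Agent.ES.Mid
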