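import Fermat.Agent.ES.Mid.Interface2
import Fermat.Agent.ES.Root
import Fermat.Agent.S24.FunAlgProps
import Fermat.Agent.S24.FunAlgInv
import Fermat.Agent.S24.FunAlgCusp

/-!
# ES / Mid, package E (task MID-E, helper35): the kernel of `c_m`

`kumKer : Stmt_RootUHP → Stmt_InvRat → Stmt_RootSeries → Stmt_KumKer`:
if `u ∈ F_N` has trivial Kummer character then `u` is an `m`-th power in `F_N`.

Reusable lemmas (namespace `Fermat.Agent.ES.Mid.E`): `eq_zero_or_eq_zero` (holomorphic functions on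
`ℍ` form a domain), `order_ne_top`, `order_dvd`, `mdiff_comp_smul`, `bdd_root`, `periodic_of_T`,
`Rep_pow`, `exists_rep`.
-/

set_option autoImplicit false

namespace Fermat.Agent.ES.Mid.E

open UpperHalfPlane CongruenceSubgroup AlgebraicCurve Filter Topology
open scoped MatrixGroups Manifold
open Fermat.Agent.S24 (Qbar FF funAlg iota)
open Fermat.Agent.S24.QX (qExpHom cmI Rep Nice qL qExpFun)
attribute [local instance] Fermat.Agent.S24.algQbarComplex

/-! ### holomorphic functions on `ℍ` -/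

theorem analyticOnNhd_of_mdiff {f : ℍ → ℂ} (hf : MDiff f) :
    AnalyticOnNhd ℂ (f ∘ ofComplex) {z : ℂ | 0 < z.im} :=
  (UpperHalfPlane.mdifferentiable_iff.1 hf).analyticOnNhd isOpen_upperHalfPlaneSet

theorem isPreconnected_uhp : IsPreconnected {z : ℂ | 0 < z.im} :=
  (convex_halfSpace_im_gt 0).isPreconnected

theorem eq_zero_of_forall_comp {f : ℍ → ℂ} (h : ∀ z ∈ {z : ℂ | 0 < z.im}, (f ∘ ofComplex) z = 0) :
    f = 0 := by
  funext z
  have := h z z.im_pos
  simpa using this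

/-- the ring of holomorphic functions on `ℍ` is a domain. -/
theorem eq_zero_or_eq_zero {f g : ℍ → ℂ} (hf : MDiff f) (hg : MDiff g)
    (h : ∀ z, f z * g z = 0) : f = 0 ∨ g = 0 := by
  rcases (analyticOnNhd_of_mdiff hf).eq_zero_or_eq_zero_of_mul_eq_zero (analyticOnNhd_of_mdiff hg)
    (fun z _ => h (ofComplex z)) isPreconnected_uhp with h1 | h1
  · exact Or.inl (eq_zero_of_forall_comp h1)
  · exact Or.inr (eq_zero_of_forall_comp h1)

theorem order_ne_top {f : ℍ → ℂ} (hf : MDiff f) (h0 : f ≠ 0) (z : ℍ) :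
    analyticOrderAt (f ∘ ofComplex) (z : ℂ) ≠ ⊤ := by
  intro htop
  rw [analyticOrderAt_eq_top] at htop
  apply h0
  apply eq_zero_of_forall_comp
  exact (analyticOnNhd_of_mdiff hf).eqOn_zero_of_preconnected_of_eventuallyEq_zero
    isPreconnected_uhp z.im_pos htop

theorem analyticAt_of_mdiff {f : ℍ → ℂ} (hf : MDiff f) (z : ℍ) :
    AnalyticAt ℂ (f ∘ ofComplex) (z : ℂ) := analyticOnNhd_of_mdiff hf z z.im_pos

theorem mdiff_comp_smul {F : ℍ → ℂ} (hF : MDiff F) (g : SL(2, ℤ)) :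
    MDiff (fun τ : ℍ => F (g • τ)) :=
  hF.comp (mdifferentiable_smul (g := (g : GL (Fin 2) ℝ)) (by simp))

/-- orders: `b ^ m * t = c ^ m`, `b, c ≠ 0` implies `m ∣ ord t`. -/
theorem order_dvd {m : ℕ} (hm : 0 < m) {b c t : ℍ → ℂ} (hb : MDiff b) (hc : MDiff c) (ht : MDiff t)
    (hb0 : b ≠ 0) (hc0 : c ≠ 0) (h : ∀ z, b z ^ m * t z = c z ^ m) (z : ℍ) :
    ∃ k : ℕ, analyticOrderAt (t ∘ ofComplex) (z : ℂ) = ((m * k : ℕ) : ℕ∞) := by
  have hfun : (b ∘ ofComplex) ^ m * (t ∘ ofComplex) = (c ∘ ofComplex) ^ m := by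
    funext w
    exact h (ofComplex w)
  have hord := congrArg (fun F => analyticOrderAt F (z : ℂ)) hfun
  rw [analyticOrderAt_mul ((analyticAt_of_mdiff hb z).pow m) (analyticAt_of_mdiff ht z),
    analyticOrderAt_pow (analyticAt_of_mdiff hb z), analyticOrderAt_pow (analyticAt_of_mdiff hc z)]
    at hord
  obtain ⟨β, hβ⟩ := ENat.ne_top_iff_exists.mp (order_ne_top hb hb0 z)
  obtain ⟨γ, hγ⟩ := ENat.ne_top_iff_exists.mp (order_ne_top hc hc0 z)
  rw [← hβ, ← hγ] at hord
  have htt : analyticOrderAt (t ∘ ofComplex) (z : ℂ) ≠ ⊤ := by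
    intro htop
    rw [htop] at hord
    simp only [add_top] at hord
    exact ENat.natCast_ne_top (m * γ) (by rw [hord]; push_cast; rfl)
  obtain ⟨τ, hτ⟩ := ENat.ne_top_iff_exists.mp htt
  rw [← hτ] at hord ⊢
  have h2 : m * β + τ = m * γ := by
    have : ((m * β + τ : ℕ) : ℕ∞) = ((m * γ : ℕ) : ℕ∞) := by
      push_cast
      simpa using hord
    exact_mod_cast this
  refine ⟨γ - β, ?_⟩
  congr 1
  have h3 : β ≤ γ := by
    by_contra hlt
    push Not at hlt
    have : m * γ < m * β := Nat.mul_lt_mul_of_pos_left hlt hm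
    omega
  obtain ⟨d, rfl⟩ := Nat.exists_eq_add_of_le h3
  rw [Nat.add_sub_cancel_left]
  rw [Nat.mul_add] at h2
  omega

/-! ### growth -/

theorem le_max_of_pow_le {x C : ℝ} {m : ℕ} (hm : 0 < m) (h : x ^ m ≤ C) :
    x ≤ max 1 C := by
  by_cases h1 : x ≤ 1
  · exact h1.trans (le_max_left _ _)
  · push Not at h1
    exact ((le_self_pow₀ h1.le hm.ne').trans h).trans (le_max_right _ _)

/-- an `m`-th root of a function of moderate growth has moderate growth. -/
theorem bdd_root {m : ℕ} (hm : 0 < m) {H t : ℍ → ℂ} (h : ∀ z, H z ^ m = t z) (k : ℕ)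
    (hb : IsBoundedAtImInfty (fun τ => t τ * ModularForm.discriminant τ ^ k)) :
    IsBoundedAtImInfty (fun τ => H τ * ModularForm.discriminant τ ^ k) := by
  have hΔ := Fermat.Agent.S24.discriminant_pow_bdd (k * (m - 1))
  rw [isBoundedAtImInfty_iff] at hb hΔ ⊢
  obtain ⟨M₁, A₁, h₁⟩ := hb
  obtain ⟨M₂, A₂, h₂⟩ := hΔ
  refine ⟨max 1 (M₁ * M₂), max A₁ A₂, fun z hz => ?_⟩
  apply le_max_of_pow_le hm
  have e : (H z * ModularForm.discriminant z ^ k) ^ m =
      (t z * ModularForm.discriminant z ^ k) * ModularForm.discriminant z ^ (k * (m - 1)) := by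
    obtain ⟨m', rfl⟩ : ∃ m', m = m' + 1 := Nat.exists_eq_succ_of_ne_zero hm.ne'
    rw [mul_pow, h z, Nat.add_sub_cancel, ← pow_mul, mul_assoc, ← pow_add]
    congr 2
    ring
  rw [← norm_pow, e, norm_mul]
  have h1 := h₁ z ((le_max_left _ _).trans hz)
  have h2 := h₂ z ((le_max_right _ _).trans hz)
  exact mul_le_mul h1 h2 (norm_nonneg _) ((norm_nonneg _).trans h1)

/-! ### periodicity -/

theorem periodic_of_T {F : ℍ → ℂ} (h : ∀ z : ℍ, F (ModularGroup.T • z) = F z) :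
    Function.Periodic (F ∘ ofComplex) 1 := by
  intro z
  by_cases hz : 0 < z.im
  · have hz' : 0 < (z + 1).im := by simpa using hz
    simp only [Function.comp_apply]
    rw [ofComplex_apply_of_im_pos hz, ofComplex_apply_of_im_pos hz']
    rw [← h ⟨z, hz⟩, modular_T_smul]
    congr 1
    apply UpperHalfPlane.ext
    simp [add_comm]
  · have hz0 : z.im ≤ 0 := not_lt.mp hz
    have hz' : (z + 1).im ≤ 0 := by simpa using hz0
    simp only [Function.comp_apply]
    rw [ofComplex_apply_of_im_nonpos hz0, ofComplex_apply_of_im_nonpos hz']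

theorem T_mem_Gamma0 (N : ℕ) : ModularGroup.T ∈ Gamma0 N := by
  rw [Gamma0_mem]
  simp [ModularGroup.T]

theorem Rep_pow {x : LaurentSeries ℂ} {f : ℍ → ℂ} (h : Rep x f) (n : ℕ) : Rep (x ^ n) (f ^ n) := by
  induction n with
  | zero =>
    simp only [pow_zero]
    have := Rep.const 1
    rwa [map_one] at this
  | succ n ih => rw [pow_succ, pow_succ]; exact ih.mul h

/-- a holomorphic `1`-periodic function of moderate growth at `i∞` has a `q`-expansion. -/
theorem exists_rep {H : ℍ → ℂ} (hH : MDiff H) (hT : ∀ z : ℍ, H (ModularGroup.T • z) = H z) (k : ℕ)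
    (hb : IsBoundedAtImInfty (fun τ => H τ * ModularForm.discriminant τ ^ k)) :
    ∃ y : LaurentSeries ℂ, Rep y H := by
  have hg : Nice (ModularForm.discriminant ^ k) := Nice.discriminant.pow k
  have hg0 : ∀ τ, (ModularForm.discriminant ^ k) τ ≠ 0 := fun τ =>
    pow_ne_zero _ (ModularForm.discriminant_ne_zero τ)
  have hF : Nice (H * ModularForm.discriminant ^ k) :=
    { mdiff := hH.mul hg.mdiff
      per := by
        have h1 := periodic_of_T hT
        have h2 := hg.per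
        intro z
        have h1' := h1 z
        have h2' := h2 z
        simp only [Function.comp_apply, Pi.mul_apply] at h1' h2' ⊢
        rw [h1', h2']
      bdd := hb }
  have hq : qL (ModularForm.discriminant ^ k) ≠ 0 := by
    rw [Ne, Fermat.Agent.S24.QX.qL_eq_zero_iff hg]
    intro h0
    exact hg0 UpperHalfPlane.I (by rw [h0]; rfl)
  exact ⟨qL (H * ModularForm.discriminant ^ k) / qL (ModularForm.discriminant ^ k),
    Rep.of_mul_eq hg hg0 hF rfl (div_mul_cancel₀ _ hq)⟩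

/-! ### the main theorem -/

theorem kumKer (hR : Stmt_RootUHP) (hI : Stmt_InvRat) (hS : Stmt_RootSeries) : Stmt_KumKer := by
  intro N m _ _ u hK
  obtain ⟨a, b, θ₁, θ₂, ha, hb, ha0, hb0, hθ₂, hu, hpow, hchar⟩ := hK
  have hm : 0 < m := Nat.pos_of_ne_zero (NeZero.ne m)
  obtain ⟨m', hm'⟩ : ∃ m', m = m' + 1 := Nat.exists_eq_succ_of_ne_zero hm.ne'
  -- the function `th`
  set th : funAlg N := θ₁ * θ₂ ^ (m - 1) with hth
  have hθ₂d : MDiff (θ₂ : ℍ → ℂ) := Fermat.Agent.S24.funAlg_mdiff θ₂.2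
  have hthd : MDiff (th : ℍ → ℂ) := Fermat.Agent.S24.funAlg_mdiff th.2
  have hθ₂0 : (θ₂ : ℍ → ℂ) ≠ 0 := fun h => hθ₂ (Subtype.ext h)
  have hth_apply : ∀ z, (th : ℍ → ℂ) z = (θ₁ : ℍ → ℂ) z * (θ₂ : ℍ → ℂ) z ^ (m - 1) := fun z => rfl
  have hc : MDiff (fun z => a z * (θ₂ : ℍ → ℂ) z) := ha.mul hθ₂d
  have hc0 : (fun z => a z * (θ₂ : ℍ → ℂ) z) ≠ 0 := by
    intro h
    rcases eq_zero_or_eq_zero ha hθ₂d (fun z => congrFun h z) with h1 | h1
    · exact ha0 h1
    · exact hθ₂0 h1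
  have hkey : ∀ z, b z ^ m * (th : ℍ → ℂ) z = (a z * (θ₂ : ℍ → ℂ) z) ^ m := by
    intro z
    rw [hth_apply, mul_pow, ← mul_assoc, ← hpow z]
    subst hm'
    rw [Nat.add_sub_cancel]
    ring
  have hth0 : (th : ℍ → ℂ) ≠ 0 := by
    intro h
    have h1 : ∀ z, (a z * (θ₂ : ℍ → ℂ) z) ^ m = 0 := by
      intro z
      rw [← hkey z, h]
      simp
    exact hc0 (funext fun z => pow_eq_zero_iff hm.ne' |>.mp (h1 z))
  -- the root
  obtain ⟨H₀, hH₀d, hH₀⟩ := hR (th : ℍ → ℂ) m hm hthd hth0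
    (order_dvd hm hb hc hthd hb0 hc0 hkey)
  -- normalisation by a root of unity
  obtain ⟨ζ, hζ, hζe⟩ := Fermat.Agent.ES.Root.exists_root_of_unity isPreconnected_uhp hm.ne'
    (analyticOnNhd_of_mdiff (hH₀d.mul hb)) (analyticOnNhd_of_mdiff hc) (by
      intro z _
      simp only [Function.comp_apply, Pi.mul_apply]
      rw [mul_pow, hH₀, mul_comm, hkey])
  have hζ0 : ζ ≠ 0 := by
    rintro rfl
    rw [zero_pow hm.ne'] at hζ
    exact zero_ne_one hζ
  set H : ℍ → ℂ := fun z => ζ⁻¹ * H₀ z with hH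
  have hHd : MDiff H := mdifferentiable_const.mul hH₀d
  have hHpow : ∀ z, H z ^ m = (th : ℍ → ℂ) z := by
    intro z
    rw [hH]
    simp only
    rw [mul_pow, inv_pow, hζ, inv_one, one_mul, hH₀]
  have hHb : ∀ z, H z * b z = a z * (θ₂ : ℍ → ℂ) z := by
    intro z
    have := hζe z z.im_pos
    simp only [Function.comp_apply, Pi.mul_apply, ofComplex_apply] at this
    rw [hH]
    simp only
    rw [mul_assoc, this, inv_mul_cancel_left₀ hζ0]
  -- invariance
  have hinv : ∀ γ ∈ Gamma0 N, ∀ z : ℍ, H (γ • z) = H z := by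
    intro γ hγ
    have hbγ : MDiff (fun z => b (γ • z)) := mdiff_comp_smul hb γ
    have hbγ0 : (fun z => b (γ • z)) ≠ 0 := by
      intro h
      apply hb0
      funext w
      have := congrFun h (γ⁻¹ • w)
      simpa using this
    have h1 : ∀ z, ((H (γ • z) - H z) * b (γ • z)) * b z = 0 := by
      intro z
      have h2 := hchar ⟨γ, hγ⟩ z
      simp only [AddMonoidHom.zero_apply, AddChar.map_zero_eq_one, one_mul] at h2
      have h3 := hHb (γ • z)
      have h4 := hHb z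
      rw [Fermat.Agent.S24.funAlg_invariant θ₂.2 γ hγ z] at h3
      linear_combination b z * h3 - b (γ • z) * h4 + (θ₂ : ℍ → ℂ) z * h2
    have hd1 : MDiff (fun z => H (γ • z) - H z) := (mdiff_comp_smul hHd γ).sub hHd
    rcases eq_zero_or_eq_zero (hd1.mul hbγ) hb h1 with h5 | h5
    · rcases eq_zero_or_eq_zero hd1 hbγ (fun z => congrFun h5 z) with h6 | h6
      · intro z
        exact sub_eq_zero.mp (congrFun h6 z)
      · exact absurd h6 hbγ0
    · exact absurd h5 hb0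
  -- growth
  have hgrowth : Growth H := by
    intro g
    obtain ⟨k, hk⟩ := Fermat.Agent.S24.funAlg_growth th.2 g
    exact ⟨k, bdd_root hm (H := fun τ => H (g • τ)) (t := fun τ => (th : ℍ → ℂ) (g • τ))
      (fun z => hHpow (g • z)) k hk⟩
  -- the `q`-expansion
  obtain ⟨k, hk⟩ := hgrowth 1
  simp only [one_smul] at hk
  obtain ⟨y, hy⟩ := exists_rep hHd (fun z => hinv _ (T_mem_Gamma0 N) z) k hk
  have hym : y ^ m = cmI (qExpFun N th) := by
    have h1 := Rep_pow hy m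
    have h2 : H ^ m = (th : ℍ → ℂ) := funext hHpow
    rw [h2] at h1
    exact h1.unique (Fermat.Agent.S24.QX.qExpFun_rep N th)
  obtain ⟨x₀, rfl⟩ := hS m y (qExpFun N th) hm hym
  obtain ⟨η₁, η₂, hη₂, -, hx₀⟩ := hI N H x₀ hHd hinv hgrowth hy
  have hx₀m : x₀ ^ m = qExpFun N th := by
    apply Fermat.Agent.S24.QX.cmI_injective
    rw [map_pow, hym]
  have hq2 : qExpHom N η₂ ≠ 0 := by
    rw [Ne, map_eq_zero_iff _ (Fermat.Agent.S24.QX.qExpHom_injective N)]
    exact hη₂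
  have hqθ₂ : qExpHom N θ₂ ≠ 0 := by
    rw [Ne, map_eq_zero_iff _ (Fermat.Agent.S24.QX.qExpHom_injective N)]
    exact hθ₂
  set f₀ : FF N := qExpHom N η₁ / qExpHom N η₂ with hf₀
  have hf₀c : (f₀ : LaurentSeries Qbar) = x₀ := by
    have h1 : f₀ * qExpHom N η₂ = qExpHom N η₁ := div_mul_cancel₀ _ hq2
    have h2 : (f₀ : LaurentSeries Qbar) * (qExpHom N η₂ : LaurentSeries Qbar) =
        (qExpHom N η₁ : LaurentSeries Qbar) := by
      rw [← h1]; rfl
    have h3 : (qExpHom N η₂ : LaurentSeries Qbar) ≠ 0 := fun h => hq2 (Subtype.ext h)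
    exact mul_right_cancel₀ h3 (h2.trans hx₀.symm)
  have hf₀m : f₀ ^ m = qExpHom N th := by
    apply Subtype.ext
    show ((f₀ ^ m : FF N) : LaurentSeries Qbar) = qExpFun N th
    rw [← hx₀m, ← hf₀c]
    rfl
  refine ⟨f₀ / qExpHom N θ₂, ?_⟩
  rw [div_pow, hf₀m, hth, map_mul, map_pow, ← hu]
  subst hm'
  rw [Nat.add_sub_cancel]
  field_simp
  ring

end Fermat.Agent.ES.Mid.E
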