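import Fermat.Agent.ES.Mid.AInterface

/-!
# ES / Mid / A-CHAR : a holomorphic function whose `m`-th power is invariant has a character
-/

set_option autoImplicit false

namespace Fermat.Agent.ES.Mid.A

open UpperHalfPlane CongruenceSubgroup AlgebraicCurve Filter Topology Function
open scoped MatrixGroups Manifold

namespace Char

/-- every `m`-th root of unity is a value of `ZMod.stdAddChar`. -/
theorem exists_stdAddChar_eq {m : ℕ} [NeZero m] {ζ : ℂ} (hζ : ζ ^ m = 1) :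
    ∃ j : ZMod m, ZMod.stdAddChar j = ζ := by
  have hprim : IsPrimitiveRoot (Complex.exp (2 * Real.pi * Complex.I / m)) m :=
    Complex.isPrimitiveRoot_exp m (NeZero.ne m)
  obtain ⟨i, _, hi⟩ := hprim.eq_pow_of_pow_eq_one hζ
  refine ⟨((i : ℤ) : ZMod m), ?_⟩
  rw [ZMod.stdAddChar_coe, ← hi, ← Complex.exp_nat_mul]
  congr 1
  push_cast
  ring

/-- `A ^ m = B ^ m` for holomorphic functions on `ℍ` implies `A = ζ B` with `ζ ^ m = 1`. -/
theorem exists_root_of_unity {m : ℕ} [NeZero m] {A B : ℍ → ℂ} (hA : MDiff A) (hB : MDiff B)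
    (h : ∀ z, A z ^ m = B z ^ m) : ∃ c : ℂ, c ^ m = 1 ∧ ∀ z, A z = c * B z := by
  have hm : 0 < m := Nat.pos_of_ne_zero (NeZero.ne m)
  have hprim : IsPrimitiveRoot (Complex.exp (2 * Real.pi * Complex.I / m)) m :=
    Complex.isPrimitiveRoot_exp m (NeZero.ne m)
  have hprod : ∏ ζ ∈ Polynomial.nthRootsFinset m (1 : ℂ), (A - ζ • B) = 0 := by
    ext z
    rw [Finset.prod_apply]
    have h1 := hprim.pow_sub_pow_eq_prod_sub_mul (A z) (B z) hm
    simp only [Pi.sub_apply, Pi.smul_apply, smul_eq_mul, Pi.zero_apply]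
    rw [← h1, h z, sub_self]
  obtain ⟨ζ, hζ, h0⟩ := (UpperHalfPlane.prod_eq_zero_iff
    (fun ζ _ => hA.sub (hB.const_smul ζ))).1 hprod
  refine ⟨ζ, (Polynomial.mem_nthRootsFinset hm 1).1 hζ, fun z => ?_⟩
  have := congrFun h0 z
  simp only [Pi.sub_apply, Pi.smul_apply, smul_eq_mul, Pi.zero_apply] at this
  exact sub_eq_zero.1 this

end Char

theorem a_char : Stmt_A_Char := by
  intro N m _ _ h hh h0 hinv
  have hex : ∀ γ : Gamma0 N, ∃ j : ZMod m, ∀ z : ℍ,
      h ((γ : SL(2, ℤ)) • z) = ZMod.stdAddChar j * h z := by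
    intro γ
    obtain ⟨c, hc, hcz⟩ := Char.exists_root_of_unity (m := m)
      (Fermat.Agent.S24.B7a.mdiff_comp_smul hh (γ : SL(2, ℤ))) hh (fun z => hinv γ γ.2 z)
    obtain ⟨j, hj⟩ := Char.exists_stdAddChar_eq hc
    exact ⟨j, fun z => by rw [hj]; exact hcz z⟩
  choose c hc using hex
  obtain ⟨z₀, hz₀⟩ : ∃ z, h z ≠ 0 := by
    by_contra hcon
    push Not at hcon
    exact h0 (funext hcon)
  have hadd : ∀ γ γ' : Gamma0 N, c (γ * γ') = c γ + c γ' := by
    intro γ γ'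
    apply ZMod.injective_stdAddChar
    rw [AddChar.map_add_eq_mul]
    have h1 := hc (γ * γ') z₀
    rw [Subgroup.coe_mul, mul_smul, hc γ, hc γ', ← mul_assoc] at h1
    exact (mul_right_cancel₀ hz₀ h1).symm
  refine ⟨AddMonoidHom.mk' (fun a => c (Additive.toMul a)) fun a b => hadd _ _, fun γ z => ?_⟩
  exact hc γ z

end Fermat.Agent.ES.Mid.A
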