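import Fermat.Agent.ES.Mid.AInterface

/-! ES / Mid / A (A-CUSPMER): a periodic holomorphic function of moderate growth is a meromorphic
function of `q_M`. -/

set_option autoImplicit false

namespace Fermat.Agent.ES.Mid.A

open UpperHalfPlane CongruenceSubgroup AlgebraicCurve Filter Topology Function
open scoped MatrixGroups Manifold
local notation "𝕢" => Periodic.qParam

namespace CuspMer

theorem periodic_comp_ofComplex {h : ℝ} {f : ℍ → ℂ} (hf : ∀ z : ℍ, f (h +ᵥ z) = f z) :
    Periodic (f ∘ ofComplex) (h : ℂ) := by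
  intro w
  simp only [comp_apply]
  by_cases hw : 0 < w.im
  · have hw' : 0 < (w + h).im := by simpa using hw
    rw [ofComplex_apply_of_im_pos hw, ofComplex_apply_of_im_pos hw', ← hf ⟨w, hw⟩]
    congr 1
    ext
    simp [add_comm]
  · have hw' : ¬ 0 < (w + h).im := by simpa using hw
    rw [ofComplex_apply_of_im_nonpos (not_lt.1 hw), ofComplex_apply_of_im_nonpos (not_lt.1 hw')]

theorem discriminant_vadd (M : ℕ) (z : ℍ) :
    ModularForm.discriminant ((M : ℝ) +ᵥ z) = ModularForm.discriminant z := by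
  have h := Fermat.Agent.S24.discriminant_smul (ModularGroup.T ^ (M : ℤ)) z
  rw [modular_T_zpow_smul] at h
  have h10 : (ModularGroup.T ^ (M : ℤ) : SL(2, ℤ)) 1 0 = 0 := by
    rw [ModularGroup.coe_T_zpow]; rfl
  have h11 : (ModularGroup.T ^ (M : ℤ) : SL(2, ℤ)) 1 1 = 1 := by
    rw [ModularGroup.coe_T_zpow]; rfl
  have hd : denom ((ModularGroup.T ^ (M : ℤ) : SL(2, ℤ)) : GL (Fin 2) ℝ) z = 1 := by
    rw [ModularGroup.denom_apply, h10, h11]
    simp
  rw [hd, one_zpow, one_mul] at h
  simpa using h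

end CuspMer

theorem a_cuspMer : Stmt_A_CuspMer := by
  intro M _ H k hH hper hbdd
  have hM : (0 : ℝ) < M := by exact_mod_cast Nat.pos_of_ne_zero (NeZero.ne M)
  set Fn : ℍ → ℂ := fun z => H z * ModularForm.discriminant z ^ k with hFn
  set Dn : ℍ → ℂ := fun z => ModularForm.discriminant z ^ k with hDn
  have hFper : Periodic (Fn ∘ ofComplex) ((M : ℝ) : ℂ) :=
    CuspMer.periodic_comp_ofComplex fun z => by
      simp only [hFn, hper z, CuspMer.discriminant_vadd]
  have hDper : Periodic (Dn ∘ ofComplex) ((M : ℝ) : ℂ) :=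
    CuspMer.periodic_comp_ofComplex fun z => by
      simp only [hDn, CuspMer.discriminant_vadd]
  have hDmd : MDiff Dn := Fermat.Agent.S24.discriminant_mdiff.pow k
  have hFmd : MDiff Fn := hH.mul hDmd
  have hFan := analyticAt_cuspFunction_zero hM hFper hFmd hbdd
  have hDan := analyticAt_cuspFunction_zero hM hDper hDmd
    (Fermat.Agent.S24.discriminant_pow_bdd k)
  refine ⟨fun x => cuspFunction M Fn x / cuspFunction M Dn x,
    hFan.meromorphicAt.div hDan.meromorphicAt, fun z => ?_⟩
  show cuspFunction M Fn (𝕢 M z) / cuspFunction M Dn (𝕢 M z) = H z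
  rw [eq_cuspFunction z hM.ne' hFper, eq_cuspFunction z hM.ne' hDper]
  exact mul_div_cancel_right₀ _ (pow_ne_zero _ (ModularForm.discriminant_ne_zero z))

end Fermat.Agent.ES.Mid.A
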