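import Fermat.Agent.ES.Mid.AInterface

/-! # ES / Mid / A-ELL : the character is trivial on elements with a fixed point (helper72) -/

set_option autoImplicit false

namespace Fermat.Agent.ES.Mid.A

open UpperHalfPlane CongruenceSubgroup AlgebraicCurve Filter Topology Function
open scoped MatrixGroups Manifold
open Fermat.Agent.S24 (Qbar FF funAlg iota MerGerm IsVal liftHom liftHom_apply)
open Fermat.Agent.S24.QX (qExpHom qExpHom_injective)
attribute [local instance] Fermat.Agent.S24.algQbarComplex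
local notation "𝕢" => Periodic.qParam

namespace Ell

/-- the subgroup `{k | c ^ k = 1}` of `ℤ` -/
def killSub (c : ℂ) (hc : c ≠ 0) : AddSubgroup ℤ where
  carrier := {k | c ^ k = 1}
  add_mem' := by
    intro a b ha hb
    simp only [Set.mem_ofPred_eq] at *
    rw [zpow_add₀ hc, ha, hb, one_mul]
  zero_mem' := zpow_zero c
  neg_mem' := by
    intro a ha
    simp only [Set.mem_ofPred_eq] at *
    rw [zpow_neg, ha, inv_one]

end Ell

theorem a_ell (hVD : Stmt_A_VD) (hT : Stmt_A_Twist) (hI : Stmt_A_EllInv) : Stmt_A_Ell := by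
  intro N m _ _ u R γ z₀ ζ hγ hfix hζ
  have hm0 : m ≠ 0 := NeZero.ne m
  have hc0 : (1 / denom γ z₀ ^ 2 : ℂ) ≠ 0 :=
    one_div_ne_zero (pow_ne_zero _ (denom_ne_zero _ _))
  have hy : qExpHom N R.θ₂ ≠ 0 := (map_ne_zero_iff _ (qExpHom_injective N)).2 R.θ₂_ne
  obtain ⟨k, hkD, hk⟩ := hVD N m (Vfin N z₀) (isVal_Vfin N z₀) u R.isDiv (Ell.killSub _ hc0)
    (fun f hf => hI N γ z₀ hγ hfix f hf) (qExpHom N R.θ₂) hy
  have hkD' : (1 / denom γ z₀ ^ 2 : ℂ) ^ k = 1 := hkD
  rw [← R.eq, Vfin_qExpHom] at hk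
  have hθ0 : R.θ ≠ 0 := by
    intro h
    have h1 := R.eq
    rw [h, map_zero] at h1
    exact mul_ne_zero R.isDiv.1 (pow_ne_zero _ hy) h1.symm
  have htop : meromorphicOrderAt (fun w : ℂ => (R.θ : ℍ → ℂ) (ofComplex w)) (z₀ : ℂ) ≠ ⊤ := by
    have := Fermat.Agent.S24.B7a.order_ne_top_of_ne_zero N z₀ 1 R.θ hθ0
    simpa using this
  have hHan : AnalyticAt ℂ (fun w : ℂ => R.h (ofComplex w)) z₀ :=
    Fermat.Agent.S24.B7a.analyticAt_comp_ofComplex R.mdiff z₀
  have hpow : (fun w : ℂ => (R.θ : ℍ → ℂ) (ofComplex w)) = (fun w : ℂ => R.h (ofComplex w)) ^ m := by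
    ext w
    simp only [Pi.pow_apply, R.pow]
  have hord := meromorphicOrderAt_pow hHan.meromorphicAt (n := m)
  rw [← hpow] at hord
  -- the order of `H` is finite
  have hHtop : meromorphicOrderAt (fun w : ℂ => R.h (ofComplex w)) (z₀ : ℂ) ≠ ⊤ := by
    intro h
    rw [h] at hord
    apply htop
    rw [hord]
    cases m with
    | zero => exact absurd rfl hm0
    | succ n => rfl
  obtain ⟨j, hj⟩ := WithTop.ne_top_iff_exists.1 hHtop
  rw [← hj] at hord
  have hjk : j = k := by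
    have h1 : (meromorphicOrderAt (fun w : ℂ => (R.θ : ℍ → ℂ) (ofComplex w)) (z₀ : ℂ)).untop₀
        = m * j := by
      rw [hord]
      have : ((m : WithTop ℤ) * (j : WithTop ℤ)) = (((m : ℤ) * j : ℤ) : WithTop ℤ) := by
        rw [WithTop.coe_mul]; rfl
      rw [this, WithTop.untop₀_coe]
    rw [h1] at hk
    exact mul_left_cancel₀ (by exact_mod_cast hm0) hk
  have hdet : 0 < ((γ : SL(2, ℤ)) : GL (Fin 2) ℝ).val.det := by
    rw [Fermat.Agent.S24.B7a.det_coe_SL]; exact one_pos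
  have h1 := hT (fun w : ℂ => R.h (ofComplex w)) _ z₀ ζ k hHan.meromorphicAt (by rw [← hj, hjk])
    (z₀.analyticAt_smul hdet) (by rw [ofComplex_apply, ← ModularGroup.sl_moeb, hfix])
    (z₀.deriv_smul_ne_zero hdet)
    (Eventually.of_forall fun z => by
      rw [ofComplex_apply, ← ModularGroup.sl_moeb]
      exact hζ _)
  rw [deriv_smul hdet, Fermat.Agent.S24.B7a.det_coe_SL, Complex.ofReal_one] at h1
  rw [← h1]
  exact hkD'

end Fermat.Agent.ES.Mid.A
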