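import Fermat.Agent.ES.Mid.AInterface

/-!
# ES / Mid / A : (A-ELLINV) the multiplier of a stabiliser kills all values of `Vfin`.
-/

set_option autoImplicit false

namespace Fermat.Agent.ES.Mid.A

open UpperHalfPlane CongruenceSubgroup AlgebraicCurve Filter Topology Function
open scoped MatrixGroups Manifold
open Fermat.Agent.S24 (Qbar FF funAlg iota MerGerm IsVal liftHom liftHom_apply)
open Fermat.Agent.S24.QX (qExpHom qExpHom_injective)
attribute [local instance] Fermat.Agent.S24.algQbarComplex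
local notation "𝕢" => Periodic.qParam

namespace EllInv

theorem of_funAlg (N : ℕ) [NeZero N] (γ : SL(2, ℤ)) (z₀ : ℍ) (hγ : γ ∈ Gamma0 N)
    (hfix : γ • z₀ = z₀) (θ : funAlg N) (hθ : θ ≠ 0) :
    (1 / denom γ z₀ ^ 2) ^ (Vfin N z₀ (qExpHom N θ)) = 1 := by
  rw [Vfin, embFin_qExpHom]
  exact Fermat.Agent.S24.B7a.zpow_ord_epsHom_eq_one N z₀ γ 1 hfix (by simpa using hγ) θ hθ

end EllInv

/-- (A-ELLINV) -/
theorem a_ellInv : Stmt_A_EllInv := by
  intro N _ γ z₀ hγ hfix f hf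
  obtain ⟨a, b, hb, hab⟩ := qExpHom_frac N f
  have hb' : qExpHom N b ≠ 0 := fun h => hb (qExpHom_injective N (by rw [h, map_zero]))
  have ha : a ≠ 0 := by
    rintro rfl
    rw [map_zero] at hab
    exact (mul_ne_zero hf hb') hab
  have h1 := (isVal_Vfin N z₀).map_mul f (qExpHom N b) hf hb'
  rw [hab] at h1
  have h2 : Vfin N z₀ f = Vfin N z₀ (qExpHom N a) - Vfin N z₀ (qExpHom N b) := by
    rw [h1]; ring
  have hbase : (1 / denom γ z₀ ^ 2 : ℂ) ≠ 0 :=
    one_div_ne_zero (pow_ne_zero _ (denom_ne_zero _ _))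
  rw [h2, zpow_sub₀ hbase, EllInv.of_funAlg N γ z₀ hγ hfix a ha,
    EllInv.of_funAlg N γ z₀ hγ hfix b hb, div_one]

end Fermat.Agent.ES.Mid.A
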