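import Fermat.Agent.ES.Mid.AInterface

/-!
# ES / Mid / A-FIX : elliptic elements of `SL(2,ℤ)` have a fixed point in `ℍ`
-/

set_option autoImplicit false

namespace Fermat.Agent.ES.Mid.A

open UpperHalfPlane CongruenceSubgroup
open scoped MatrixGroups

namespace Fix

/-- the quadratic equation of a fixed point. -/
theorem alg {a b c d x y : ℂ} (hc : c ≠ 0) (hdet : a * d - b * c = 1) (hx : 2 * c * x = a - d)
    (hy : y ^ 2 * (4 * c ^ 2) = 4 - (a + d) ^ 2) :
    a * (x + y * Complex.I) + b = (x + y * Complex.I) * (c * (x + y * Complex.I) + d) := by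
  have h4c : (4 * c : ℂ) ≠ 0 := mul_ne_zero (by norm_num) hc
  apply mul_left_cancel₀ h4c
  linear_combination (-(2 * c * x - (a - d) + 4 * c * y * Complex.I)) * hx
    - 4 * hdet + hy - 4 * c ^ 2 * y ^ 2 * Complex.I_sq

end Fix

theorem a_fix : Stmt_A_Fix := by
  intro γ ht
  set a : ℤ := γ 0 0 with ha
  set b : ℤ := γ 0 1 with hb
  set c : ℤ := γ 1 0 with hc
  set d : ℤ := γ 1 1 with hd
  have hdet : a * d - b * c = 1 := by
    have := γ.det_coe
    rw [Matrix.det_fin_two] at this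
    exact this
  have htr : (a + d) ^ 2 < 4 := by
    rw [Matrix.trace_fin_two] at ht
    exact ht
  have hc0 : c ≠ 0 := by
    intro h0
    rw [h0, mul_zero, sub_zero] at hdet
    rcases Int.eq_one_or_neg_one_of_mul_eq_one' hdet with ⟨h1, h2⟩ | ⟨h1, h2⟩ <;>
      rw [h1, h2] at htr <;> norm_num at htr
  have hcR : (c : ℝ) ≠ 0 := by exact_mod_cast hc0
  have hpos : (0 : ℝ) < 4 - ((a : ℝ) + d) ^ 2 := by
    have : (((a + d) ^ 2 : ℤ) : ℝ) < 4 := by exact_mod_cast htr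
    push_cast at this
    linarith
  set s : ℝ := Real.sqrt (4 - ((a : ℝ) + d) ^ 2) with hs
  have hs2 : s ^ 2 = 4 - ((a : ℝ) + d) ^ 2 := Real.sq_sqrt hpos.le
  have hspos : 0 < s := Real.sqrt_pos.2 hpos
  set x : ℝ := ((a : ℝ) - d) / (2 * c) with hx
  set y : ℝ := s / (2 * |(c : ℝ)|) with hy
  have hypos : 0 < y := div_pos hspos (mul_pos two_pos (abs_pos.2 hcR))
  have hxe : 2 * (c : ℝ) * x = a - d := by
    rw [hx]; field_simp
  have hye : y ^ 2 * (4 * (c : ℝ) ^ 2) = 4 - ((a : ℝ) + d) ^ 2 := by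
    have habs : |(c : ℝ)| ≠ 0 := abs_ne_zero.2 hcR
    rw [hy, div_pow, mul_pow, sq_abs, hs2]
    field_simp
    norm_num
  let z : ℍ := ⟨⟨x, y⟩, hypos⟩
  have hz : (z : ℂ) = (x : ℂ) + (y : ℂ) * Complex.I := by
    apply Complex.ext <;> simp [z]
  refine ⟨z, ?_⟩
  rw [UpperHalfPlane.ext_iff, coe_specialLinearGroup_apply]
  have hden : ((c : ℤ) : ℂ) * (z : ℂ) + ((d : ℤ) : ℂ) ≠ 0 := by
    intro h0
    have him := congrArg Complex.im h0
    rw [hz] at him
    simp at him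
    rcases him with h | h
    · exact hc0 h
    · exact hypos.ne' h
  have e : ∀ n : ℤ, (((algebraMap ℤ ℝ) n : ℝ) : ℂ) = (n : ℂ) := by intro n; simp
  rw [e, e, e, e, div_eq_iff hden, hz]
  apply Fix.alg (by exact_mod_cast hc0) (by exact_mod_cast hdet)
  · exact_mod_cast hxe
  · exact_mod_cast hye

end Fermat.Agent.ES.Mid.A
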