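import Fermat.Agent.ES.Mid.AInterface

/-!
# ES / Mid / A-GLUE : `Stmt_KumOfDiv` from the sub-packages (helper50)
-/

set_option autoImplicit false

namespace Fermat.Agent.ES.Mid.A

open UpperHalfPlane CongruenceSubgroup AlgebraicCurve Filter Topology Function
open scoped MatrixGroups Manifold
open Fermat.Agent.S24 (Qbar FF funAlg iota MerGerm IsVal liftHom liftHom_apply)
open Fermat.Agent.S24.QX (qExpHom qExpHom_injective)
attribute [local instance] Fermat.Agent.S24.algQbarComplex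

theorem a_glue (hRoot : Stmt_A_Root) (hChar : Stmt_A_Char) (hFix : Stmt_A_Fix)
    (hEll : Stmt_A_Ell) (hPar : Stmt_A_Par) : Stmt_KumOfDiv := by
  intro N m _ _ u hu
  have hm : m ≠ 0 := NeZero.ne m
  obtain ⟨θ₁, θ₂, hθ₂, h12⟩ := qExpHom_frac N u
  set θ : funAlg N := θ₁ * θ₂ ^ (m - 1) with hθdef
  have hpow : ∀ x : FF N, x * x ^ (m - 1) = x ^ m := by
    intro x
    rw [← pow_succ', Nat.sub_add_cancel (Nat.one_le_iff_ne_zero.2 hm)]
  have heq : qExpHom N θ = u * qExpHom N θ₂ ^ m := by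
    rw [hθdef, map_mul, map_pow, ← h12, mul_assoc, hpow]
  obtain ⟨h, hmd, hhpow⟩ := hRoot N m u θ θ₂ hu hθ₂ heq
  let R : RootData N m u :=
    { θ := θ, θ₂ := θ₂, h := h, isDiv := hu, θ₂_ne := hθ₂, eq := heq, mdiff := hmd, pow := hhpow }
  have hq2 : qExpHom N θ₂ ≠ 0 := fun h0 => hθ₂ (qExpHom_injective N (by rw [h0, map_zero]))
  have hθ0 : θ ≠ 0 := by
    intro h0
    rw [h0, map_zero] at heq
    exact mul_ne_zero hu.1 (pow_ne_zero _ hq2) heq.symm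
  have hh0 : h ≠ 0 := by
    intro h0
    apply hθ0
    apply Subtype.ext
    funext z
    rw [← hhpow z, h0]
    simp [hm]
  have hinv : ∀ γ ∈ Gamma0 N, ∀ z : ℍ, h (γ • z) ^ m = h z ^ m := by
    intro γ hγ z
    rw [hhpow, hhpow, Fermat.Agent.S24.funAlg_invariant θ.2 γ hγ z]
  obtain ⟨χ, hχ⟩ := hChar N m h hmd hh0 hinv
  have hroot : ∀ γ ∈ Gamma0 N, ∃ ζ' : ℂ, ζ' ^ m = 1 ∧ ∀ z : ℍ, R.h (γ • z) = ζ' * R.h z := by
    intro γ hγ
    refine ⟨ZMod.stdAddChar (χ (Additive.ofMul ⟨γ, hγ⟩)), ?_, fun z => hχ ⟨γ, hγ⟩ z⟩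
    rw [← AddChar.map_nsmul_eq_pow]
    simp
  have hzero : ∀ γ : Gamma0 N, ZMod.stdAddChar (χ (Additive.ofMul γ)) = 1 →
      χ (Additive.ofMul γ) = 0 := by
    intro γ h1
    apply ZMod.injective_stdAddChar
    rw [h1, AddChar.map_zero_eq_one]
  refine ⟨χ, ?_, ?_⟩
  · intro γ hγ
    apply hzero
    rcases lt_or_eq_of_le hγ with hlt | heq4
    · obtain ⟨z₀, hz₀⟩ := hFix (γ : SL(2, ℤ)) hlt
      exact hEll N m u R γ z₀ _ γ.2 hz₀ (fun z => hχ γ z)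
    · obtain ⟨g, w, hgw⟩ := Fermat.Agent.S21.exists_conj_T_zpow_of_trace_sq (γ : SL(2, ℤ)) heq4
      have hmem : g * ModularGroup.T ^ w * g⁻¹ ∈ Gamma0 N := by
        rcases hgw with h' | h'
        · rw [← h']; exact γ.2
        · have h1 : g * ModularGroup.T ^ w * g⁻¹ = (γ : SL(2, ℤ)) * (-1) := by rw [h']; simp
          rw [h1]
          exact Subgroup.mul_mem _ γ.2 (by rw [Gamma0_mem]; simp)
      refine hPar N m u R g w _ hroot hmem (fun z => ?_)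
      rw [← Fermat.Agent.S21.smul_smul_eq_of_conj_T_zpow hgw z]
      exact hχ γ (g • z)
  · refine ⟨h, (θ₂ : ℍ → ℂ), θ₁, θ₂, hmd, Fermat.Agent.S24.funAlg_mdiff θ₂.2, hh0, ?_, hθ₂, h12,
      ?_, ?_⟩
    · intro h0
      exact hθ₂ (Subtype.ext h0)
    · intro z
      rw [hhpow z]
      have e : (θ : ℍ → ℂ) z = (θ₁ : ℍ → ℂ) z * (θ₂ : ℍ → ℂ) z ^ (m - 1) := rfl
      rw [e]
      have e2 : (θ₂ : ℍ → ℂ) z ^ m = (θ₂ : ℍ → ℂ) z ^ (m - 1) * (θ₂ : ℍ → ℂ) z := by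
        rw [← pow_succ, Nat.sub_add_cancel (Nat.one_le_iff_ne_zero.2 hm)]
      rw [e2]
      ring
    · intro γ z
      rw [hχ γ z, Fermat.Agent.S24.funAlg_invariant θ₂.2 γ γ.2 z]
      ring

end Fermat.Agent.ES.Mid.A
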