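import Fermat.Agent.ES.Mid.AInterface

/-!
# ES / Mid / A-PAR : the character is trivial on parabolic elements (helper50)
-/

set_option autoImplicit false

namespace Fermat.Agent.ES.Mid.A

open UpperHalfPlane CongruenceSubgroup AlgebraicCurve Filter Topology Function
open scoped MatrixGroups Manifold
open Fermat.Agent.S24 (Qbar FF funAlg iota MerGerm IsVal liftHom liftHom_apply)
open Fermat.Agent.S24.QX (qExpHom qExpHom_injective)
attribute [local instance] Fermat.Agent.S24.algQbarComplex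
local notation "𝕢" => Periodic.qParam

namespace Par

/-- `{k : ℤ | c ^ k = 1}` -/
def zpowKer (c : ℂ) (hc : c ≠ 0) : AddSubgroup ℤ where
  carrier := {k | c ^ k = 1}
  zero_mem' := zpow_zero c
  add_mem' := by
    intro a b ha hb
    show c ^ (a + b) = 1
    rw [zpow_add₀ hc, ha, hb, one_mul]
  neg_mem' := by
    intro a ha
    show c ^ (-a) = 1
    rw [zpow_neg, ha, inv_one]

theorem mem_zpowKer {c : ℂ} {hc : c ≠ 0} {k : ℤ} : k ∈ zpowKer c hc ↔ c ^ k = 1 := Iff.rfl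

theorem qParam_pow' (N m : ℕ) [NeZero N] [NeZero m] (z : ℂ) :
    𝕢 ((m * N : ℕ) : ℝ) z ^ m = 𝕢 (N : ℝ) z := by
  have hN : (N : ℂ) ≠ 0 := by exact_mod_cast NeZero.ne N
  have hm : (m : ℂ) ≠ 0 := by exact_mod_cast NeZero.ne m
  simp only [Periodic.qParam]
  rw [← Complex.exp_nat_mul]
  congr 1
  push_cast
  field_simp

theorem qParam_add (h : ℝ) (z w : ℂ) : 𝕢 h (w + z) = 𝕢 h w * 𝕢 h z := by
  simp only [Periodic.qParam, ← Complex.exp_add]
  congr 1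
  ring

end Par

open Par Fermat.Agent.S24.UnifInfty in
theorem a_par (hVD : Stmt_A_VD) (hT : Stmt_A_Twist) (hI : Stmt_A_ParInv) (hH : Stmt_A_ParHat) :
    Stmt_A_Par := by
  intro N m _ _ u R g w ζ hroot hmem hζ
  have hm : m ≠ 0 := NeZero.ne m
  obtain ⟨Hh, hHh, hord, hHhq⟩ := hH N m u R g hroot
  set K : ℤ := Vcusp N g (qExpHom N R.θ) with hKdef
  set ξ : ℂ := 𝕢 ((m * N : ℕ) : ℝ) (w : ℂ) with hξ
  have hξ0 : ξ ≠ 0 := Periodic.qParam_ne_zero _
  have hMpos : (0 : ℝ) < ((m * N : ℕ) : ℝ) := by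
    exact_mod_cast Nat.pos_of_ne_zero (Nat.mul_ne_zero hm (NeZero.ne N))
  have hrot : ∀ᶠ x in 𝓝[≠] (0 : ℂ), Hh (ξ * x) = ζ * Hh x := by
    filter_upwards [eventually_norm_lt_one] with x hx
    have him := Periodic.im_invQParam_pos_of_norm_lt_one hMpos hx.2 hx.1
    set z : ℍ := ⟨Periodic.invQParam ((m * N : ℕ) : ℝ) x, him⟩ with hz
    have hxz : 𝕢 ((m * N : ℕ) : ℝ) (z : ℂ) = x := Periodic.qParam_right_inv hMpos.ne' hx.1
    have e : ξ * x = 𝕢 ((m * N : ℕ) : ℝ) (((w : ℝ) +ᵥ z : ℍ) : ℂ) := by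
      rw [coe_vadd, qParam_add, hxz, hξ]
      simp
    rw [e, hHhq, hζ, ← hHhq, hxz]
  have hd : deriv (fun x : ℂ => ξ * x) 0 = ξ := by simp
  have h1 := hT Hh (fun x => ξ * x) 0 ζ K hHh hord (by fun_prop) (by simp)
    (by rw [hd]; exact hξ0) hrot
  rw [hd] at h1
  -- the algebraic input
  set c : ℂ := 𝕢 (N : ℝ) (w : ℂ) with hc
  have hc0 : c ≠ 0 := Periodic.qParam_ne_zero _
  have hq2 : qExpHom N R.θ₂ ≠ 0 :=
    fun h0 => R.θ₂_ne (qExpHom_injective N (by rw [h0, map_zero]))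
  obtain ⟨k', hk', hKk⟩ := hVD N m (Vcusp N g) (isVal_Vcusp N g) u R.isDiv (zpowKer c hc0)
    (fun f hf => mem_zpowKer.2 (hI N g w hmem f hf)) (qExpHom N R.θ₂) hq2
  rw [← R.eq] at hKk
  rw [← h1, hKdef, hKk, zpow_mul, zpow_natCast, hξ, qParam_pow']
  exact hk'

end Fermat.Agent.ES.Mid.A
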