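import Fermat.Agent.ES.Mid.AInterface

/-!
# ES / Mid / A-PARHAT : `h ∘ g` is a meromorphic function of `q_{mN}` (helper50)
-/

set_option autoImplicit false

namespace Fermat.Agent.ES.Mid.A

open UpperHalfPlane CongruenceSubgroup AlgebraicCurve Filter Topology Function
open scoped MatrixGroups Manifold
open Fermat.Agent.S24 (Qbar FF funAlg iota MerGerm IsVal liftHom liftHom_apply)
open Fermat.Agent.S24.QX (qExpHom qExpHom_injective)
attribute [local instance] Fermat.Agent.S24.algQbarComplex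
local notation "𝕢" => Periodic.qParam

namespace ParHat

theorem le_of_pow_le {x C : ℝ} {m : ℕ} (hm : m ≠ 0) (h : x ^ m ≤ C) : x ≤ max 1 C := by
  by_contra hlt
  push Not at hlt
  have hx1 : 1 < x := lt_of_le_of_lt (le_max_left _ _) hlt
  have h2 : x ≤ x ^ m := le_self_pow₀ hx1.le hm
  have h3 := le_max_right 1 C
  linarith

theorem theta_ne_zero {N m : ℕ} [NeZero N] [NeZero m] {u : FF N} (R : RootData N m u) :
    R.θ ≠ 0 := by
  intro h0
  have heq := R.eq
  have hq2 : qExpHom N R.θ₂ ≠ 0 :=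
    fun h0 => R.θ₂_ne (qExpHom_injective N (by rw [h0, map_zero]))
  rw [h0, map_zero] at heq
  exact mul_ne_zero R.isDiv.1 (pow_ne_zero _ hq2) heq.symm

theorem qParam_pow (N m : ℕ) [NeZero N] [NeZero m] (z : ℂ) :
    𝕢 ((m * N : ℕ) : ℝ) z ^ m = 𝕢 (N : ℝ) z := by
  have hN : (N : ℂ) ≠ 0 := by exact_mod_cast NeZero.ne N
  have hm : (m : ℂ) ≠ 0 := by exact_mod_cast NeZero.ne m
  simp only [Periodic.qParam]
  rw [← Complex.exp_nat_mul]
  congr 1
  push_cast
  field_simp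

end ParHat

open ParHat Fermat.Agent.S24.UnifInfty in
theorem a_parHat (hC : Stmt_A_CuspMer) (hP : Stmt_A_PowOrd) : Stmt_A_ParHat := by
  intro N m _ _ u R g hroot
  have hm : m ≠ 0 := NeZero.ne m
  set H : ℍ → ℂ := fun z => R.h (g • z) with hH
  have hHmd : MDiff H := mdiff_comp_smul R.mdiff g
  -- the period
  obtain ⟨ζ', hζ', hζ⟩ := hroot _ (conj_T_zpow_mem N g 1)
  have hstep : ∀ z : ℍ, H ((N : ℝ) +ᵥ z) = ζ' * H z := by
    intro z
    have e : g • ((N : ℝ) +ᵥ z) = (g * ModularGroup.T ^ ((1 : ℤ) * N) * g⁻¹) • (g • z) := by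
      rw [← mul_smul, inv_mul_cancel_right, mul_smul, modular_T_zpow_smul]
      push_cast
      simp
    simp only [hH]
    rw [e, hζ]
  have hiter : ∀ (j : ℕ) (z : ℍ), H (((j * N : ℕ) : ℝ) +ᵥ z) = ζ' ^ j * H z := by
    intro j
    induction j with
    | zero => intro z; simp
    | succ j ih =>
      intro z
      have e : (((j + 1) * N : ℕ) : ℝ) +ᵥ z = (N : ℝ) +ᵥ (((j * N : ℕ) : ℝ) +ᵥ z) := by
        rw [vadd_vadd]
        congr 1
        push_cast
        ring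
      rw [e, hstep, ih, pow_succ]
      ring
  have hper : ∀ z : ℍ, H (((m * N : ℕ) : ℝ) +ᵥ z) = H z := by
    intro z
    rw [hiter, hζ', one_mul]
  -- growth
  obtain ⟨k, hk⟩ := Fermat.Agent.S24.funAlg_growth R.θ.2 g
  have hbdd : IsBoundedAtImInfty (fun z => H z * ModularForm.discriminant z ^ k) := by
    obtain ⟨M1, A1, h1⟩ := isBoundedAtImInfty_iff.1 hk
    obtain ⟨M2, A2, h2⟩ :=
      isBoundedAtImInfty_iff.1 (Fermat.Agent.S24.discriminant_pow_bdd (k * (m - 1)))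
    refine isBoundedAtImInfty_iff.2 ⟨max 1 (M1 * M2), max A1 A2, fun z hz => ?_⟩
    have hz1 : A1 ≤ z.im := (le_max_left _ _).trans hz
    have hz2 : A2 ≤ z.im := (le_max_right _ _).trans hz
    have e : ‖H z * ModularForm.discriminant z ^ k‖ ^ m =
        ‖(R.θ : ℍ → ℂ) (g • z) * ModularForm.discriminant z ^ k‖ *
          ‖ModularForm.discriminant z ^ (k * (m - 1))‖ := by
      rw [← norm_pow, ← norm_mul]
      congr 1
      rw [mul_pow, R.pow, mul_assoc, ← pow_mul, ← pow_add]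
      congr 2
      obtain ⟨m', rfl⟩ : ∃ m', m = m' + 1 := ⟨m - 1, by omega⟩
      simp
      ring
    refine le_of_pow_le hm ?_
    rw [e]
    exact mul_le_mul (h1 z hz1) (h2 z hz2) (norm_nonneg _) ((norm_nonneg _).trans (h1 z hz1))
  obtain ⟨Hh, hHh, hHhq⟩ := hC (m * N) H k hHmd hper hbdd
  refine ⟨Hh, hHh, ?_, hHhq⟩
  -- the order
  have hθ0 : R.θ ≠ 0 := theta_ne_zero R
  set K : ℤ := Vcusp N g (qExpHom N R.θ) with hKdef
  have hK : meromorphicOrderAt (cuspFn N R.θ g) 0 = (K : WithTop ℤ) := by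
    rw [hKdef, Vcusp_qExpHom]
    exact (WithTop.coe_untop₀_of_ne_top (order_ne_top hθ0 g)).symm
  have hcomp := hP (cuspFn N R.θ g) m K (Nat.pos_of_ne_zero hm) (cuspFn_meromorphicAt R.θ.2 g) hK
  have hMpos : (0 : ℝ) < ((m * N : ℕ) : ℝ) := by
    exact_mod_cast Nat.pos_of_ne_zero (Nat.mul_ne_zero hm (NeZero.ne N))
  have hev : (Hh ^ m) =ᶠ[𝓝[≠] 0] fun x => cuspFn N R.θ g (x ^ m) := by
    filter_upwards [eventually_norm_lt_one] with x hx
    have him := Periodic.im_invQParam_pos_of_norm_lt_one hMpos hx.2 hx.1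
    set z : ℍ := ⟨Periodic.invQParam ((m * N : ℕ) : ℝ) x, him⟩ with hz
    have hxz : 𝕢 ((m * N : ℕ) : ℝ) (z : ℂ) = x := Periodic.qParam_right_inv hMpos.ne' hx.1
    have hxN : 𝕢 (N : ℝ) (z : ℂ) = x ^ m := by rw [← qParam_pow N m, hxz]
    calc (Hh ^ m) x = Hh (𝕢 ((m * N : ℕ) : ℝ) (z : ℂ)) ^ m := by rw [hxz]; rfl
      _ = H z ^ m := by rw [hHhq]
      _ = (R.θ : ℍ → ℂ) (g • z) := R.pow _
      _ = cuspFn N R.θ g (𝕢 (N : ℝ) (z : ℂ)) := (cuspFn_qParam R.θ.2 g z).symm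
      _ = cuspFn N R.θ g (x ^ m) := by rw [hxN]
  have hord : meromorphicOrderAt (Hh ^ m) 0 = ((m * K : ℤ) : WithTop ℤ) := by
    rw [meromorphicOrderAt_congr hev, hcomp]
  rw [meromorphicOrderAt_pow hHh] at hord
  cases hj : meromorphicOrderAt Hh 0 with
  | top =>
    rw [hj] at hord
    have hm' : (m : WithTop ℤ) ≠ 0 := by exact_mod_cast hm
    rw [WithTop.mul_top hm'] at hord
    exact absurd hord WithTop.top_ne_coe
  | coe j =>
    rw [hj] at hord
    have h1 : ((m : ℤ) * j) = m * K := by exact_mod_cast hord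
    have hm' : (m : ℤ) ≠ 0 := by exact_mod_cast hm
    rw [mul_left_cancel₀ hm' h1]

end Fermat.Agent.ES.Mid.A
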