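import Fermat.Agent.ES.Mid.AInterface

/-!
# ES / Mid / A-PARINV (shadow, helper50)
-/

set_option autoImplicit false

namespace Fermat.Agent.ES.Mid.A

open UpperHalfPlane CongruenceSubgroup AlgebraicCurve Filter Topology Function
open scoped MatrixGroups Manifold
open Fermat.Agent.S24 (Qbar FF funAlg iota MerGerm IsVal liftHom liftHom_apply)
open Fermat.Agent.S24.QX (qExpHom qExpHom_injective)
attribute [local instance] Fermat.Agent.S24.algQbarComplex
local notation "𝕢" => Periodic.qParam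

open Fermat.Agent.S24.UnifInfty in
theorem a_parInvB : Stmt_A_ParInv := by
  intro N _ g w hmem f hf
  have hc0 : 𝕢 (N : ℝ) (w : ℂ) ≠ 0 := Periodic.qParam_ne_zero _
  have key : ∀ θ : funAlg N, θ ≠ 0 → (𝕢 (N : ℝ) (w : ℂ)) ^ (Vcusp N g (qExpHom N θ)) = 1 := by
    intro θ hθ
    have heq : eps N (g * ModularGroup.T ^ w) θ = eps N g θ := by
      rw [eps_eq_iff]
      intro τ
      have e : (g * ModularGroup.T ^ w) • τ = (g * ModularGroup.T ^ w * g⁻¹) • (g • τ) := by
        rw [← mul_smul, inv_mul_cancel_right]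
      rw [e, Fermat.Agent.S24.funAlg_invariant θ.2 _ hmem]
    rw [eps_apply, eps_apply, MerGerm.mk_eq_mk_iff] at heq
    have hinv : ∀ᶠ u in 𝓝[≠] (0 : ℂ), cuspFn N θ g (𝕢 N w * u) = cuspFn N θ g u := by
      filter_upwards [heq, cuspFn_mul_T_zpow θ g w] with u h1 h2
      rw [← h2, h1]
    have hk : meromorphicOrderAt (cuspFn N θ g) 0
        = ((meromorphicOrderAt (cuspFn N θ g) 0).untop₀ : ℤ) :=
      (WithTop.coe_untop₀_of_ne_top (order_ne_top hθ g)).symm
    rw [Vcusp_qExpHom]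
    exact rotate_zpow_order_eq_one (H := cuspFn N θ g)
      (cuspFn_meromorphicAt θ.2 g) _ hk (Periodic.qParam_ne_zero _) hinv
  obtain ⟨a, b, hb, hab⟩ := qExpHom_frac N f
  have hqb : qExpHom N b ≠ 0 := fun h0 => hb (qExpHom_injective N (by rw [h0, map_zero]))
  have ha : a ≠ 0 := by
    rintro rfl
    rw [map_zero] at hab
    exact mul_ne_zero hf hqb hab
  have h1 := (isVal_Vcusp N g).map_mul f (qExpHom N b) hf hqb
  rw [hab] at h1
  have h2 : Vcusp N g f = Vcusp N g (qExpHom N a) - Vcusp N g (qExpHom N b) := by omega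
  rw [h2, zpow_sub₀ hc0, key a ha, key b hb, div_one]

end Fermat.Agent.ES.Mid.A
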