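import Fermat.Agent.ES.Mid.Interface2
import Fermat.Agent.S24.UnifFinite
import Fermat.Agent.S24.UnifInfty
import Fermat.Agent.S21.Parabolic

/-!
# ES / Mid / A : divisors -> characters (`Stmt_KumOfDiv`).  Interface of the package
(sub-lead: helper50).

`u ∈ U_m`, `u = θ₁/θ₂`, `θ := θ₁ θ₂^(m-1)`, so `θ = u θ₂^m`.
* `Vfin N z`, `Vcusp N g` : the valuations of `F_N` given by the order at `z ∈ ℍ`, resp. the order
  in `q_N = e(τ/N)` at the cusp `g ∞`.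
* `RootData N m u` : `θ, θ₂` as above and a holomorphic `h` on `ℍ` with `h ^ m = θ`.
Every sub-package proves `theorem xxx ... : Stmt_A_xxx` in its own file
`Fermat/Agent/ES/Mid/A<Name>.lean`, inside its own sub-namespace.
-/

set_option autoImplicit false

namespace Fermat.Agent.ES.Mid.A

open UpperHalfPlane CongruenceSubgroup AlgebraicCurve Filter Topology Function
open scoped MatrixGroups Manifold
open Fermat.Agent.S24 (Qbar FF funAlg iota MerGerm IsVal liftHom liftHom_apply)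
open Fermat.Agent.S24.QX (qExpHom qExpHom_injective)
attribute [local instance] Fermat.Agent.S24.algQbarComplex
local notation "𝕢" => Periodic.qParam

/-! ### fractions -/

theorem qExpHom_frac (N : ℕ) [NeZero N] (f : FF N) :
    ∃ a b : funAlg N, b ≠ 0 ∧ f * qExpHom N b = qExpHom N a := by
  obtain ⟨r, hr, s, hs, hf⟩ :=
    IntermediateField.mem_adjoin_iff_div.mp (Fermat.Agent.S24.QX.modularFunctionFieldBar_le N f.2)
  obtain ⟨a, ha⟩ := Fermat.Agent.S24.QX.exists_qExpFun_eq N hr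
  obtain ⟨b, hb⟩ := Fermat.Agent.S24.QX.exists_qExpFun_eq N hs
  by_cases hs0 : s = 0
  · refine ⟨0, 1, one_ne_zero, ?_⟩
    have hf0 : f = 0 := Subtype.ext (by rw [hf, hs0, div_zero]; rfl)
    rw [hf0, zero_mul, map_zero]
  · refine ⟨a, b, ?_, ?_⟩
    · rintro rfl
      apply hs0
      rw [← hb]
      exact congrArg Subtype.val (map_zero (qExpHom N))
    · apply Subtype.ext
      show (f : LaurentSeries Qbar) * Fermat.Agent.S24.QX.qExpFun N b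
        = Fermat.Agent.S24.QX.qExpFun N a
      rw [ha, hb, hf, div_mul_cancel₀ _ hs0]

/-! ### the valuations -/

/-- The embedding `F_N → MerGerm` : germ at `z ∈ ℍ` (local coordinate `τ - z`). -/
noncomputable def embFin (N : ℕ) [NeZero N] (z : ℍ) : FF N →ₐ[Qbar] MerGerm :=
  liftHom (qExpHom N) (qExpHom_injective N) (qExpHom_frac N)
    (Fermat.Agent.S24.B7a.epsHom N z 1) (Fermat.Agent.S24.B7a.epsHom_injective N z 1)

theorem embFin_qExpHom (N : ℕ) [NeZero N] (z : ℍ) (θ : funAlg N) :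
    embFin N z (qExpHom N θ) = Fermat.Agent.S24.B7a.epsHom N z 1 θ :=
  liftHom_apply _ _ _ _ _ θ

/-- The order at `z ∈ ℍ`. -/
noncomputable def Vfin (N : ℕ) [NeZero N] (z : ℍ) (f : FF N) : ℤ := (embFin N z f).ord

theorem isVal_Vfin (N : ℕ) [NeZero N] (z : ℍ) : IsVal Qbar (Vfin N z) :=
  MerGerm.isDiffVal.isVal.comp (embFin N z)

theorem Vfin_qExpHom (N : ℕ) [NeZero N] (z : ℍ) (θ : funAlg N) :
    Vfin N z (qExpHom N θ) =
      (meromorphicOrderAt (fun w : ℂ => (θ : ℍ → ℂ) (ofComplex w)) (z : ℂ)).untop₀ := by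
  rw [Vfin, embFin_qExpHom, Fermat.Agent.S24.B7a.ord_epsHom]
  simp

/-- The embedding `F_N → MerGerm` : expansion at the cusp `g ∞` in the variable `q_N`. -/
noncomputable def embCusp (N : ℕ) [NeZero N] (g : SL(2, ℤ)) : FF N →ₐ[Qbar] MerGerm :=
  liftHom (qExpHom N) (qExpHom_injective N) (qExpHom_frac N)
    (Fermat.Agent.S24.UnifInfty.eps N g) (Fermat.Agent.S24.UnifInfty.eps_injective g)

theorem embCusp_qExpHom (N : ℕ) [NeZero N] (g : SL(2, ℤ)) (θ : funAlg N) :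
    embCusp N g (qExpHom N θ) = Fermat.Agent.S24.UnifInfty.eps N g θ :=
  liftHom_apply _ _ _ _ _ θ

/-- The order at the cusp `g ∞` in the variable `q_N`. -/
noncomputable def Vcusp (N : ℕ) [NeZero N] (g : SL(2, ℤ)) (f : FF N) : ℤ := (embCusp N g f).ord

theorem isVal_Vcusp (N : ℕ) [NeZero N] (g : SL(2, ℤ)) : IsVal Qbar (Vcusp N g) :=
  MerGerm.isDiffVal.isVal.comp (embCusp N g)

theorem Vcusp_qExpHom (N : ℕ) [NeZero N] (g : SL(2, ℤ)) (θ : funAlg N) :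
    Vcusp N g (qExpHom N θ) =
      (meromorphicOrderAt (Fermat.Agent.S24.UnifInfty.cuspFn N θ g) 0).untop₀ := by
  rw [Vcusp, embCusp_qExpHom, Fermat.Agent.S24.UnifInfty.ord_eps]

/-! ### the common data -/

/-- `θ = u θ₂^m` in `funAlg N` and a holomorphic `m`-th root `h` of `θ`. -/
structure RootData (N m : ℕ) [NeZero N] [NeZero m] (u : FF N) where
  θ : funAlg N
  θ₂ : funAlg N
  h : ℍ → ℂ
  isDiv : IsDiv N m u
  θ₂_ne : θ₂ ≠ 0
  eq : qExpHom N θ = u * qExpHom N θ₂ ^ m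
  mdiff : MDiff h
  pow : ∀ z : ℍ, h z ^ m = (θ : ℍ → ℂ) z

/-! ### statements -/

/-- (A-VD) the algebraic key: if all values of the valuation `V` lie in the subgroup `D ≤ ℤ` then
`V (u y^m) = m k` with `k ∈ D`. -/
def Stmt_A_VD : Prop :=
  ∀ (N m : ℕ) [NeZero N] [NeZero m] (V : FF N → ℤ), IsVal Qbar V → ∀ u : FF N, IsDiv N m u →
    ∀ D : AddSubgroup ℤ, (∀ f : FF N, f ≠ 0 → V f ∈ D) → ∀ y : FF N, y ≠ 0 →
      ∃ k ∈ D, V (u * y ^ m) = m * k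

/-- (A-ROOT) existence of the root. -/
def Stmt_A_Root : Prop :=
  ∀ (N m : ℕ) [NeZero N] [NeZero m] (u : FF N) (θ θ₂ : funAlg N), IsDiv N m u → θ₂ ≠ 0 →
    qExpHom N θ = u * qExpHom N θ₂ ^ m →
    ∃ h : ℍ → ℂ, MDiff h ∧ ∀ z : ℍ, h z ^ m = (θ : ℍ → ℂ) z

/-- (A-CHAR) a holomorphic function whose `m`-th power is `Γ₀(N)`-invariant has a character. -/
def Stmt_A_Char : Prop :=
  ∀ (N m : ℕ) [NeZero N] [NeZero m] (h : ℍ → ℂ), MDiff h → h ≠ 0 →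
    (∀ γ ∈ Gamma0 N, ∀ z : ℍ, h (γ • z) ^ m = h z ^ m) →
    ∃ χ : Additive (Gamma0 N) →+ ZMod m, ∀ (γ : Gamma0 N) (z : ℍ),
      h ((γ : SL(2, ℤ)) • z) = ZMod.stdAddChar (χ (Additive.ofMul γ)) * h z

/-- (A-TWIST) `H ∘ φ = ζ H` near a fixed point `z₀` of `φ` forces `ζ = φ'(z₀) ^ ord H`. -/
def Stmt_A_Twist : Prop :=
  ∀ (H φ : ℂ → ℂ) (z₀ ζ : ℂ) (k : ℤ), MeromorphicAt H z₀ → meromorphicOrderAt H z₀ = k →
    AnalyticAt ℂ φ z₀ → φ z₀ = z₀ → deriv φ z₀ ≠ 0 →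
    (∀ᶠ z in 𝓝[≠] z₀, H (φ z) = ζ * H z) → deriv φ z₀ ^ k = ζ

/-- (A-FIX) elliptic elements have a fixed point. -/
def Stmt_A_Fix : Prop :=
  ∀ γ : SL(2, ℤ), (γ : Matrix (Fin 2) (Fin 2) ℤ).trace ^ 2 < 4 → ∃ z : ℍ, γ • z = z

/-- (A-ELLINV) the multiplier of a stabiliser kills all values of `Vfin`. -/
def Stmt_A_EllInv : Prop :=
  ∀ (N : ℕ) [NeZero N] (γ : SL(2, ℤ)) (z₀ : ℍ), γ ∈ Gamma0 N → γ • z₀ = z₀ →
    ∀ f : FF N, f ≠ 0 → (1 / denom γ z₀ ^ 2) ^ (Vfin N z₀ f) = 1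

/-- (A-ELL) the character is trivial on elements having a fixed point. -/
def Stmt_A_Ell : Prop :=
  ∀ (N m : ℕ) [NeZero N] [NeZero m] (u : FF N) (R : RootData N m u) (γ : SL(2, ℤ)) (z₀ : ℍ)
    (ζ : ℂ), γ ∈ Gamma0 N → γ • z₀ = z₀ → (∀ z : ℍ, R.h (γ • z) = ζ * R.h z) → ζ = 1

/-- (A-CUSPMER) a periodic holomorphic function of moderate growth is a meromorphic function of
`q_M`. -/
def Stmt_A_CuspMer : Prop :=
  ∀ (M : ℕ) [NeZero M] (H : ℍ → ℂ) (k : ℕ), MDiff H → (∀ z : ℍ, H ((M : ℝ) +ᵥ z) = H z) →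
    IsBoundedAtImInfty (fun z => H z * ModularForm.discriminant z ^ k) →
    ∃ Hh : ℂ → ℂ, MeromorphicAt Hh 0 ∧ ∀ z : ℍ, Hh (𝕢 M z) = H z

/-- (A-POWORD) the order of `x ↦ F (x ^ m)`. -/
def Stmt_A_PowOrd : Prop :=
  ∀ (F : ℂ → ℂ) (m : ℕ) (k : ℤ), 0 < m → MeromorphicAt F 0 → meromorphicOrderAt F 0 = k →
    meromorphicOrderAt (fun x => F (x ^ m)) 0 = ((m * k : ℤ) : WithTop ℤ)

/-- (A-PARINV) the rotation `e(w/N)` kills all values of `Vcusp N g` if `g T^w g⁻¹ ∈ Γ₀(N)`. -/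
def Stmt_A_ParInv : Prop :=
  ∀ (N : ℕ) [NeZero N] (g : SL(2, ℤ)) (w : ℤ), g * ModularGroup.T ^ w * g⁻¹ ∈ Gamma0 N →
    ∀ f : FF N, f ≠ 0 → (𝕢 N (w : ℂ)) ^ (Vcusp N g f) = 1

/-- (A-PARHAT) `h ∘ g` is a meromorphic function of `q_{mN}`, of order `Vcusp N g θ`. -/
def Stmt_A_ParHat : Prop :=
  ∀ (N m : ℕ) [NeZero N] [NeZero m] (u : FF N) (R : RootData N m u) (g : SL(2, ℤ)),
    (∀ γ ∈ Gamma0 N, ∃ ζ' : ℂ, ζ' ^ m = 1 ∧ ∀ z : ℍ, R.h (γ • z) = ζ' * R.h z) →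
    ∃ Hh : ℂ → ℂ, MeromorphicAt Hh 0 ∧
      meromorphicOrderAt Hh 0 = ((Vcusp N g (qExpHom N R.θ) : ℤ) : WithTop ℤ) ∧
      ∀ z : ℍ, Hh (𝕢 ((m * N : ℕ) : ℝ) z) = R.h (g • z)

/-- (A-PAR) the character is trivial on parabolic elements. -/
def Stmt_A_Par : Prop :=
  ∀ (N m : ℕ) [NeZero N] [NeZero m] (u : FF N) (R : RootData N m u) (g : SL(2, ℤ)) (w : ℤ)
    (ζ : ℂ),
    (∀ γ ∈ Gamma0 N, ∃ ζ' : ℂ, ζ' ^ m = 1 ∧ ∀ z : ℍ, R.h (γ • z) = ζ' * R.h z) →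
    g * ModularGroup.T ^ w * g⁻¹ ∈ Gamma0 N →
    (∀ z : ℍ, R.h (g • ((w : ℝ) +ᵥ z)) = ζ * R.h (g • z)) → ζ = 1

end Fermat.Agent.ES.Mid.A
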