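/-
ES / Mid / A : A-TWIST + A-POWORD (helper65): two lemmas on meromorphic orders.
-/
import Fermat.Agent.ES.Mid.AInterface

set_option autoImplicit false

namespace Fermat.Agent.ES.Mid.A

open Filter Topology Function

theorem a_twist : Stmt_A_Twist := by
  intro H φ z₀ ζ k hH hk hφ hz hd hinv
  obtain ⟨g, hg, hg0, hHg⟩ := (meromorphicOrderAt_eq_int_iff hH).1 hk
  have hφd : HasDerivAt φ (deriv φ z₀) z₀ := hφ.differentiableAt.hasDerivAt
  have hφt : Tendsto φ (𝓝[≠] z₀) (𝓝[≠] z₀) := by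
    have := hφd.tendsto_nhdsNE hd
    rwa [hz] at this
  have hHg' : ∀ᶠ z in 𝓝[≠] z₀, H (φ z) = (φ z - z₀) ^ k • g (φ z) := hφt.eventually hHg
  have hslope : Tendsto (fun z => (φ z - z₀) / (z - z₀)) (𝓝[≠] z₀) (𝓝 (deriv φ z₀)) := by
    have := hasDerivAt_iff_tendsto_slope.1 hφd
    refine this.congr fun z => ?_
    rw [slope_def_field, hz]
  have h1 : Tendsto (fun z => ((φ z - z₀) / (z - z₀)) ^ k * g (φ z)) (𝓝[≠] z₀)
      (𝓝 ((deriv φ z₀) ^ k * g z₀)) := by
    apply Tendsto.mul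
    · exact hslope.zpow₀ k (Or.inl hd)
    · exact hg.continuousAt.tendsto.comp (hφt.mono_right nhdsWithin_le_nhds)
  have h2 : Tendsto (fun z => ((φ z - z₀) / (z - z₀)) ^ k * g (φ z)) (𝓝[≠] z₀)
      (𝓝 (ζ * g z₀)) := by
    have h3 : Tendsto (fun z => ζ * g z) (𝓝[≠] z₀) (𝓝 (ζ * g z₀)) :=
      (hg.continuousAt.tendsto.mono_left nhdsWithin_le_nhds).const_mul ζ
    refine h3.congr' ?_
    filter_upwards [hHg, hHg', hinv, self_mem_nhdsWithin] with z e1 e2 e3 e4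
    have hne : z - z₀ ≠ 0 := sub_ne_zero.2 e4
    rw [e1, e2] at e3
    simp only [smul_eq_mul] at e3
    rw [div_zpow, div_mul_eq_mul_div, e3, mul_left_comm, mul_div_cancel_left₀ _ (zpow_ne_zero _ hne)]
  have h3 := tendsto_nhds_unique h1 h2
  exact mul_right_cancel₀ hg0 h3

theorem a_powOrd : Stmt_A_PowOrd := by
  intro F m k hm hF hk
  obtain ⟨G, hG, hG0, hFG⟩ := (meromorphicOrderAt_eq_int_iff hF).1 hk
  have h0 : (0 : ℂ) ^ m = 0 := zero_pow hm.ne'
  have hpow : AnalyticAt ℂ (fun x : ℂ => x ^ m) 0 := by fun_prop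
  have hmer : MeromorphicAt (fun x => F (x ^ m)) 0 := by
    have hF' : MeromorphicAt F ((fun x : ℂ => x ^ m) 0) := by
      simpa [h0] using hF
    exact MeromorphicAt.comp_analyticAt (g := fun x : ℂ => x ^ m) (x := 0) hF' hpow
  have ht : Tendsto (fun x : ℂ => x ^ m) (𝓝[≠] 0) (𝓝[≠] 0) := by
    refine tendsto_nhdsWithin_iff.mpr ⟨?_, ?_⟩
    · have : Tendsto (fun x : ℂ => x ^ m) (𝓝 0) (𝓝 ((0 : ℂ) ^ m)) :=
        (continuous_pow m).continuousAt.tendsto
      rw [h0] at this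
      exact this.mono_left nhdsWithin_le_nhds
    · filter_upwards [self_mem_nhdsWithin] with x hx
      exact pow_ne_zero m hx
  rw [meromorphicOrderAt_eq_int_iff hmer]
  refine ⟨fun x => G (x ^ m), ?_, ?_, ?_⟩
  · have hG' : AnalyticAt ℂ G ((fun x : ℂ => x ^ m) 0) := by
      simpa [h0] using hG
    exact AnalyticAt.comp (f := fun x : ℂ => x ^ m) (x := 0) hG' hpow
  · simpa [h0] using hG0
  · filter_upwards [ht.eventually hFG] with x hx
    rw [hx]
    simp only [sub_zero, smul_eq_mul]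
    rw [← zpow_natCast x m, ← zpow_mul]

end Fermat.Agent.ES.Mid.A
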