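import Fermat.Agent.ES.Mid.AVD
import Fermat.Agent.ES.Mid.ARootB
import Fermat.Agent.ES.Mid.AChar
import Fermat.Agent.ES.Mid.ATwist
import Fermat.Agent.ES.Mid.AFix
import Fermat.Agent.ES.Mid.AEllInv
import Fermat.Agent.ES.Mid.AEll
import Fermat.Agent.ES.Mid.ACuspMer
import Fermat.Agent.ES.Mid.AParInvB
import Fermat.Agent.ES.Mid.AParHat
import Fermat.Agent.ES.Mid.APar
import Fermat.Agent.ES.Mid.AGlue

/-!
# ES / Mid / A : divisors -> characters (`Stmt_KumOfDiv`), assembly (helper50)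
-/

set_option autoImplicit false

namespace Fermat.Agent.ES.Mid.A

/-- (A) = M2+M3+M4. -/
theorem kumOfDiv (hV : Stmt_ValMult) (hR : Stmt_RootUHP) : Stmt_KumOfDiv :=
  a_glue (a_rootB (a_vd hV) hR) a_char a_fix (a_ell (a_vd hV) a_twist a_ellInv)
    (a_par (a_vd hV) a_twist a_parInvB (a_parHat a_cuspMer a_powOrd))

end Fermat.Agent.ES.Mid.A
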