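import Fermat.Agent.ES.Mid.Interface2
import Fermat.Agent.ES.Desc.Interface
import Fermat.Agent.S16.QE1
import Fermat.Agent.S24.JBasic

/-! # ES / Mid, package F : surjectivity of the Kummer map (`Stmt_KumSurj`) -/

set_option autoImplicit false

namespace Fermat.Agent.ES.Mid.F

open UpperHalfPlane CongruenceSubgroup AlgebraicCurve ModularForm Filter Topology
open scoped MatrixGroups Manifold ModularForm
open Fermat.Agent.S24 (Qbar FF funAlg iota discriminant_mdiff discriminant_smul)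
open Fermat.Agent.S24.QX (qExpHom cmI Rep Nice qL)
open Fermat.Agent.S16 (HasQE)
attribute [local instance] Fermat.Agent.S24.algQbarComplex

/-- an algebraic complex number lies in the image of `ℚ̄`. -/
theorem exists_iota_eq (z : ℂ) (hz : IsAlgebraic ℚ z) : ∃ y : Qbar, iota y = z := by
  have hs : ((minpoly ℚ z).map (algebraMap ℚ Qbar)).Splits := IsAlgClosed.splits _
  have h1 := hs.roots_map (iota : Qbar →+* ℂ)
  have h2 : ((minpoly ℚ z).map (algebraMap ℚ Qbar)).map (iota : Qbar →+* ℂ)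
      = (minpoly ℚ z).map (algebraMap ℚ ℂ) := by
    rw [Polynomial.map_map]
    congr 1
    exact iota.comp_algebraMap
  rw [h2] at h1
  have h3 : z ∈ ((minpoly ℚ z).map (algebraMap ℚ ℂ)).roots := by
    rw [Polynomial.mem_roots_map (minpoly.ne_zero hz.isIntegral)]
    exact minpoly.aeval ℚ z
  rw [h1, Multiset.mem_map] at h3
  obtain ⟨y, -, hy⟩ := h3
  exact ⟨y, hy⟩

/-- the complex character attached to `χ : Γ₀(N) → ℤ/m`. -/
noncomputable def chiC {N m : ℕ} [NeZero m] (χ : Additive (Gamma0 N) →+ ZMod m) :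
    Gamma0 N →* ℂˣ :=
  MonoidHom.toHomUnits
    { toFun := fun γ => ZMod.stdAddChar (χ (Additive.ofMul γ))
      map_one' := by simp
      map_mul' := fun a b => by rw [ofMul_mul, map_add, AddChar.map_add_eq_mul] }

theorem coe_chiC {N m : ℕ} [NeZero m] (χ : Additive (Gamma0 N) →+ ZMod m) (γ : Gamma0 N) :
    ((chiC χ γ : ℂˣ) : ℂ) = ZMod.stdAddChar (χ (Additive.ofMul γ)) := rfl

theorem coe_chiC_pow {N m : ℕ} [NeZero m] (χ : Additive (Gamma0 N) →+ ZMod m) (γ : Gamma0 N) :
    ((chiC χ γ : ℂˣ) : ℂ) ^ m = 1 := by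
  rw [coe_chiC, ← AddChar.map_nsmul_eq_pow]
  simp

theorem chiC_pow {N m : ℕ} [NeZero m] (χ : Additive (Gamma0 N) →+ ZMod m) (γ : Gamma0 N) :
    chiC χ γ ^ m = 1 := by
  apply Units.ext
  rw [Units.val_pow_eq_pow_val, coe_chiC_pow, Units.val_one]

theorem chiC_triv {N m : ℕ} [NeZero m] (χ : Additive (Gamma0 N) →+ ZMod m) (hPE : IsPE χ)
    (γ : Gamma0 N) (hγ : (γ : SL(2, ℤ)) 1 0 = 0) : chiC χ γ = 1 := by
  apply Units.ext
  rw [coe_chiC, hPE γ ?_]
  · simp
  · have hdet := (γ : SL(2, ℤ)).det_coe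
    rw [Matrix.det_fin_two, hγ, mul_zero, sub_zero] at hdet
    rw [Matrix.trace_fin_two]
    rcases Int.eq_one_or_neg_one_of_mul_eq_one' hdet with ⟨h1, h2⟩ | ⟨h1, h2⟩ <;>
      rw [h1, h2] <;> norm_num

theorem nice_of {N : ℕ} {χ : Gamma0 N →* ℂˣ} {k : ℤ} {G : ℍ → ℂ} {a : PowerSeries ℂ}
    (h : Desc.IsCFχ N χ k G) (hQ : HasQE 1 G a) : Nice G where
  mdiff := h.holo
  per := by
    intro z
    by_cases hz : 0 < z.im
    · have hz' : 0 < (z + 1).im := by simpa using hz
      simp only [Function.comp_apply]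
      rw [ofComplex_apply_of_im_pos hz, ofComplex_apply_of_im_pos hz']
      have h1 := hQ ⟨z + 1, hz'⟩
      have h2 := hQ ⟨z, hz⟩
      have e : Function.Periodic.qParam 1 (z + 1) = Function.Periodic.qParam 1 z := by
        unfold Function.Periodic.qParam
        have : 2 * (Real.pi : ℂ) * Complex.I * (z + 1) / ((1 : ℝ) : ℂ)
            = 2 * (Real.pi : ℂ) * Complex.I * z / ((1 : ℝ) : ℂ) + 2 * (Real.pi : ℂ) * Complex.I := by
          push_cast; ring
        rw [this, Complex.exp_add, Complex.exp_two_pi_mul_I, mul_one]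
      simp only [e] at h1 h2
      exact h1.unique h2
    · have hz0 : z.im ≤ 0 := not_lt.mp hz
      have hz' : (z + 1).im ≤ 0 := by simpa using hz0
      simp only [Function.comp_apply]
      rw [ofComplex_apply_of_im_nonpos hz0, ofComplex_apply_of_im_nonpos hz']
  bdd := by
    have : IsZeroAtImInfty G := by simpa using h.zero 1
    exact this.isBoundedAtImInfty

theorem kumSurj (hD : Desc.Stmt_desc) (hI : Stmt_InvRat) : Stmt_KumSurj := by
  intro N m _ _ χ hPE
  have hm : 0 < m := Nat.pos_of_ne_zero (NeZero.ne m)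
  obtain ⟨k, G, a, hk, hG0, hCF, hQE, halg⟩ :=
    hD N m hm (chiC χ) (chiC_pow χ) (chiC_triv χ hPE)
  have hNG : Nice G := nice_of hCF hQE
  have hΔ0 : ∀ τ : ℍ, (discriminant ^ (k * m)) τ ≠ 0 :=
    fun τ => pow_ne_zero _ (discriminant_ne_zero τ)
  let f : ℍ → ℂ := (G ^ m) / (discriminant ^ (k * m))
  have hf : ∀ z, f z = G z ^ m / discriminant z ^ (k * m) := fun _ => rfl
  have hfM : MDiff f := (hCF.holo.pow m).div (discriminant_mdiff.pow _) hΔ0
  -- transformation formulas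
  have hGt : ∀ (g : SL(2, ℤ)) (z : ℍ),
      G (g • z) = (G ∣[(12 * (k : ℤ))] g) z * denom g z ^ (12 * k) := by
    intro g z
    have hd := denom_ne_zero g z
    rw [ModularForm.SL_slash_apply, zpow_neg, mul_assoc]
    have : (denom g z ^ (12 * (k : ℤ)))⁻¹ * denom g z ^ (12 * k) = 1 := by
      have e : (12 * (k : ℤ)) = ((12 * k : ℕ) : ℤ) := by push_cast; ring
      rw [e, zpow_natCast]
      exact inv_mul_cancel₀ (pow_ne_zero _ hd)
    rw [this, mul_one]
  have hΔt : ∀ (g : SL(2, ℤ)) (z : ℍ), discriminant (g • z) = denom g z ^ 12 * discriminant z := by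
    intro g z
    have := discriminant_smul g z
    rw [this]
    norm_cast
  have hGγ : ∀ (γ : Gamma0 N) (z : ℍ), G ((γ : SL(2, ℤ)) • z)
      = ((chiC χ γ : ℂˣ) : ℂ) * G z * denom (γ : SL(2, ℤ)) z ^ (12 * k) := by
    intro γ z
    rw [hGt, hCF.slash γ]
    rfl
  have hinv : ∀ γ ∈ Gamma0 N, ∀ z : ℍ, f (γ • z) = f z := by
    intro γ hγ z
    have hd := denom_ne_zero γ z
    have hz := discriminant_ne_zero z
    rw [hf, hf, hGγ ⟨γ, hγ⟩ z, hΔt, mul_pow, mul_pow, coe_chiC_pow]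
    field_simp
    ring
  have hgrowth : Growth f := by
    intro g
    refine ⟨k * m, ?_⟩
    have h0 : IsZeroAtImInfty (G ∣[(12 * (k : ℤ))] g) := hCF.zero g
    have h1 : Tendsto ((G ∣[(12 * (k : ℤ))] g) ^ m) atImInfty (𝓝 (0 ^ m)) := Tendsto.pow h0 m
    rw [zero_pow hm.ne'] at h1
    have h2 : IsZeroAtImInfty ((G ∣[(12 * (k : ℤ))] g) ^ m) := h1
    have h3 : (fun τ : ℍ => f (g • τ) * discriminant τ ^ (k * m))
        = (G ∣[(12 * (k : ℤ))] g) ^ m := by
      funext τ
      have hd := denom_ne_zero g τ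
      have hz := discriminant_ne_zero τ
      rw [hf, hGt, hΔt, Pi.pow_apply]
      field_simp
      ring
    rw [h3]
    exact h2.isBoundedAtImInfty
  -- the series
  choose c hc using fun n => exists_iota_eq _ (halg n)
  let a0 : PowerSeries Qbar := PowerSeries.mk c
  have ha0 : a0.map (iota : Qbar →+* ℂ) = a := by
    ext n
    rw [PowerSeries.coeff_map, PowerSeries.coeff_mk]
    exact hc n
  have hqG : qExpansion 1 G = a := by
    have h1 : HasQE 1 G (qExpansion 1 G) :=
      fun τ => hasSum_qExpansion one_pos hNG.per hNG.mdiff hNG.bdd τ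
    exact h1.unique one_pos hQE
  let xG : LaurentSeries Qbar := HahnSeries.ofPowerSeries ℤ Qbar a0
  have hxG : cmI xG = qL G := by
    show ModularCurve.coeffMap (iota : Qbar →+* ℂ) (HahnSeries.ofPowerSeries ℤ Qbar a0) = _
    rw [Fermat.Agent.S24.QX.coeffMap_ofPowerSeries, ha0, qL, hqG]
  let xΔ : LaurentSeries Qbar := HahnSeries.ofPowerSeries ℤ Qbar
    ((PowerSeries.X * ModularCurve.dedekindEtaUnit : PowerSeries ℤ).map (Int.castRingHom Qbar))
  have hxΔ : cmI xΔ = qL discriminant := by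
    show ModularCurve.coeffMap (iota : Qbar →+* ℂ) (HahnSeries.ofPowerSeries ℤ Qbar _) = _
    rw [Fermat.Agent.S24.QX.coeffMap_ofPowerSeries, qL,
      Fermat.Agent.Common.qExpansion_discriminant]
    congr 1
    ext n
    rw [PowerSeries.coeff_map, PowerSeries.coeff_map, PowerSeries.coeff_map]
    simp
  have hxΔ0 : xΔ ≠ 0 := by
    intro h0
    rw [h0, map_zero] at hxΔ
    have := (Fermat.Agent.S24.QX.qL_eq_zero_iff Nice.discriminant).mp hxΔ.symm
    exact discriminant_ne_zero UpperHalfPlane.I (by rw [this]; rfl)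
  let x : LaurentSeries Qbar := xG ^ m / xΔ ^ (k * m)
  have hrep : Rep (cmI x) f := by
    refine Rep.of_mul_eq (g := discriminant ^ (k * m)) (F := G ^ m) (Nice.discriminant.pow _) hΔ0
      (hNG.pow m) ?_ ?_
    · funext τ
      exact div_mul_cancel₀ _ (hΔ0 τ)
    · have e1 : cmI x * cmI xΔ ^ (k * m) = cmI xG ^ m := by
        have e0 : x * xΔ ^ (k * m) = xG ^ m := div_mul_cancel₀ _ (pow_ne_zero _ hxΔ0)
        calc cmI x * cmI xΔ ^ (k * m) = cmI (x * xΔ ^ (k * m)) := by rw [map_mul, map_pow]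
          _ = cmI (xG ^ m) := by rw [e0]
          _ = cmI xG ^ m := map_pow _ _ _
      rw [Fermat.Agent.S24.QX.qL_pow Nice.discriminant, Fermat.Agent.S24.QX.qL_pow hNG, ← hxΔ,
        ← hxG]
      exact e1
  obtain ⟨θ₁, θ₂, hθ₂, hfθ, -⟩ := hI N f x hfM hinv hgrowth hrep
  have hq2 : qExpHom N θ₂ ≠ 0 := by
    intro h0
    exact hθ₂ (Fermat.Agent.S24.QX.qExpHom_injective N (by rw [h0, map_zero]))
  refine ⟨qExpHom N θ₁ / qExpHom N θ₂, G, discriminant ^ k, θ₁, θ₂, hCF.holo,
    discriminant_mdiff.pow k, hG0, ?_, hθ₂, div_mul_cancel₀ _ hq2, ?_, ?_⟩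
  · intro h0
    have := congrFun h0 UpperHalfPlane.I
    exact pow_ne_zero k (discriminant_ne_zero UpperHalfPlane.I) this
  · intro z
    have hz := discriminant_ne_zero z
    rw [← hfθ z, hf, Pi.pow_apply]
    field_simp
    ring
  · intro γ z
    rw [hGγ, Pi.pow_apply, Pi.pow_apply, hΔt, coe_chiC]
    ring

end Fermat.Agent.ES.Mid.F
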