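import Fermat.Agent.ES.Mid.Interface2
import Fermat.Agent.ES.Root

/-!
# ES / MID-ROOT : `m`-th roots of holomorphic functions (wrappers around `ES/Root.lean`)
-/

set_option autoImplicit false

namespace Fermat.Agent.ES.Mid.ROOT

open Fermat.Agent.ES.Mid

theorem rootBall : Stmt_RootBall := by
  intro c r f m hm hf _ hord
  exact Fermat.Agent.ES.Root.hasRoot_ball (Nat.pos_iff_ne_zero.1 hm) hf hord

theorem rootUHP : Stmt_RootUHP := by
  intro θ m hm hθ _ hord
  exact Fermat.Agent.ES.Root.exists_root_UHP (Nat.pos_iff_ne_zero.1 hm) hθ hord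

end Fermat.Agent.ES.Mid.ROOT
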