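import Fermat.Agent.ES.Mid.Interface2

/-!
# ES / Mid : (RS) roots of series

An `m`-th root in `ℂ((q))` of a series with coefficients in `ℚ̄` has coefficients in `ℚ̄`.
-/

set_option autoImplicit false

namespace Fermat.Agent.ES.Mid.RS

open Fermat.Agent.S24 (Qbar iota)
open Fermat.Agent.S24.QX (cmI)
open PowerSeries

section General

variable {F : Type*} [Field F]

/-- power series with coefficients in a subfield -/
def coeffSubring (K : Subfield F) : Subring F⟦X⟧ where
  carrier := {f | ∀ n, coeff n f ∈ K}
  mul_mem' := by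
    intro f g hf hg n
    rw [coeff_mul]
    exact K.sum_mem fun p _ => K.mul_mem (hf _) (hg _)
  one_mem' := by
    intro n
    rw [coeff_one]
    split_ifs
    · exact K.one_mem
    · exact K.zero_mem
  add_mem' := by
    intro f g hf hg n
    rw [map_add]
    exact K.add_mem (hf _) (hg _)
  zero_mem' := by
    intro n
    rw [map_zero]
    exact K.zero_mem
  neg_mem' := by
    intro f hf n
    rw [map_neg]
    exact K.neg_mem (hf _)

theorem mem_coeffSubring {K : Subfield F} {f : F⟦X⟧} :
    f ∈ coeffSubring K ↔ ∀ n, coeff n f ∈ K := Iff.rfl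

/-- the key induction. -/
theorem coeff_mem_of_pow_mem [CharZero F] (K : Subfield F) (m : ℕ) (hm : 0 < m) (u : F⟦X⟧)
    (h0 : coeff 0 u ≠ 0) (h0' : coeff 0 u ∈ K) (h : u ^ m ∈ coeffSubring K) :
    u ∈ coeffSubring K := by
  intro n
  induction n using Nat.strong_induction_on with
  | _ n ih =>
    rcases Nat.eq_zero_or_pos n with rfl | hn
    · exact h0'
    · set a : F⟦X⟧ := ((trunc n u : Polynomial F) : F⟦X⟧) with ha
      set b : F⟦X⟧ := PowerSeries.mk fun i => coeff (i + n) u with hb
      have hu : u = a + b * X ^ n := by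
        rw [add_comm]
        exact eq_shift_mul_X_pow_add_trunc n u
      have haK : a ∈ coeffSubring K := by
        intro i
        rw [ha, Polynomial.coeff_coe, coeff_trunc]
        split_ifs with hi
        · exact ih i hi
        · exact K.zero_mem
      have ha0 : coeff 0 a = coeff 0 u := by
        rw [ha, Polynomial.coeff_coe, coeff_trunc, if_pos hn]
      obtain ⟨k, hk⟩ := Polynomial.powAddExpansion a (b * X ^ n) m
      have h1 : coeff n (u ^ m) = coeff n (a ^ m) + m * coeff 0 u ^ (m - 1) * coeff n u := by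
        rw [hu, hk, map_add, map_add, ← hu]
        have e1 : coeff n ((m : F⟦X⟧) * a ^ (m - 1) * (b * X ^ n)) =
            m * coeff 0 u ^ (m - 1) * coeff n u := by
          rw [← mul_assoc, coeff_mul_X_pow', if_pos le_rfl, Nat.sub_self]
          simp only [coeff_zero_eq_constantCoeff, map_mul, map_pow, map_natCast]
          rw [← coeff_zero_eq_constantCoeff_apply a, ha0, ← coeff_zero_eq_constantCoeff_apply b, hb,
            coeff_mk, zero_add, coeff_zero_eq_constantCoeff_apply]
        have e2 : coeff n (k * (b * X ^ n) ^ 2) = 0 := by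
          have : k * (b * X ^ n) ^ 2 = k * b ^ 2 * X ^ (2 * n) := by ring
          rw [this, coeff_mul_X_pow', if_neg (by omega)]
        rw [e1, e2, add_zero]
      have h2 : (m : F) * coeff 0 u ^ (m - 1) ≠ 0 :=
        mul_ne_zero (Nat.cast_ne_zero.2 hm.ne') (pow_ne_zero _ h0)
      have h3 : coeff n u = (coeff n (u ^ m) - coeff n (a ^ m)) / (m * coeff 0 u ^ (m - 1)) := by
        rw [h1, add_sub_cancel_left, mul_div_cancel_left₀ _ h2]
      rw [h3]
      exact K.div_mem (K.sub_mem (h n) ((coeffSubring K).pow_mem haK m n))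
        (K.mul_mem (natCast_mem K m) (K.pow_mem h0' _))

end General

/-- algebraic numbers lie in the range of `iota`. -/
theorem mem_range_iota_of_isIntegral {z : ℂ} (hz : IsIntegral ℚ z) : z ∈ iota.fieldRange := by
  have := hz.mem_range_algHom_of_minpoly_splits (K := Qbar) (IsAlgClosed.splits _) iota
  exact this

theorem isIntegral_iota (a : Qbar) : IsIntegral ℚ (iota a) :=
  ((AlgebraicClosure.isAlgebraic ℚ).isIntegral.isIntegral a).map iota

/-- a Laurent series all of whose coefficients lie in the range of `iota` comes from `ℚ̄((q))`. -/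
theorem exists_cmI_eq (y : LaurentSeries ℂ) (h : ∀ k, y.coeff k ∈ iota.fieldRange) :
    ∃ x₀ : LaurentSeries Qbar, y = cmI x₀ := by
  have hinj : Function.Injective iota := iota.toRingHom.injective
  have hg0 : Function.invFun iota 0 = 0 := by
    have := Function.leftInverse_invFun hinj 0
    rwa [map_zero] at this
  refine ⟨⟨fun k => Function.invFun iota (y.coeff k), y.isPWO_support.mono ?_⟩, ?_⟩
  · intro k hk
    rw [Function.mem_support] at hk
    rw [HahnSeries.mem_support]
    intro h0
    exact hk (by rw [h0, hg0])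
  · ext k
    obtain ⟨a, ha⟩ := h k
    change y.coeff k = iota (Function.invFun iota (y.coeff k))
    exact (Function.invFun_eq ⟨a, ha⟩).symm

/-- (RS) -/
theorem rootSeries : Stmt_RootSeries := by
  intro m y x hm hyx
  by_cases hy : y = 0
  · exact ⟨0, by rw [hy, map_zero]⟩
  apply exists_cmI_eq
  set u : ℂ⟦X⟧ := y.powerSeriesPart with hu
  set r : ℤ := y.order with hr
  have hyu : y = HahnSeries.single r 1 * HahnSeries.ofPowerSeries ℤ ℂ u :=
    (LaurentSeries.single_order_mul_powerSeriesPart y).symm
  have hcoeff : ∀ n : ℕ, coeff n u = y.coeff (r + n) := LaurentSeries.powerSeriesPart_coeff y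
  have hu0 : coeff 0 u ≠ 0 := by
    rw [hcoeff, Nat.cast_zero, add_zero]
    exact fun h => hy (HahnSeries.coeff_order_eq_zero.1 h)
  have hpow : y ^ m = HahnSeries.single ((m : ℤ) * r) 1 * HahnSeries.ofPowerSeries ℤ ℂ (u ^ m) := by
    conv_lhs => rw [hyu]
    rw [mul_pow, HahnSeries.single_pow, one_pow, map_pow, nsmul_eq_mul]
  have hum : u ^ m ∈ coeffSubring iota.fieldRange.toSubfield := by
    intro n
    have h1 : (y ^ m).coeff ((n : ℤ) + (m : ℤ) * r) = coeff n (u ^ m) := by
      rw [hpow, HahnSeries.coeff_single_mul_add, one_mul]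
      exact LaurentSeries.coeff_coe_powerSeries _ _
    rw [← h1, hyx]
    exact ⟨_, rfl⟩
  have hu0' : coeff 0 u ∈ iota.fieldRange := by
    apply mem_range_iota_of_isIntegral
    apply IsIntegral.of_pow hm
    obtain ⟨a, ha⟩ := hum 0
    have : coeff 0 u ^ m = iota a := by
      rw [show iota a = coeff 0 (u ^ m) from ha]
      simp
    rw [this]
    exact isIntegral_iota a
  have hmain := coeff_mem_of_pow_mem iota.fieldRange.toSubfield m hm u hu0 hu0' hum
  intro k
  by_cases hk : r ≤ k
  · obtain ⟨n, hn⟩ := Int.eq_ofNat_of_zero_le (sub_nonneg.2 hk)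
    have : k = r + n := by omega
    rw [this, ← hcoeff]
    exact hmain n
  · rw [HahnSeries.coeff_eq_zero_of_lt_order (not_le.1 hk)]
    exact zero_mem _

end Fermat.Agent.ES.Mid.RS
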