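import Fermat.Agent.ES.Mid.Interface2

/-!
# ES / Mid : the Hecke operators `tau` preserve `IsPE`
-/

set_option autoImplicit false

namespace Fermat.Agent.ES.Mid.TP

open CongruenceSubgroup Matrix.SpecialLinearGroup
open scoped MatrixGroups
open Fermat.Agent.S16.HH

/-! ### Sums over the orbits of an injective self-map of a finite type -/

theorem sum_eq_zero_of_orbit_sums {ι A : Type*} [Finite ι] [DecidableEq ι] [AddCommMonoid A]
    (s : ι → ι) (hs : Function.Injective s) (f : ι → A)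
    (h : ∀ i, ∑ t ∈ Finset.range (Function.minimalPeriod s i), f (s^[t] i) = 0) :
    ∀ S : Finset ι, (∀ i ∈ S, s i ∈ S) → ∑ i ∈ S, f i = 0 := by
  intro S
  induction S using Finset.strongInduction with
  | H S ih =>
    intro hS
    rcases S.eq_empty_or_nonempty with rfl | ⟨i, hi⟩
    · simp
    set r := Function.minimalPeriod s i with hr
    have hrpos : 0 < r := Function.minimalPeriod_pos_of_mem_periodicPts (hs.mem_periodicPts i)
    set O : Finset ι := (Finset.range r).image (fun t => s^[t] i) with hO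
    have hiter : ∀ t, s^[t] i ∈ S := by
      intro t
      induction t with
      | zero => exact hi
      | succ t iht => rw [Function.iterate_succ_apply']; exact hS _ iht
    have hOS : O ⊆ S := by
      intro j hj
      obtain ⟨t, -, rfl⟩ := Finset.mem_image.1 hj
      exact hiter t
    have hiO : i ∈ O := Finset.mem_image.2 ⟨0, Finset.mem_range.2 hrpos, rfl⟩
    have hsumO : ∑ j ∈ O, f j = 0 := by
      rw [hO, Finset.sum_image]
      · exact h i
      · intro a ha b hb hab
        exact Function.iterate_injOn_Iio_minimalPeriod (Finset.mem_range.1 ha)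
          (Finset.mem_range.1 hb) hab
    have hstab : ∀ j ∈ S \ O, s j ∈ S \ O := by
      intro j hj
      rw [Finset.mem_sdiff] at hj ⊢
      refine ⟨hS j hj.1, fun hsj => hj.2 ?_⟩
      obtain ⟨t, ht, htj⟩ := Finset.mem_image.1 hsj
      rcases t with _ | t
      · -- `s j = i = s^[r] i`
        obtain ⟨r', hr'⟩ : ∃ r', r = r' + 1 := Nat.exists_eq_succ_of_ne_zero hrpos.ne'
        have h1 : s^[r] i = i := Function.iterate_minimalPeriod
        rw [hr', Function.iterate_succ_apply'] at h1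
        have h2 : s^[r'] i = j := hs (h1.trans htj)
        exact Finset.mem_image.2 ⟨r', Finset.mem_range.2 (by omega), h2⟩
      · simp only [Function.iterate_succ_apply'] at htj
        have h2 : s^[t] i = j := hs htj
        exact Finset.mem_image.2 ⟨t, Finset.mem_range.2 (by
          have := Finset.mem_range.1 ht
          omega), h2⟩
    have hlt : S \ O ⊂ S := by
      refine Finset.ssubset_iff_subset_ne.2 ⟨Finset.sdiff_subset, fun heq => ?_⟩
      have : i ∈ S \ O := by rw [heq]; exact hi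
      exact (Finset.mem_sdiff.1 this).2 hiO
    rw [← Finset.sum_sdiff hOS, ih _ hlt hstab, hsumO, add_zero]

/-! ### Traces of powers in `SL(2,ℤ)` -/

theorem cayley_hamilton (M : Matrix (Fin 2) (Fin 2) ℤ) (hM : M.det = 1) :
    M * M = M.trace • M - 1 := by
  rw [Matrix.det_fin_two] at hM
  ext a b
  fin_cases a <;> fin_cases b <;>
    simp only [Matrix.mul_apply, Fin.sum_univ_two, Matrix.sub_apply, Matrix.smul_apply,
      Matrix.trace_fin_two, smul_eq_mul, Fin.zero_eta, Fin.mk_one, Fin.isValue, Matrix.one_apply_eq,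
      ne_eq, zero_ne_one, one_ne_zero, not_false_eq_true, Matrix.one_apply_ne] <;>
    first | linear_combination -hM | linear_combination (0 : ℤ) * hM

theorem trace_pow_rec (M : Matrix (Fin 2) (Fin 2) ℤ) (hM : M.det = 1) (r : ℕ) :
    (M ^ (r + 2)).trace = M.trace * (M ^ (r + 1)).trace - (M ^ r).trace := by
  have h1 : M ^ (r + 2) = M.trace • M ^ (r + 1) - M ^ r := by
    rw [pow_add, pow_two, cayley_hamilton M hM, mul_sub, mul_one, Matrix.mul_smul, ← pow_succ]
  rw [h1, Matrix.trace_sub, Matrix.trace_smul, smul_eq_mul]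

theorem sq_le_four_step {t x y : ℤ} (ht : t ^ 2 ≤ 4) (hx : x ^ 2 ≤ 4)
    (hQ : x ^ 2 - t * x * y + y ^ 2 = 4 - t ^ 2) : y ^ 2 ≤ 4 := by
  have h1 : -2 ≤ t := by nlinarith
  have h2 : t ≤ 2 := by nlinarith
  interval_cases t
  · have : (x + y) ^ 2 = 0 := by nlinarith
    have : x + y = 0 := by simpa using this
    have : y = -x := by linarith
    rw [this]; nlinarith
  · nlinarith [sq_nonneg (2 * x + y)]
  · nlinarith [sq_nonneg x]
  · nlinarith [sq_nonneg (2 * x - y)]
  · have : (x - y) ^ 2 = 0 := by nlinarith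
    have : x - y = 0 := by simpa using this
    have : y = x := by linarith
    rw [this]; exact hx

theorem trace_pow_sq_le (M : Matrix (Fin 2) (Fin 2) ℤ) (hM : M.det = 1)
    (ht : M.trace ^ 2 ≤ 4) (r : ℕ) : (M ^ r).trace ^ 2 ≤ 4 := by
  have key : ∀ r : ℕ, (M ^ r).trace ^ 2 ≤ 4 ∧
      (M ^ r).trace ^ 2 - M.trace * (M ^ r).trace * (M ^ (r + 1)).trace
        + (M ^ (r + 1)).trace ^ 2 = 4 - M.trace ^ 2 := by
    intro r
    induction r with
    | zero =>
      simp [Matrix.trace_fin_two]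
      ring
    | succ r ih =>
      refine ⟨sq_le_four_step ht ih.1 ih.2, ?_⟩
      rw [trace_pow_rec M hM r]
      linear_combination ih.2
  exact (key r).1

/-! ### Orbit sums for abstract Hecke data -/

section abstract

variable {G Γ : Type*} [Group G] [Group Γ] {j : Γ →* G} {ι : Type*} (D : HeckeData j ι)

theorem σ_pow (γ : Γ) (r : ℕ) (i : ι) : D.σ (γ ^ r) i = (D.σ γ)^[r] i := by
  induction r with
  | zero => simp [D.σ_one]
  | succ r ih => rw [pow_succ, D.σ_mul, ih, Function.iterate_succ_apply']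

theorem sum_g_pow {A : Type*} [AddCommGroup A] (χ : Additive Γ →+ A) (γ : Γ) (r : ℕ) (i : ι) :
    ∑ t ∈ Finset.range r, χ (Additive.ofMul (D.g γ ((D.σ γ)^[t] i))) =
      χ (Additive.ofMul (D.g (γ ^ r) i)) := by
  induction r with
  | zero => simp [D.g_one]
  | succ r ih =>
    rw [Finset.sum_range_succ, ih, pow_succ, D.g_mul, ofMul_mul, map_add, σ_pow]

theorem σ_injective (γ : Γ) : Function.Injective (D.σ γ) := (D.perm γ).injective

/-- If `χ` kills `g (γ ^ r) i` whenever `γ ^ r` fixes the coset `i`, then `op χ` kills `γ`. -/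
theorem op_eq_zero [Fintype ι] {A : Type*} [AddCommGroup A] (χ : Additive Γ →+ A) (γ : Γ)
    (h : ∀ (r : ℕ) (i : ι), D.σ (γ ^ r) i = i → χ (Additive.ofMul (D.g (γ ^ r) i)) = 0) :
    D.op χ (Additive.ofMul γ) = 0 := by
  classical
  rw [D.op_apply]
  refine sum_eq_zero_of_orbit_sums (D.σ γ) (σ_injective D γ)
    (fun i => χ (Additive.ofMul (D.g γ i))) ?_ Finset.univ (fun i _ => Finset.mem_univ _)
  intro i
  rw [sum_g_pow]
  apply h
  rw [σ_pow]
  exact Function.iterate_minimalPeriod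

end abstract

/-! ### The concrete case -/

theorem trace_jG (N : ℕ) (γ : Gamma0 N) :
    ((jG N γ : GL (Fin 2) ℝ) : Matrix (Fin 2) (Fin 2) ℝ).trace =
      ((((γ : SL(2, ℤ)) : Matrix (Fin 2) (Fin 2) ℤ).trace : ℤ) : ℝ) := by
  rw [Matrix.trace_fin_two, Matrix.trace_fin_two, jG_apply, mapGL_entry, mapGL_entry]
  push_cast
  rfl

theorem trace_eq_of_conj (N : ℕ) (α : GL (Fin 2) ℝ) (γ γ' : Gamma0 N)
    (h : α * jG N γ = jG N γ' * α) :
    ((γ' : SL(2, ℤ)) : Matrix (Fin 2) (Fin 2) ℤ).trace =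
      ((γ : SL(2, ℤ)) : Matrix (Fin 2) (Fin 2) ℤ).trace := by
  have h1 : jG N γ' = α * jG N γ * α⁻¹ := by rw [h, mul_inv_cancel_right]
  have h2 : ((jG N γ' : GL (Fin 2) ℝ) : Matrix (Fin 2) (Fin 2) ℝ).trace =
      ((jG N γ : GL (Fin 2) ℝ) : Matrix (Fin 2) (Fin 2) ℝ).trace := by
    rw [h1]
    exact Matrix.trace_units_conj α _
  rw [trace_jG, trace_jG] at h2
  exact_mod_cast h2

theorem op_isPE {N : ℕ} {ι : Type*} [Fintype ι] (D : HeckeData (jG N) ι) {A : Type*}
    [AddCommGroup A] (χ : Additive (Gamma0 N) →+ A) (hχ : IsPE χ) : IsPE (D.op χ) := by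
  intro γ hγ
  refine op_eq_zero D χ γ fun r i hri => hχ _ ?_
  have h1 := D.hmul (γ ^ r) i
  rw [hri] at h1
  rw [trace_eq_of_conj N _ _ _ h1]
  have h2 : (((γ ^ r : Gamma0 N) : SL(2, ℤ)) : Matrix (Fin 2) (Fin 2) ℤ) =
      ((γ : SL(2, ℤ)) : Matrix (Fin 2) (Fin 2) ℤ) ^ r := by
    rw [← Matrix.SpecialLinearGroup.coe_pow]
    rfl
  rw [h2]
  exact trace_pow_sq_le _ (Matrix.SpecialLinearGroup.det_coe _) hγ r

theorem tauPE : Stmt_TauPE := by
  intro N _ ℓ A _ χ hχ
  unfold tau Fermat.Agent.S16.HH.tau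
  split_ifs with h
  · exact op_isPE (dataU N h) χ hχ
  · exact op_isPE (dataT N ℓ.2 h) χ hχ

end Fermat.Agent.ES.Mid.TP

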