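import Fermat.Agent.ES.Mid.Interface2

/-!
# ES / Mid, package VAL : a nontrivial `ℤ`-valued valuation is a positive multiple of a place
(helper29; the value-one case follows the proof of `S27/CH3a.lean`, re-proved here to keep the
import closure small)
-/

set_option autoImplicit false

namespace Fermat.Agent.ES.Mid.VAL

open AlgebraicCurve Fermat.Agent

variable {K : Type*} {F : Type*} [Field K] [Field F] [Algebra K F] {V : F → ℤ}

theorem isUnit_of_V_eq_zero (h : S24.IsVal K V) (a : h.valuationSubring) (ha : (a : F) ≠ 0)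
    (hV : V (a : F) = 0) : IsUnit a := by
  have hinv : (a : F)⁻¹ ∈ h.valuationSubring := Or.inr (by rw [h.map_inv ha, hV]; simp)
  refine IsUnit.of_mul_eq_one ⟨(a : F)⁻¹, hinv⟩ ?_
  ext
  simp [ha]

theorem V_nonneg (h : S24.IsVal K V) (a : h.valuationSubring) (ha : (a : F) ≠ 0) :
    0 ≤ V (a : F) := (h.mem_valuationSubring.1 a.2).resolve_left ha

theorem V_unit (h : S24.IsVal K V) (u : (h.valuationSubring)ˣ) :
    V ((u : h.valuationSubring) : F) = 0 := by
  have h1 : ((u : h.valuationSubring) : F) * ((u⁻¹ : (h.valuationSubring)ˣ) : h.valuationSubring)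
      = 1 := by
    have h0 := congrArg (Subtype.val) (Units.mul_inv u)
    exact h0
  have hu : ((u : h.valuationSubring) : F) ≠ 0 := left_ne_zero_of_mul_eq_one h1
  have hu' : (((u⁻¹ : (h.valuationSubring)ˣ) : h.valuationSubring) : F) ≠ 0 :=
    right_ne_zero_of_mul_eq_one h1
  have h2 := h.map_mul _ _ hu hu'
  rw [h1, h.map_one] at h2
  have h3 := V_nonneg h _ hu
  have h4 := V_nonneg h _ hu'
  omega

theorem irreducible_pi (h : S24.IsVal K V) (π : h.valuationSubring) (hπ0 : (π : F) ≠ 0)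
    (hπ : V (π : F) = 1) : Irreducible π := by
  constructor
  · intro hu
    obtain ⟨u, rfl⟩ := hu
    rw [V_unit h u] at hπ
    exact zero_ne_one hπ
  · intro a b hab
    have hab' : (π : F) = (a : F) * (b : F) := by
      have := congrArg (Subtype.val) hab
      simpa using this
    have ha0 : (a : F) ≠ 0 := fun h0 => hπ0 (by rw [hab', h0, zero_mul])
    have hb0 : (b : F) ≠ 0 := fun h0 => hπ0 (by rw [hab', h0, mul_zero])
    have h1 := h.map_mul _ _ ha0 hb0
    rw [← hab', hπ] at h1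
    have h2 := V_nonneg h a ha0
    have h3 := V_nonneg h b hb0
    rcases (show V (a : F) = 0 ∨ V (b : F) = 0 by omega) with h4 | h4
    · exact Or.inl (isUnit_of_V_eq_zero h a ha0 h4)
    · exact Or.inr (isUnit_of_V_eq_zero h b hb0 h4)

theorem hasFactorization (h : S24.IsVal K V) (π : h.valuationSubring) (hπ0 : (π : F) ≠ 0)
    (hπ : V (π : F) = 1) :
    IsDiscreteValuationRing.HasUnitMulPowIrreducibleFactorization h.valuationSubring := by
  refine ⟨π, irreducible_pi h π hπ0 hπ, ?_⟩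
  intro x hx
  have hx0 : (x : F) ≠ 0 := fun h0 => hx (Subtype.ext h0)
  have hxV := V_nonneg h x hx0
  refine ⟨(V (x : F)).toNat, ?_⟩
  have hVu : V ((x : F) * ((π : F) ^ (V (x : F)).toNat)⁻¹) = 0 := by
    rw [h.map_mul _ _ hx0 (inv_ne_zero (pow_ne_zero _ hπ0)), h.map_inv (pow_ne_zero _ hπ0),
      h.map_pow hπ0, hπ, Int.toNat_of_nonneg hxV]
    ring
  have hu0 : (x : F) * ((π : F) ^ (V (x : F)).toNat)⁻¹ ≠ 0 :=
    mul_ne_zero hx0 (inv_ne_zero (pow_ne_zero _ hπ0))
  have hmem : (x : F) * ((π : F) ^ (V (x : F)).toNat)⁻¹ ∈ h.valuationSubring :=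
    Or.inr hVu.ge
  obtain ⟨u, hu⟩ := isUnit_of_V_eq_zero h ⟨_, hmem⟩ hu0 hVu
  refine ⟨u, ?_⟩
  rw [hu]
  ext
  simp only [MulMemClass.coe_mul, SubmonoidClass.coe_pow]
  field_simp

/-- a `ℤ`-valued valuation taking the value `1` is the `ord` of a place -/
theorem exists_place_of_one (h : S24.IsVal K V) (hex : ∃ π : F, π ≠ 0 ∧ V π = 1) :
    ∃ P : Place K F, ∀ f : F, f ≠ 0 → P.ord f = V f := by
  obtain ⟨π, hπ0, hπ⟩ := hex
  have hπmem : π ∈ h.valuationSubring := Or.inr (by rw [hπ]; exact zero_le_one)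
  have hfac := hasFactorization h ⟨π, hπmem⟩ hπ0 hπ
  have hdvr : IsDiscreteValuationRing h.valuationSubring :=
    IsDiscreteValuationRing.ofHasUnitMulPowIrreducibleFactorization hfac
  let P : Place K F :=
    { toValuationSubring := h.valuationSubring
      algebraMap_mem' := fun a => h.algebraMap_mem_subring a
      ne_top' := by
        intro htop
        have h1 : π⁻¹ ∈ h.valuationSubring := by rw [htop]; exact ValuationSubring.mem_top _
        rcases h.mem_valuationSubring.1 h1 with h2 | h2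
        · exact inv_ne_zero hπ0 h2
        · rw [h.map_inv hπ0, hπ] at h2
          omega
      isPrincipalIdealRing' := hdvr.toIsPrincipalIdealRing }
  refine ⟨P, fun f hf => ?_⟩
  have hirr : Irreducible (⟨π, hπmem⟩ : P.toValuationSubring) :=
    irreducible_pi h ⟨π, hπmem⟩ hπ0 hπ
  obtain ⟨u, hu⟩ := P.exists_unit_mul_zpow hf hirr
  have hu0 : ((u : P.toValuationSubring) : F) ≠ 0 := by
    intro h0
    rw [h0, zero_mul] at hu
    exact hf hu
  have h1 : V f = V ((u : P.toValuationSubring) : F) + V (π ^ P.ord f) := by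
    conv_lhs => rw [hu]
    exact h.map_mul _ _ hu0 (zpow_ne_zero _ hπ0)
  rw [h.map_zpow hπ0, hπ, mul_one, V_unit h u, zero_add] at h1
  exact h1.symm

/-- there is a least positive value, and it divides all values -/
theorem exists_min (h : S24.IsVal K V) (hex : ∃ f : F, f ≠ 0 ∧ V f ≠ 0) :
    ∃ (e : ℕ) (π : F), 0 < e ∧ π ≠ 0 ∧ V π = e ∧ ∀ g : F, g ≠ 0 → (e : ℤ) ∣ V g := by
  classical
  have hpos : ∃ n : ℕ, 0 < n ∧ ∃ f : F, f ≠ 0 ∧ V f = n := by
    obtain ⟨f, hf0, hf⟩ := hex
    rcases lt_or_gt_of_ne hf with hlt | hgt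
    · refine ⟨(-V f).toNat, by omega, f⁻¹, inv_ne_zero hf0, ?_⟩
      rw [h.map_inv hf0]; omega
    · exact ⟨(V f).toNat, by omega, f, hf0, by omega⟩
  obtain ⟨he, π, hπ0, hπ⟩ := Nat.find_spec hpos
  refine ⟨Nat.find hpos, π, he, hπ0, hπ, fun g hg => ?_⟩
  set e := Nat.find hpos with hedef
  have he' : (0 : ℤ) < e := by exact_mod_cast he
  have hr0 := Int.emod_nonneg (V g) he'.ne'
  have hr1 := Int.emod_lt_of_pos (V g) he'
  have hVr : V (g * π ^ (-(V g / e))) = V g % e := by
    rw [h.map_mul _ _ hg (zpow_ne_zero _ hπ0), h.map_zpow hπ0, hπ]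
    have := Int.emod_add_mul_ediv (V g) e
    linarith
  by_contra hnd
  have hrne : V g % e ≠ 0 := fun h0 => hnd (Int.dvd_of_emod_eq_zero h0)
  have hmin := Nat.find_min hpos (m := (V g % e).toNat) (by omega)
  apply hmin
  exact ⟨by omega, _, mul_ne_zero hg (zpow_ne_zero _ hπ0), by rw [hVr]; omega⟩

theorem isVal_div (h : S24.IsVal K V) (e : ℕ) (he : 0 < e)
    (hdvd : ∀ g : F, g ≠ 0 → (e : ℤ) ∣ V g) : S24.IsVal K (fun f => V f / e) where
  map_mul a b ha hb := by
    show V (a * b) / e = V a / e + V b / e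
    rw [h.map_mul a b ha hb, Int.add_ediv_of_dvd_left (hdvd a ha)]
  map_add a b ha hb hab := by
    show min (V a / e) (V b / e) ≤ V (a + b) / e
    have he' : (0 : ℤ) < e := by exact_mod_cast he
    have h1 := h.map_add a b ha hb hab
    rcases le_total (V a) (V b) with hle | hle
    · rw [min_eq_left hle] at h1
      exact (min_le_left _ _).trans (Int.ediv_le_ediv he' h1)
    · rw [min_eq_right hle] at h1
      exact (min_le_right _ _).trans (Int.ediv_le_ediv he' h1)
  map_const a ha := by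
    show V (algebraMap K F a) / e = 0
    rw [h.map_const a ha, Int.zero_ediv]

theorem valMult : Stmt_ValMult := by
  intro K F _ _ _ V h hex
  obtain ⟨e, π, he, hπ0, hπ, hdvd⟩ := exists_min h hex
  have he' : (e : ℤ) ≠ 0 := by exact_mod_cast he.ne'
  obtain ⟨P, hP⟩ := exists_place_of_one (isVal_div h e he hdvd)
    ⟨π, hπ0, by show V π / e = 1; rw [hπ, Int.ediv_self he']⟩
  refine ⟨P, e, he, fun f hf => ?_⟩
  rw [hP f hf]
  exact (Int.mul_ediv_cancel' (hdvd f hf)).symm

end Fermat.Agent.ES.Mid.VAL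

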