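import Fermat.Agent.ES.Mid.AInterface

/-!
# ES / Mid / A-PARINV : the rotation `e(w/N)` kills all values of `Vcusp N g`
-/

set_option autoImplicit false

namespace Fermat.Agent.ES.Mid.A

open UpperHalfPlane CongruenceSubgroup AlgebraicCurve Filter Topology Function
open scoped MatrixGroups Manifold
open Fermat.Agent.S24 (Qbar FF funAlg iota MerGerm IsVal liftHom liftHom_apply)
open Fermat.Agent.S24.QX (qExpHom qExpHom_injective)
attribute [local instance] Fermat.Agent.S24.algQbarComplex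
local notation "𝕢" => Periodic.qParam

namespace ParInv

open Fermat.Agent.S24.UnifInfty

theorem zpow_Vcusp_qExpHom (N : ℕ) [NeZero N] (g : SL(2, ℤ)) (w : ℤ)
    (hmem : g * ModularGroup.T ^ w * g⁻¹ ∈ Gamma0 N) (θ : funAlg N) (hθ : θ ≠ 0) :
    (𝕢 N (w : ℂ)) ^ (Vcusp N g (qExpHom N θ)) = 1 := by
  have heq : eps N (g * ModularGroup.T ^ w) θ = eps N g θ := by
    rw [eps_eq_iff]
    intro τ
    have h2 : (g * ModularGroup.T ^ w) • τ = (g * ModularGroup.T ^ w * g⁻¹) • (g • τ) := by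
      simp [mul_smul]
    rw [h2, Fermat.Agent.S24.funAlg_invariant θ.2 _ hmem]
  rw [eps_apply, eps_apply, MerGerm.mk_eq_mk_iff] at heq
  have hinv : ∀ᶠ u in 𝓝[≠] (0 : ℂ), cuspFn N θ g (𝕢 N w * u) = cuspFn N θ g u := by
    filter_upwards [heq, cuspFn_mul_T_zpow θ g w] with u h1 h2
    rw [← h2, h1]
  have hk : meromorphicOrderAt (cuspFn N θ g) 0
      = ((meromorphicOrderAt (cuspFn N θ g) 0).untop₀ : ℤ) :=
    (WithTop.coe_untop₀_of_ne_top (order_ne_top hθ g)).symm
  rw [Vcusp_qExpHom]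
  exact rotate_zpow_order_eq_one (H := cuspFn N θ g)
    (cuspFn_meromorphicAt θ.2 g) _ hk (Periodic.qParam_ne_zero _) hinv

end ParInv

theorem a_parInv : Stmt_A_ParInv := by
  intro N _ g w hmem f hf
  obtain ⟨a, b, hb, hab⟩ := qExpHom_frac N f
  have hρb : qExpHom N b ≠ 0 := fun h0 => hb (qExpHom_injective N (by rw [h0, map_zero]))
  have ha : a ≠ 0 := by
    rintro rfl
    rw [map_zero] at hab
    exact (mul_ne_zero hf hρb) hab
  have h1 := (isVal_Vcusp N g).map_mul f (qExpHom N b) hf hρb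
  rw [hab] at h1
  have h2 : Vcusp N g f = Vcusp N g (qExpHom N a) - Vcusp N g (qExpHom N b) := by linarith
  rw [h2, zpow_sub₀ (Periodic.qParam_ne_zero _), ParInv.zpow_Vcusp_qExpHom N g w hmem a ha,
    ParInv.zpow_Vcusp_qExpHom N g w hmem b hb]
  simp

end Fermat.Agent.ES.Mid.A
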