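import Fermat.Agent.ES.Mid.AInterface

/-!
# ES / Mid / A-ROOT : existence of the `m`-th root (`Stmt_A_Root`)
-/

set_option autoImplicit false

namespace Fermat.Agent.ES.Mid.A

open UpperHalfPlane CongruenceSubgroup AlgebraicCurve Filter Topology Function
open scoped MatrixGroups Manifold
open Fermat.Agent.S24 (Qbar FF funAlg iota MerGerm IsVal liftHom liftHom_apply)
open Fermat.Agent.S24.QX (qExpHom qExpHom_injective)
attribute [local instance] Fermat.Agent.S24.algQbarComplex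
local notation "𝕢" => Periodic.qParam

theorem a_root (hVD : Stmt_A_VD) (hR : Stmt_RootUHP) : Stmt_A_Root := by
  intro N m _ _ u θ θ₂ hu hθ₂ heq
  have hm : 0 < m := NeZero.pos m
  have hq₂ : qExpHom N θ₂ ≠ 0 := (map_ne_zero_iff _ (qExpHom_injective N)).mpr hθ₂
  have hθ : θ ≠ 0 := by
    intro h
    rw [h, map_zero] at heq
    exact mul_ne_zero hu.1 (pow_ne_zero m hq₂) heq.symm
  have hθf : (θ : ℍ → ℂ) ≠ 0 := by
    intro h
    exact hθ (Subtype.ext h)
  have hmd : MDiff (θ : ℍ → ℂ) := Fermat.Agent.S24.funAlg_mdiff θ.2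
  refine hR (θ : ℍ → ℂ) m hm hmd hθf ?_
  intro z
  obtain ⟨k, -, hk⟩ := hVD N m (Vfin N z) (isVal_Vfin N z) u hu ⊤ (fun _ _ => trivial)
    (qExpHom N θ₂) hq₂
  rw [← heq, Vfin_qExpHom] at hk
  have han : AnalyticAt ℂ (fun w : ℂ => (θ : ℍ → ℂ) (ofComplex w)) (z : ℂ) :=
    Fermat.Agent.S24.B7a.analyticAt_comp_ofComplex hmd z
  have hne : meromorphicOrderAt (fun w : ℂ => (θ : ℍ → ℂ) (ofComplex w)) (z : ℂ) ≠ ⊤ := by
    have := Fermat.Agent.S24.B7a.order_ne_top_of_ne_zero N z 1 θ hθ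
    simpa using this
  rw [han.meromorphicOrderAt_eq] at hk hne
  have hfun : ((θ : ℍ → ℂ) ∘ ofComplex) = (fun w : ℂ => (θ : ℍ → ℂ) (ofComplex w)) := rfl
  rw [hfun]
  cases hn : analyticOrderAt (fun w : ℂ => (θ : ℍ → ℂ) (ofComplex w)) (z : ℂ) with
  | top => rw [hn] at hne; simp at hne
  | coe n =>
    rw [hn] at hk
    have hk' : (n : ℤ) = m * k := by simpa using hk
    have hk0 : 0 ≤ k := by
      by_contra hneg
      push Not at hneg
      have h1 : (m : ℤ) * k < 0 := mul_neg_of_pos_of_neg (by exact_mod_cast hm) hneg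
      omega
    refine ⟨k.toNat, ?_⟩
    have h2 : n = m * k.toNat := by
      have : (n : ℤ) = ((m * k.toNat : ℕ) : ℤ) := by
        push_cast
        rw [Int.toNat_of_nonneg hk0, hk']
      exact_mod_cast this
    rw [h2]

end Fermat.Agent.ES.Mid.A
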