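import Fermat.Agent.ES.Mid.AInterface

/-!
# ES / Mid / A-VD : the algebraic key lemma (helper50)
-/

set_option autoImplicit false

namespace Fermat.Agent.ES.Mid.A

open UpperHalfPlane CongruenceSubgroup AlgebraicCurve Filter Topology Function
open scoped MatrixGroups Manifold
open Fermat.Agent.S24 (Qbar FF funAlg iota MerGerm IsVal liftHom liftHom_apply)
open Fermat.Agent.S24.QX (qExpHom qExpHom_injective)
attribute [local instance] Fermat.Agent.S24.algQbarComplex

theorem a_vd (hV : Stmt_ValMult) : Stmt_A_VD := by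
  intro N m _ _ V hVal u hu D hD y hy
  have hm : (m : ℤ) ≠ 0 := by exact_mod_cast NeZero.ne m
  have huy : u * y ^ m ≠ 0 := mul_ne_zero hu.1 (pow_ne_zero _ hy)
  by_cases htriv : ∃ f : FF N, f ≠ 0 ∧ V f ≠ 0
  · obtain ⟨P, e, he, hPe⟩ := hV Qbar (FF N) V hVal htriv
    obtain ⟨t, ht0, ht⟩ := Fermat.Agent.S24.exists_ord_one P
    have heD : (e : ℤ) ∈ D := by
      have := hD t ht0
      rwa [hPe t ht0, ht, mul_one] at this
    obtain ⟨a, ha⟩ := hu.2 P
    have hP := Fermat.Agent.S24.isVal_ord P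
    refine ⟨(a + P.ord y) * e, ?_, ?_⟩
    · have := D.zsmul_mem heD (a + P.ord y)
      simpa [smul_eq_mul] using this
    · rw [hPe _ huy, hP.map_mul _ _ hu.1 (pow_ne_zero _ hy), hP.map_pow hy, ha]
      ring
  · push Not at htriv
    exact ⟨0, D.zero_mem, by rw [htriv _ huy, mul_zero]⟩

end Fermat.Agent.ES.Mid.A
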