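import Fermat.Agent.ES.Mid.Fix
import Fermat.Agent.ES.Mid.KumFormal
import Fermat.Agent.ES.Mid.KumOfDiv
import Fermat.Agent.ES.Mid.DivOfKum
import Fermat.Agent.ES.Mid.BCount
import Fermat.Agent.ES.Mid.BCuspOrd
import Fermat.Agent.ES.Mid.BFinOrd
import Fermat.Agent.ES.Mid.BUnifCusp
import Fermat.Agent.ES.Mid.BUnifFin
import Fermat.Agent.ES.Mid.KumKer
import Fermat.Agent.ES.Mid.KumSurj
import Fermat.Agent.ES.Mid.TauPE
import Fermat.Agent.ES.Mid.Finite
import Fermat.Agent.ES.Mid.Root
import Fermat.Agent.ES.Mid.RootSeries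
import Fermat.Agent.ES.Mid.ValMult
import Fermat.Agent.ES.Mid.InvRat
import Fermat.Agent.ES.Desc.Main

/-!
# ES / Mid : collector.  `Stmt_FinLevel` from the two remaining inputs
(the multiplicative Hecke operator and Claim K).
-/

set_option autoImplicit false

namespace Fermat.Agent.ES.Mid.ALL

theorem kumOfDiv : Stmt_KumOfDiv := A.kumOfDiv VAL.valMult ROOT.rootUHP

theorem divOfKum : Stmt_DivOfKum :=
  B.divOfKum_of B.count B.unifFin B.unifCusp B.finOrd B.cuspOrd

theorem kumKer : Stmt_KumKer := E.kumKer ROOT.rootUHP INV.invRat RS.rootSeries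

theorem kumSurj : Stmt_KumSurj := F.kumSurj Desc.desc INV.invRat

/-- The whole middle layer, from the multiplicative Hecke operator and Claim K. -/
theorem finLevel_of (hH : Stmt_Hecke) (hK : Fermat.Agent.S18.Stmt_ClaimK) : Stmt_FinLevel :=
  FIX.finLevel' kumMul kumInv kumPow kumUnique kumRed kumOfDiv divOfKum kumKer kumSurj
    TP.tauPE hH FIX.congInertia' (GLUE.claimK_of hK) LM.fixedOpen LM.homFinite

end Fermat.Agent.ES.Mid.ALL
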