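import Fermat.Agent.ES.Mid.DivOfKum
import Fermat.Agent.ES.Mid.BCount
import Fermat.Agent.ES.Mid.BUnifFin
import Fermat.Agent.ES.Mid.BUnifCusp
import Fermat.Agent.ES.Mid.BFinOrd
import Fermat.Agent.ES.Mid.BCuspOrd

/-!
# MID-B, final assembly: `Stmt_DivOfKum`

All five inputs of `divOfKum_of` are now proved; this file plugs them in.
-/

namespace Fermat.Agent.ES.Mid.B

/-- **MID-B.**  Characters give divisors: the unconditional `Stmt_DivOfKum`. -/
theorem divOfKum : Stmt_DivOfKum :=
  divOfKum_of count unifFin unifCusp finOrd cuspOrd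

end Fermat.Agent.ES.Mid.B
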