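import Fermat.Agent.ES.Mid.Interface2
import Fermat.Agent.S18.Glue

/-!
# ES / Mid : GLUE.  All `Stmt_*` of the middle layer imply `Stmt_FinLevel`
(the Galois action on `X_m = {χ : Γ₀(N) → ℤ/m, IsPE χ}` with the Eichler-Shimura relation).
Pure logic / algebra.
-/

set_option autoImplicit false

namespace Fermat.Agent.ES.Mid.GLUE

open UpperHalfPlane CongruenceSubgroup AlgebraicCurve
open scoped MatrixGroups Manifold
open Fermat.Agent.S24 (Qbar FF funAlg iota)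
open Fermat.Agent.S24.QX (qExpHom)
open Fermat.Agent.ES.Mid

/-! ### the Galois action on `F_N` -/

theorem gal_eq_smul (N : ℕ) (σ : GQ) (u : FF N) :
    gal N σ u = ModularCurve.arithmeticGalois (ModularCurve.modularFunctionFieldFull N) σ • u :=
  rfl

theorem gal_one (N : ℕ) (u : FF N) : gal N 1 u = u := by
  rw [gal_eq_smul, map_one, one_smul]

theorem gal_mul (N : ℕ) (σ τ : GQ) (u : FF N) : gal N (σ * τ) u = gal N σ (gal N τ u) := by
  rw [gal_eq_smul, map_mul, mul_smul]; rfl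

theorem gal_ne_zero (N : ℕ) (σ : GQ) {u : FF N} (hu : u ≠ 0) : gal N σ u ≠ 0 :=
  (map_ne_zero_iff _ (gal N σ).injective).2 hu

/-! ### closure properties of `IsDiv` -/

theorem isDiv_mul {N m : ℕ} {u v : FF N} (hu : IsDiv N m u) (hv : IsDiv N m v) :
    IsDiv N m (u * v) :=
  ⟨mul_ne_zero hu.1 hv.1, fun P => by
    rw [Place.ord_mul P hu.1 hv.1]; exact dvd_add (hu.2 P) (hv.2 P)⟩

theorem isDiv_inv {N m : ℕ} {u : FF N} (hu : IsDiv N m u) : IsDiv N m u⁻¹ :=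
  ⟨inv_ne_zero hu.1, fun P => by
    rw [Place.ord_inv]; exact (dvd_neg).2 (hu.2 P)⟩

theorem isDiv_gal {N m : ℕ} {u : FF N} (hu : IsDiv N m u) (σ : GQ) :
    IsDiv N m (gal N σ u) :=
  ⟨gal_ne_zero N σ hu.1, fun P => by
    set g := ModularCurve.arithmeticGalois (ModularCurve.modularFunctionFieldFull N) σ with hg
    have h1 : P = g • (g⁻¹ • P) := by rw [smul_inv_smul]
    rw [h1, gal_eq_smul, ← hg, SemilinearAut.ord_smul]
    exact hu.2 _⟩

/-! ### closure properties of `IsPE` -/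

section PE

variable {N : ℕ} {A : Type*} [AddCommGroup A]

theorem isPE_zero : IsPE (0 : Additive (Gamma0 N) →+ A) := fun _ _ => rfl

theorem isPE_add {χ χ' : Additive (Gamma0 N) →+ A} (h : IsPE χ) (h' : IsPE χ') :
    IsPE (χ + χ') := fun γ hγ => by
  rw [AddMonoidHom.add_apply, h γ hγ, h' γ hγ, add_zero]

theorem isPE_neg {χ : Additive (Gamma0 N) →+ A} (h : IsPE χ) : IsPE (-χ) := fun γ hγ => by
  rw [AddMonoidHom.neg_apply, h γ hγ, neg_zero]

theorem isPE_nsmul {χ : Additive (Gamma0 N) →+ A} (h : IsPE χ) (n : ℕ) : IsPE (n • χ) :=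
  fun γ hγ => by
  rw [AddMonoidHom.nsmul_apply, h γ hγ, smul_zero]

theorem isPE_red {m m' : ℕ} (hd : m ∣ m') {χ : Additive (Gamma0 N) →+ ZMod m'} (h : IsPE χ) :
    IsPE (redChar hd χ) := fun γ hγ => by
  change (ZMod.castHom hd (ZMod m)) (χ (Additive.ofMul γ)) = 0
  rw [h γ hγ, map_zero]

end PE

/-! ### the action -/

open Classical in
/-- The Galois action on characters: `act σ χ` is the character of `σ u` when `χ` is the character
of `u`. -/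
noncomputable def act (N m : ℕ) [NeZero N] [NeZero m] (σ : GQ)
    (χ : Additive (Gamma0 N) →+ ZMod m) : Additive (Gamma0 N) →+ ZMod m :=
  if h : ∃ χ' : Additive (Gamma0 N) →+ ZMod m, ∃ u : FF N,
      Kum N m u χ ∧ IsPE χ' ∧ Kum N m (gal N σ u) χ' then h.choose else χ

section W

variable (hMul : Stmt_KumMul) (hInv : Stmt_KumInv) (hPow : Stmt_KumPow) (hUn : Stmt_KumUnique)
  (hA : Stmt_KumOfDiv) (hB : Stmt_DivOfKum) (hE : Stmt_KumKer)

include hMul hInv hPow hA hB hE in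
/-- KEY LEMMA (W). -/
theorem W {N m : ℕ} [NeZero N] [NeZero m] (σ : GQ) {χ : Additive (Gamma0 N) →+ ZMod m}
    (hχ : IsPE χ) {u : FF N} (hu : Kum N m u χ) :
    IsPE (act N m σ χ) ∧ Kum N m (gal N σ u) (act N m σ χ) := by
  have hdu : IsDiv N m u := hB N m u χ hu hχ
  have hex : ∃ χ' : Additive (Gamma0 N) →+ ZMod m, ∃ u : FF N,
      Kum N m u χ ∧ IsPE χ' ∧ Kum N m (gal N σ u) χ' := by
    obtain ⟨χ', h1, h2⟩ := hA N m _ (isDiv_gal hdu σ)
    exact ⟨χ', u, hu, h1, h2⟩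
  have hact : act N m σ χ = hex.choose := dif_pos hex
  obtain ⟨u'', h1, h2, h3⟩ := hex.choose_spec
  rw [hact]
  refine ⟨h2, ?_⟩
  have hdu'' : IsDiv N m u'' := hB N m u'' χ h1 hχ
  have h4 : Kum N m (u * u''⁻¹) 0 := by
    have := hMul N m _ _ _ _ hu (hInv N m _ _ h1)
    rwa [add_neg_cancel] at this
  obtain ⟨f, hf⟩ := hE N m _ h4
  have hf0 : f ≠ 0 := by
    rintro rfl
    rw [zero_pow (NeZero.ne m)] at hf
    exact (mul_ne_zero hdu.1 (inv_ne_zero hdu''.1)) hf.symm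
  have h5 : gal N σ u = gal N σ u'' * (gal N σ f) ^ m := by
    rw [← map_pow, ← map_mul, hf, mul_comm u, mul_inv_cancel_left₀ hdu''.1]
  rw [h5]
  have := hMul N m _ _ _ _ h3 (hPow N m _ (gal_ne_zero N σ hf0))
  rwa [add_zero] at this

include hMul hInv hPow hUn hA hB hE in
/-- uniqueness principle (U). -/
theorem U {N m : ℕ} [NeZero N] [NeZero m] (σ : GQ) {χ ψ : Additive (Gamma0 N) →+ ZMod m}
    (hχ : IsPE χ) {u : FF N} (hu : Kum N m u χ) (hψ : Kum N m (gal N σ u) ψ) :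
    act N m σ χ = ψ :=
  hUn N m _ _ _ (W hMul hInv hPow hA hB hE σ hχ hu).2 hψ

include hMul hPow in
theorem kum_pow {N m : ℕ} [NeZero N] [NeZero m] {χ : Additive (Gamma0 N) →+ ZMod m}
    {u : FF N} (hu : Kum N m u χ) (n : ℕ) : Kum N m (u ^ n) (n • χ) := by
  induction n with
  | zero =>
    have := hPow N m 1 one_ne_zero
    rw [one_pow] at this
    simpa using this
  | succ n ih =>
    rw [pow_succ, succ_nsmul]
    exact hMul N m _ _ _ _ ih hu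

end W

/-- `y = g ^ m` with `y ≠ 0` has trivial character. -/
theorem kum_zero_of_pow (hPow : Stmt_KumPow) {N m : ℕ} [NeZero N] [NeZero m] {y g : FF N}
    (hy : y ≠ 0) (hg : g ^ m = y) : Kum N m y 0 := by
  have hg0 : g ≠ 0 := by
    rintro rfl
    rw [zero_pow (NeZero.ne m)] at hg
    exact hy hg.symm
  rw [← hg]
  exact hPow N m g hg0

theorem finLevel (hMul : Stmt_KumMul) (hInv : Stmt_KumInv) (hPow : Stmt_KumPow)
    (hUn : Stmt_KumUnique) (hRed : Stmt_KumRed) (hA : Stmt_KumOfDiv) (hB : Stmt_DivOfKum)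
    (hE : Stmt_KumKer) (hF : Stmt_KumSurj) (hT : Stmt_TauPE) (hH : Stmt_Hecke)
    (hJ : Stmt_CongInertia) (hK : Stmt_ClaimK) (hL : Stmt_FixedOpen) (hM : Stmt_HomFinite) :
    Stmt_FinLevel := by
  intro N _
  have hW : ∀ {m : ℕ} [NeZero m] (σ : GQ) {χ : Additive (Gamma0 N) →+ ZMod m}, IsPE χ →
      ∀ {u : FF N}, Kum N m u χ → IsPE (act N m σ χ) ∧ Kum N m (gal N σ u) (act N m σ χ) :=
    fun σ _ hχ _ hu => W hMul hInv hPow hA hB hE σ hχ hu
  have hU : ∀ {m : ℕ} [NeZero m] (σ : GQ) {χ ψ : Additive (Gamma0 N) →+ ZMod m}, IsPE χ →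
      ∀ {u : FF N}, Kum N m u χ → Kum N m (gal N σ u) ψ → act N m σ χ = ψ :=
    fun σ _ _ hχ _ hu hψ => U hMul hInv hPow hUn hA hB hE σ hχ hu hψ
  refine ⟨fun m _ σ χ => act N m σ χ, ?_, ?_, ?_, ?_, ?_, ?_, ?_, ?_, ?_⟩
  · -- IsPE
    intro m _ σ χ hχ
    obtain ⟨u, hu⟩ := hF N m χ hχ
    exact (hW σ hχ hu).1
  · -- add
    intro m _ σ χ χ' hχ hχ'
    obtain ⟨u, hu⟩ := hF N m χ hχ
    obtain ⟨u', hu'⟩ := hF N m χ' hχ'
    refine hU σ (isPE_add hχ hχ') (hMul N m _ _ _ _ hu hu') ?_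
    rw [map_mul]
    exact hMul N m _ _ _ _ (hW σ hχ hu).2 (hW σ hχ' hu').2
  · -- one
    intro m _ χ hχ
    obtain ⟨u, hu⟩ := hF N m χ hχ
    refine hU 1 hχ hu ?_
    rwa [gal_one]
  · -- mul
    intro m _ σ τ χ hχ
    obtain ⟨u, hu⟩ := hF N m χ hχ
    refine hU (σ * τ) hχ hu ?_
    rw [gal_mul]
    obtain ⟨h1, h2⟩ := hW τ hχ hu
    exact (hW σ h1 h2).2
  · -- red
    intro m m' _ _ h σ χ hχ
    obtain ⟨u, hu⟩ := hF N m' χ hχ
    exact (hU σ (isPE_red h hχ) (hRed N m m' h u χ hu)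
      (hRed N m m' h _ _ (hW σ hχ hu).2)).symm
  · -- tau
    intro m _ ℓ hℓ σ χ hχ
    obtain ⟨u, hu⟩ := hF N m χ hχ
    obtain ⟨Nl, hN1, hN2, -⟩ := hH N ℓ hℓ
    refine hU σ (hT N ℓ _ χ hχ) (hN1 m u χ hu) ?_
    rw [← hN2]
    exact hN1 m _ _ (hW σ hχ hu).2
  · -- finite level
    intro m _
    have hfin : Finite (Additive (Gamma0 N) →+ ZMod m) := hM N m
    have hex : ∀ χ : Additive (Gamma0 N) →+ ZMod m, ∃ L : IntermediateField ℚ Qbar,
        FiniteDimensional ℚ L ∧ ∀ σ : GQ, (∀ x ∈ L, σ x = x) → IsPE χ → act N m σ χ = χ := by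
      intro χ
      by_cases hχ : IsPE χ
      · obtain ⟨u, hu⟩ := hF N m χ hχ
        obtain ⟨L, hL1, hL2⟩ := hL N u
        refine ⟨L, hL1, fun σ hσ _ => hU σ hχ hu ?_⟩
        rwa [hL2 σ hσ]
      · exact ⟨⊥, inferInstance, fun _ _ h => absurd h hχ⟩
    choose L hL1 hL2 using hex
    refine ⟨⨆ χ, L χ, ?_, ?_⟩
    · have := hL1
      exact IntermediateField.finiteDimensional_iSup_of_finite
    · intro σ hσ χ hχ
      exact hL2 χ σ (fun x hx => hσ x ((le_iSup L χ) hx)) hχ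
  · -- unramified
    intro m _ q hq hqN hqm A hA' σ hσ χ hχ
    obtain ⟨u, hu⟩ := hF N m χ hχ
    have hdu : IsDiv N m u := hB N m u χ hu hχ
    have hdy : IsDiv N m (gal N σ u * u⁻¹) := isDiv_mul (isDiv_gal hdu σ) (isDiv_inv hdu)
    obtain ⟨g, hg⟩ := hK N q hq hqN A hA' m hqm _ (hJ N q A hq hqN hA' σ hσ u hdu.1) hdy
    have h0 := kum_zero_of_pow hPow hdy.1 hg
    have h1 := hMul N m _ _ _ _ (hW σ hχ hu).2 (hInv N m _ _ hu)
    have h2 := hUn N m _ _ _ h1 h0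
    rwa [← sub_eq_add_neg, sub_eq_zero] at h2
  · -- Eichler-Shimura relation
    intro m _ ℓ hℓN hℓm A hA' σ hσ χ hχ
    obtain ⟨u, hu⟩ := hF N m χ hχ
    have hdu : IsDiv N m u := hB N m u χ hu hχ
    obtain ⟨Nl, hN1, -, hN3⟩ := hH N ℓ hℓN
    obtain ⟨h1, h2⟩ := hW σ hχ hu
    obtain ⟨h3, h4⟩ := hW σ h1 h2
    have h5 : Kum N m (gal N σ (gal N σ u) * u ^ (ℓ : ℕ) * (Nl (gal N σ u))⁻¹)
        (act N m σ (act N m σ χ) + (ℓ : ℕ) • χ + -(tau N ℓ (ZMod m) (act N m σ χ))) :=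
      hMul N m _ _ _ _ (hMul N m _ _ _ _ h4 (kum_pow hMul hPow hu _))
        (hInv N m _ _ (hN1 m _ _ h2))
    have h6 : IsPE (act N m σ (act N m σ χ) + (ℓ : ℕ) • χ +
        -(tau N ℓ (ZMod m) (act N m σ χ))) :=
      isPE_add (isPE_add h3 (isPE_nsmul hχ _)) (isPE_neg (hT N ℓ _ _ h1))
    have hdy := hB N m _ _ h5 h6
    obtain ⟨g, hg⟩ := hK N ℓ ℓ.2 hℓN A hA' m hℓm _ (hN3 A hA' σ hσ u hdu.1) hdy
    have h0 := kum_zero_of_pow hPow hdy.1 hg
    have h7 := hUn N m _ _ _ h5 h0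
    rw [← h7]
    abel

/-- The adaptor from the bundled form of Claim K (team KL / S18 glue). -/
theorem claimK_of (h : Fermat.Agent.S18.Stmt_ClaimK) : Stmt_ClaimK := by
  intro N _ ℓ hℓ hℓN A hA m hm u hu hdiv
  obtain ⟨y₁, y₂, h₁, h₂, huy, hred, hne⟩ := hu
  have : Fact ℓ.Prime := ⟨hℓ⟩
  have hy2 : (⟨_, h₂⟩ : ModularCurve.modularFunctionFieldBar N) ≠ 0 := by
    intro h0
    have h0' : ModularCurve.coeffMap A.subtype y₂ = 0 := congrArg Subtype.val h0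
    have h1 : y₂ = 0 := by
      apply Fermat.Agent.S18.coeffMap_subtype_injective A
      rw [h0', map_zero]
    exact hne (by rw [h1, map_zero])
  have hu' : u = (⟨_, h₁⟩ : ModularCurve.modularFunctionFieldBar N) / ⟨_, h₂⟩ := by
    rw [eq_div_iff hy2]
    exact Subtype.ext huy
  obtain ⟨g, hg⟩ := h N ℓ hℓN A hA m hm y₁ y₂ h₁ h₂ hred hne (fun P => by
    rw [← hu']; exact hdiv.2 P)
  exact ⟨g, by rw [hg, ← hu']⟩

end Fermat.Agent.ES.Mid.GLUE
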